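import Fermat.Agent.Gateway.BaseChange.Fixed
import Fermat.Agent.S23.Descent

/-!
# P-GATEWAY WP-BC: automorphisms of an algebraically closed field over a subfield (helper86)

* `exists_algEquiv_of_transcendenceBasis` : automorphisms of `K[B]` extend to `L`.
* `exists_algEquiv_add_of_transcendental` : `x ↦ x + c` for `x` transcendental over `K`.
* `isFixedBase_of_isAlgClosed` : `K` algebraically closed in... (`K`, `L` algebraically closed)
  ⟹ `K` is the fixed field of `Aut(L/K)`.
* `infinite_orbit_of_transcendental` : a transcendental has infinite `Aut(L/K)`-orbit.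
-/

set_option autoImplicit false

noncomputable section

namespace Fermat.Agent.Gateway.BaseChange

open MvPolynomial

variable {K L : Type*} [Field K] [Field L] [Algebra K L] [IsAlgClosed L]

theorem exists_algEquiv_of_transcendenceBasis {ι : Type*} (v : ι → L)
    (hv : IsTranscendenceBasis K v) (e : MvPolynomial ι K ≃ₐ[K] MvPolynomial ι K) :
    ∃ σ : L ≃ₐ[K] L, ∀ p : MvPolynomial ι K, σ (aeval v p) = aeval v (e p) := by
  obtain ⟨σ, hσ⟩ := Fermat.Agent.S23.exists_ringEquiv_of_transcendenceBasis (R := K) v hv
    e.toRingEquiv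
  refine ⟨AlgEquiv.ofRingEquiv (f := σ) fun c => ?_, fun p => hσ p⟩
  have h1 := hσ (C c)
  have h2 : e (C c) = C c := by
    rw [← MvPolynomial.algebraMap_eq]
    exact e.commutes c
  simp only [AlgEquiv.coe_ringEquiv, h2, aeval_C] at h1
  exact h1

/-- the automorphism of `K[B]` with `X i ↦ X i + c i` -/
def addShiftEquiv (ι : Type*) (c : ι → K) : MvPolynomial ι K ≃ₐ[K] MvPolynomial ι K :=
  AlgEquiv.ofAlgHom (aeval fun i => X i + C (c i)) (aeval fun i => X i - C (c i))
    (by ext i; simp) (by ext i; simp)

theorem addShiftEquiv_X (ι : Type*) (c : ι → K) (i : ι) :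
    addShiftEquiv ι c (X i) = X i + C (c i) := by
  simp [addShiftEquiv]

theorem exists_algEquiv_add_of_transcendental (x : L) (hx : Transcendental K x) (c : K) :
    ∃ σ : L ≃ₐ[K] L, σ x = x + algebraMap K L c := by
  have hind : AlgebraicIndepOn K id ({x} : Set L) := by
    have : AlgebraicIndependent K (fun i : ({x} : Set L) => id (i : L)) := by
      rw [algebraicIndependent_unique_type_iff]
      simpa using hx
    exact this
  obtain ⟨t, hst, ht⟩ := exists_isTranscendenceBasis_superset hind
  obtain ⟨σ, hσ⟩ := exists_algEquiv_of_transcendenceBasis (K := K) ((↑) : t → L) ht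
    (addShiftEquiv t fun _ => c)
  refine ⟨σ, ?_⟩
  have hxt : x ∈ t := hst rfl
  have := hσ (X ⟨x, hxt⟩)
  simpa [addShiftEquiv_X] using this

theorem exists_algEquiv_ne_of_transcendental (x : L) (hx : Transcendental K x) :
    ∃ σ : L ≃ₐ[K] L, σ x ≠ x := by
  obtain ⟨σ, hσ⟩ := exists_algEquiv_add_of_transcendental x hx 1
  refine ⟨σ, ?_⟩
  rw [hσ]
  simp

omit [IsAlgClosed L] in
theorem mem_range_of_isAlgebraic_of_isAlgClosed [IsAlgClosed K] {c : L} (hc : IsAlgebraic K c) :
    c ∈ Set.range (algebraMap K L) := by
  have h1 : (minpoly K c).degree = 1 :=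
    IsAlgClosed.degree_eq_one_of_irreducible K (minpoly.irreducible hc.isIntegral)
  exact minpoly.mem_range_of_degree_eq_one K c h1

omit [IsAlgClosed L] in
theorem transcendental_of_not_mem_range [IsAlgClosed K] {c : L}
    (hc : c ∉ Set.range (algebraMap K L)) : Transcendental K c :=
  fun halg => hc (mem_range_of_isAlgebraic_of_isAlgClosed halg)

/-- For `K ⊆ L` both algebraically closed, `K` is the fixed field of `Aut(L/K)`. -/
theorem isFixedBase_of_isAlgClosed [IsAlgClosed K] : IsFixedBase K L := by
  intro c hc
  by_contra hcon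
  obtain ⟨σ, hσ⟩ := exists_algEquiv_ne_of_transcendental c (transcendental_of_not_mem_range hcon)
  exact hσ (hc σ)

/-- A transcendental element has infinite `Aut(L/K)`-orbit (char. 0). -/
theorem infinite_orbit_of_transcendental [CharZero K] (x : L) (hx : Transcendental K x) :
    (Set.range fun σ : L ≃ₐ[K] L => σ x).Infinite := by
  have hinj : Function.Injective fun n : ℕ => x + algebraMap K L (n : K) := by
    intro m n hmn
    have h1 : algebraMap K L (m : K) = algebraMap K L (n : K) := add_left_cancel hmn
    exact_mod_cast (algebraMap K L).injective h1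
  refine Set.infinite_of_injective_forall_mem hinj fun n => ?_
  obtain ⟨σ, hσ⟩ := exists_algEquiv_add_of_transcendental x hx (n : K)
  exact ⟨σ, hσ⟩

/-- An element with finite `Aut(L/K)`-orbit lies in `K` (`K`, `L` alg. closed, char. 0). -/
theorem mem_range_of_finite_orbit [IsAlgClosed K] [CharZero K] (x : L)
    (hx : (Set.range fun σ : L ≃ₐ[K] L => σ x).Finite) : x ∈ Set.range (algebraMap K L) := by
  by_contra hcon
  exact infinite_orbit_of_transcendental x (transcendental_of_not_mem_range hcon) hx

end Fermat.Agent.Gateway.BaseChange
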