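/-
helper15 (P-GATEWAY, WP-BC part BC2(i)): Laurent expansion of a function field at a place whose
residue field is the field of constants.

* `ExpData K A`: a `K`-algebra `A` with a `K`-algebra retraction `res : A → K` whose kernel is
  generated by a regular element `t`.
* `ExpData.expand : A →ₐ[K] PowerSeries K`, the `t`-adic expansion, with `expand t = X` and
  `constantCoeff (expand a) = res a`.
* `placeExpand`: for a place `v` of `F/K` with `K → v.ResidueField` surjective, a `K`-algebra map
  `F →ₐ[K] LaurentSeries K` whose order function is `v.ord`.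
-/
import Mathlib
import Fermat.Prelude.Def_AlgebraicCurve_DivisorClassGroup
import Fermat.Agent.S24.AddVal

set_option autoImplicit false

noncomputable section

namespace Fermat.Agent.Gateway.BaseChange

open AlgebraicCurve

/-- Expansion data: a `K`-algebra retraction `res : A → K` with kernel generated by the regular
element `t`. -/
structure ExpData (K A : Type*) [Field K] [CommRing A] [Algebra K A] where
  res : A →ₐ[K] K
  t : A
  t_reg : ∀ a b : A, t * a = t * b → a = b
  res_t : res t = 0
  ker_res : ∀ a : A, res a = 0 → ∃ b : A, a = t * b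

namespace ExpData

variable {K A : Type*} [Field K] [CommRing A] [Algebra K A] (d : ExpData K A)

theorem res_sub_res (a : A) : d.res (a - algebraMap K A (d.res a)) = 0 := by
  rw [map_sub, AlgHom.commutes]
  simp

/-- `shift a = (a - res a) / t`. -/
def shift (a : A) : A := Classical.choose (d.ker_res _ (d.res_sub_res a))

theorem shift_spec (a : A) : a = algebraMap K A (d.res a) + d.t * d.shift a := by
  have h := Classical.choose_spec (d.ker_res _ (d.res_sub_res a))
  rw [sub_eq_iff_eq_add] at h
  rw [add_comm]
  exact h

theorem shift_unique {a b : A} {c : K} (h : a = algebraMap K A c + d.t * b) :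
    c = d.res a ∧ b = d.shift a := by
  have hc : d.res a = c := by
    rw [h, map_add, map_mul, d.res_t, zero_mul, add_zero, AlgHom.commutes]
    simp
  refine ⟨hc.symm, ?_⟩
  have h2 := d.shift_spec a
  rw [hc] at h2
  apply d.t_reg
  have : algebraMap K A c + d.t * b = algebraMap K A c + d.t * d.shift a := by
    rw [← h, ← h2]
  exact add_left_cancel this

theorem shift_eq {a b : A} {c : K} (h : a = algebraMap K A c + d.t * b) : d.shift a = b :=
  (d.shift_unique h).2.symm

theorem shift_add (a b : A) : d.shift (a + b) = d.shift a + d.shift b := by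
  apply d.shift_eq (c := d.res a + d.res b)
  conv_lhs => rw [d.shift_spec a, d.shift_spec b]
  rw [map_add]
  ring

theorem shift_smul (c : K) (a : A) : d.shift (c • a) = c • d.shift a := by
  apply d.shift_eq (c := c * d.res a)
  conv_lhs => rw [d.shift_spec a]
  rw [map_mul, Algebra.smul_def, Algebra.smul_def]
  ring

/-- `shift` as a `K`-linear map. -/
def shiftₗ : A →ₗ[K] A where
  toFun := d.shift
  map_add' := d.shift_add
  map_smul' := d.shift_smul

@[simp] theorem shiftₗ_apply (a : A) : d.shiftₗ a = d.shift a := rfl

theorem shift_algebraMap (c : K) : d.shift (algebraMap K A c) = 0 := by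
  apply d.shift_eq (c := c)
  simp

theorem shift_t : d.shift d.t = 1 := by
  apply d.shift_eq (c := 0)
  simp

theorem shift_mul (a b : A) :
    d.shift (a * b) = d.res a • d.shift b + d.shift a * b := by
  apply d.shift_eq (c := d.res a * d.res b)
  have ha := d.shift_spec a
  have hb := d.shift_spec b
  rw [map_mul, Algebra.smul_def]
  calc a * b = (algebraMap K A (d.res a) + d.t * d.shift a) * b := by rw [← ha]
    _ = algebraMap K A (d.res a) * b + d.t * (d.shift a * b) := by ring
    _ = algebraMap K A (d.res a) * (algebraMap K A (d.res b) + d.t * d.shift b)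
          + d.t * (d.shift a * b) := by rw [← hb]
    _ = _ := by ring

/-- The `n`-th coefficient of the `t`-adic expansion, as a `K`-linear map. -/
def coeffₗ (n : ℕ) : A →ₗ[K] K := d.res.toLinearMap ∘ₗ (d.shiftₗ ^ n)

theorem coeffₗ_zero (a : A) : d.coeffₗ 0 a = d.res a := by
  simp [coeffₗ]

theorem coeffₗ_succ (n : ℕ) (a : A) : d.coeffₗ (n + 1) a = d.coeffₗ n (d.shift a) := by
  simp only [coeffₗ, LinearMap.comp_apply, pow_succ, Module.End.mul_apply, shiftₗ_apply]

theorem coeffₗ_mul (n : ℕ) (a b : A) :
    d.coeffₗ n (a * b) = ∑ p ∈ Finset.HasAntidiagonal.antidiagonal n, d.coeffₗ p.1 a * d.coeffₗ p.2 b := by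
  induction n generalizing a b with
  | zero =>
    simp [coeffₗ_zero]
  | succ n ih =>
    rw [coeffₗ_succ, shift_mul, map_add, map_smul, ih, Finset.Nat.sum_antidiagonal_succ]
    simp only [coeffₗ_zero, coeffₗ_succ, smul_eq_mul]

theorem coeffₗ_algebraMap (n : ℕ) (c : K) :
    d.coeffₗ n (algebraMap K A c) = if n = 0 then c else 0 := by
  cases n with
  | zero => simp [coeffₗ_zero]
  | succ n => rw [coeffₗ_succ, shift_algebraMap, map_zero]; simp

/-- The `t`-adic expansion as a `K`-algebra map into power series. -/
def expand : A →ₐ[K] PowerSeries K where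
  toFun a := PowerSeries.mk fun n => d.coeffₗ n a
  map_one' := by
    ext n
    rw [PowerSeries.coeff_mk, PowerSeries.coeff_one, ← (algebraMap K A).map_one,
      coeffₗ_algebraMap]
  map_mul' a b := by
    ext n
    rw [PowerSeries.coeff_mk, PowerSeries.coeff_mul, coeffₗ_mul]
    simp only [PowerSeries.coeff_mk]
  map_zero' := by
    ext n
    simp
  map_add' a b := by
    ext n
    simp
  commutes' c := by
    ext n
    rw [PowerSeries.coeff_mk, coeffₗ_algebraMap, PowerSeries.algebraMap_apply,
      Algebra.algebraMap_self_apply, PowerSeries.coeff_C]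

@[simp] theorem coeff_expand (n : ℕ) (a : A) : PowerSeries.coeff n (d.expand a) = d.coeffₗ n a := by
  show PowerSeries.coeff n (PowerSeries.mk fun n => d.coeffₗ n a) = _
  rw [PowerSeries.coeff_mk]

theorem constantCoeff_expand (a : A) : PowerSeries.constantCoeff (d.expand a) = d.res a := by
  rw [← PowerSeries.coeff_zero_eq_constantCoeff_apply, coeff_expand, coeffₗ_zero]

theorem expand_t : d.expand d.t = PowerSeries.X := by
  ext n
  rw [coeff_expand, PowerSeries.coeff_X]
  cases n with
  | zero => simp [coeffₗ_zero, d.res_t]
  | succ n =>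
    rw [coeffₗ_succ, shift_t, ← (algebraMap K A).map_one, coeffₗ_algebraMap]
    simp

theorem pow_dvd_of_expand_eq_zero {a : A} (h : d.expand a = 0) (n : ℕ) : d.t ^ n ∣ a := by
  induction n generalizing a with
  | zero => simp
  | succ n ih =>
    have h0 : d.res a = 0 := by rw [← constantCoeff_expand, h, map_zero]
    have hs : d.expand (d.shift a) = 0 := by
      ext m
      rw [coeff_expand, ← coeffₗ_succ, ← coeff_expand, h]
      simp
    obtain ⟨b, hb⟩ := ih hs
    refine ⟨b, ?_⟩
    conv_lhs => rw [d.shift_spec a, h0, map_zero, zero_add, hb]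
    ring

end ExpData

section Place

variable {K F : Type*} [Field K] [Field F] [Algebra K F]

/-- The `K`-algebra retraction `O_v → K` for a place with residue field `K`. -/
def placeRes (v : Place K F) (hres : Function.Surjective (algebraMap K v.ResidueField)) :
    v.toValuationSubring →ₐ[K] K :=
  ((AlgEquiv.ofBijective (Algebra.ofId K v.ResidueField)
    ⟨(algebraMap K v.ResidueField).injective, hres⟩).symm : v.ResidueField →ₐ[K] K).comp
    (IsScalarTower.toAlgHom K v.toValuationSubring v.ResidueField)

theorem algebraMap_placeRes (v : Place K F)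
    (hres : Function.Surjective (algebraMap K v.ResidueField)) (a : v.toValuationSubring) :
    algebraMap K v.ResidueField (placeRes v hres a) = IsLocalRing.residue _ a := by
  have := (AlgEquiv.ofBijective (Algebra.ofId K v.ResidueField)
    ⟨(algebraMap K v.ResidueField).injective, hres⟩).apply_symm_apply
      (IsLocalRing.residue _ a)
  exact this

theorem placeRes_eq_zero_iff (v : Place K F)
    (hres : Function.Surjective (algebraMap K v.ResidueField)) (a : v.toValuationSubring) :
    placeRes v hres a = 0 ↔ a ∈ IsLocalRing.maximalIdeal v.toValuationSubring := by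
  rw [← IsLocalRing.residue_eq_zero_iff, ← algebraMap_placeRes v hres a]
  constructor
  · intro h; rw [h, map_zero]
  · intro h
    exact (algebraMap K v.ResidueField).injective (by rw [h, map_zero])

/-- Expansion data attached to a place with residue field `K` and a uniformiser. -/
def placeExpData (v : Place K F) (hres : Function.Surjective (algebraMap K v.ResidueField))
    (π : v.toValuationSubring) (hπ : Irreducible π) : ExpData K v.toValuationSubring where
  res := placeRes v hres
  t := π
  t_reg a b h := mul_left_cancel₀ hπ.ne_zero h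
  res_t := by
    rw [placeRes_eq_zero_iff, hπ.maximalIdeal_eq]
    exact Ideal.mem_span_singleton_self π
  ker_res a ha := by
    rw [placeRes_eq_zero_iff, hπ.maximalIdeal_eq, Ideal.mem_span_singleton'] at ha
    obtain ⟨b, hb⟩ := ha
    exact ⟨b, by rw [← hb, mul_comm]⟩

theorem placeExpand_injective (v : Place K F)
    (hres : Function.Surjective (algebraMap K v.ResidueField))
    (π : v.toValuationSubring) (hπ : Irreducible π) :
    Function.Injective (placeExpData v hres π hπ).expand := by
  rw [injective_iff_map_eq_zero]
  intro a ha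
  by_contra hne
  obtain ⟨n, u, hu⟩ := IsDiscreteValuationRing.eq_unit_mul_pow_irreducible hne hπ
  have hdvd := (placeExpData v hres π hπ).pow_dvd_of_expand_eq_zero ha (n + 1)
  obtain ⟨b, hb⟩ := hdvd
  have ht : (placeExpData v hres π hπ).t = π := rfl
  rw [ht, hu] at hb
  -- u * π^n = π^(n+1) * b  ⇒  u = π * b, contradiction
  have h1 : (u : v.toValuationSubring) = π * b := by
    have h2 : π ^ n * (u : v.toValuationSubring) = π ^ n * (π * b) := by
      rw [mul_comm, hb]; ring
    exact mul_left_cancel₀ (pow_ne_zero n hπ.ne_zero) h2
  have h3 : IsUnit (π * b) := h1 ▸ u.isUnit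
  exact hπ.not_isUnit (isUnit_of_mul_isUnit_left h3)

theorem placeLaurentAux_injective (v : Place K F)
    (hres : Function.Surjective (algebraMap K v.ResidueField))
    (π : v.toValuationSubring) (hπ : Irreducible π) :
    Function.Injective ((HahnSeries.ofPowerSeries ℤ K).comp
      ((placeExpData v hres π hπ).expand : v.toValuationSubring →+* PowerSeries K)) := by
  intro a b hab
  exact placeExpand_injective v hres π hπ (HahnSeries.ofPowerSeries_injective hab)

/-- Laurent expansion of the function field `F` at the place `v` (residue field `K`, uniformiser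
`π`). -/
def placeLaurent (v : Place K F) (hres : Function.Surjective (algebraMap K v.ResidueField))
    (π : v.toValuationSubring) (hπ : Irreducible π) : F →+* LaurentSeries K :=
  IsFractionRing.lift (A := v.toValuationSubring) (K := F) (placeLaurentAux_injective v hres π hπ)

theorem placeLaurent_coe (v : Place K F)
    (hres : Function.Surjective (algebraMap K v.ResidueField))
    (π : v.toValuationSubring) (hπ : Irreducible π) (a : v.toValuationSubring) :
    placeLaurent v hres π hπ (a : F) =
      HahnSeries.ofPowerSeries ℤ K ((placeExpData v hres π hπ).expand a) :=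
  IsFractionRing.lift_algebraMap (A := v.toValuationSubring) (K := F)
    (placeLaurentAux_injective v hres π hπ) a

theorem placeLaurent_const (v : Place K F)
    (hres : Function.Surjective (algebraMap K v.ResidueField))
    (π : v.toValuationSubring) (hπ : Irreducible π) (c : K) :
    placeLaurent v hres π hπ (algebraMap K F c) = HahnSeries.C c := by
  have h := placeLaurent_coe v hres π hπ (algebraMap K v.toValuationSubring c)
  rw [Place.coe_algebraMap] at h
  rw [h, AlgHom.commutes, PowerSeries.algebraMap_apply, Algebra.algebraMap_self_apply,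
    HahnSeries.ofPowerSeries_C]

theorem placeLaurent_uniformizer (v : Place K F)
    (hres : Function.Surjective (algebraMap K v.ResidueField))
    (π : v.toValuationSubring) (hπ : Irreducible π) :
    placeLaurent v hres π hπ (π : F) = HahnSeries.single 1 1 := by
  rw [placeLaurent_coe]
  have : (placeExpData v hres π hπ).expand π = PowerSeries.X :=
    (placeExpData v hres π hπ).expand_t
  rw [this, HahnSeries.ofPowerSeries_X]

theorem order_ofPowerSeries_of_constantCoeff_ne_zero (p : PowerSeries K)
    (hp : PowerSeries.constantCoeff p ≠ 0) : (HahnSeries.ofPowerSeries ℤ K p).order = 0 := by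
  have h0 : (HahnSeries.ofPowerSeries ℤ K p).coeff 0 ≠ 0 := by
    have := HahnSeries.ofPowerSeries_apply_coeff (Γ := ℤ) p 0
    rw [Nat.cast_zero] at this
    rw [this, PowerSeries.coeff_zero_eq_constantCoeff_apply]
    exact hp
  have hne : HahnSeries.ofPowerSeries ℤ K p ≠ 0 := HahnSeries.ne_zero_of_coeff_ne_zero h0
  refine le_antisymm (HahnSeries.order_le_of_coeff_ne_zero h0) ?_
  by_contra hlt
  rw [not_le] at hlt
  apply (not_iff_not.mpr HahnSeries.coeff_order_eq_zero).mpr hne
  rw [HahnSeries.ofPowerSeries_apply]
  refine HahnSeries.embDomain_of_notMem_range ?_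
  rintro ⟨m, hm⟩
  have h1 : (0 : ℤ) ≤ (m : ℤ) := Int.natCast_nonneg m
  have h2 : ((m : ℕ) : ℤ) = (HahnSeries.ofPowerSeries ℤ K p).order := hm
  omega

/-- The order of the Laurent expansion at `v` is `v.ord`. -/
theorem order_placeLaurent (v : Place K F)
    (hres : Function.Surjective (algebraMap K v.ResidueField))
    (π : v.toValuationSubring) (hπ : Irreducible π) {f : F} (hf : f ≠ 0) :
    (placeLaurent v hres π hπ f).order = v.ord f := by
  obtain ⟨u, hu⟩ := v.exists_unit_mul_zpow hf hπ
  set n := v.ord f with hn
  have hu0 : (placeLaurent v hres π hπ ((u : v.toValuationSubring) : F)).order = 0 := by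
    rw [placeLaurent_coe]
    apply order_ofPowerSeries_of_constantCoeff_ne_zero
    rw [ExpData.constantCoeff_expand]
    intro h0
    have : (u : v.toValuationSubring) ∈ IsLocalRing.maximalIdeal v.toValuationSubring :=
      (placeRes_eq_zero_iff v hres _).mp h0
    exact (IsLocalRing.mem_maximalIdeal _).mp this u.isUnit
  have hune : placeLaurent v hres π hπ ((u : v.toValuationSubring) : F) ≠ 0 := by
    rw [Ne, map_eq_zero]
    simp
  have hπne : (HahnSeries.single (1 : ℤ) (1 : K)) ≠ 0 := by
    simp
  have hzpow : ∀ m : ℤ, ((HahnSeries.single (1 : ℤ) (1 : K)) ^ m).order = m := by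
    intro m
    have hnat : ∀ k : ℕ, ((HahnSeries.single (1 : ℤ) (1 : K)) ^ k).order = k := by
      intro k
      rw [HahnSeries.order_pow, HahnSeries.order_single one_ne_zero]
      simp
    obtain ⟨k, rfl | rfl⟩ := Int.eq_nat_or_neg m
    · rw [zpow_natCast, hnat]
    · rw [zpow_neg, zpow_natCast]
      have h1 : ((HahnSeries.single (1 : ℤ) (1 : K)) ^ k)⁻¹ * (HahnSeries.single (1 : ℤ) (1 : K)) ^ k
          = 1 := inv_mul_cancel₀ (pow_ne_zero k hπne)
      have h2 := congrArg HahnSeries.order h1
      rw [HahnSeries.order_mul (inv_ne_zero (pow_ne_zero k hπne)) (pow_ne_zero k hπne), hnat,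
        HahnSeries.order_one] at h2
      omega
  rw [hu, map_mul, map_zpow₀, placeLaurent_uniformizer,
    HahnSeries.order_mul hune (zpow_ne_zero _ hπne), hu0, hzpow, zero_add]

end Place

end Fermat.Agent.Gateway.BaseChange
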