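/-
helper15 (P-GATEWAY, WP-BC part BC2): abstract base-change setup `Setup K L F0 F1`
(`F1 = L·ι(F0)`, `F0` and `L` linearly disjoint over `K`), the ring `L ⊗[K] F0`, the canonical
map `μ : L ⊗[K] F0 → F1`, `F1 = Frac (L ⊗[K] F0)`, and extension of pairs of compatible
embeddings `(L → Ω, F0 → Ω)` to `F1 → Ω`.
-/
import Mathlib

set_option autoImplicit false

noncomputable section

namespace Fermat.Agent.Gateway.BaseChange

open TensorProduct

section TensorLift

variable {K L F0 R : Type*} [Field K] [Field L] [Field F0] [CommRing R]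
  [Algebra K L] [Algebra K F0]

/-- The ring hom `L ⊗[K] F0 → R` induced by ring homs `a : L → R`, `b : F0 → R` agreeing on `K`. -/
def tensorLift (a : L →+* R) (b : F0 →+* R)
    (hab : ∀ c : K, a (algebraMap K L c) = b (algebraMap K F0 c)) : L ⊗[K] F0 →+* R :=
  letI : Algebra K R := (a.comp (algebraMap K L)).toAlgebra
  (Algebra.TensorProduct.productMap (⟨a, fun _ => rfl⟩ : L →ₐ[K] R)
    (⟨b, fun c => (hab c).symm⟩ : F0 →ₐ[K] R)).toRingHom

@[simp]
theorem tensorLift_tmul (a : L →+* R) (b : F0 →+* R)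
    (hab : ∀ c : K, a (algebraMap K L c) = b (algebraMap K F0 c)) (l : L) (f : F0) :
    tensorLift a b hab (l ⊗ₜ[K] f) = a l * b f := by
  letI : Algebra K R := (a.comp (algebraMap K L)).toAlgebra
  exact Algebra.TensorProduct.productMap_apply_tmul _ _ l f

/-- Every element of `L ⊗[K] F0` is `∑ l i ⊗ f i` with `l` linearly independent over `K`. -/
theorem exists_repr_linearIndependent (x : L ⊗[K] F0) :
    ∃ (n : ℕ) (l : Fin n → L) (f : Fin n → F0), LinearIndependent K l ∧
      x = ∑ i, l i ⊗ₜ[K] f i := by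
  classical
  let ℬ := Module.Free.chooseBasis K L
  obtain ⟨c, hc⟩ := TensorProduct.eq_repr_basis_left ℬ x
  let e := c.support.equivFin
  refine ⟨c.support.card, fun i => ℬ (e.symm i : _), fun i => c (e.symm i : _), ?_, ?_⟩
  · exact ℬ.linearIndependent.comp (fun i => ((e.symm i : c.support) : _))
      (fun i j hij => e.symm.injective (Subtype.ext hij))
  · rw [← hc, Finsupp.sum]
    rw [← Finset.sum_coe_sort c.support]
    exact (Fintype.sum_equiv e.symm _ _ (fun i => rfl)).symm

/-- Linear disjointness in elementary form implies injectivity of the tensor lift. -/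
theorem tensorLift_injective (a : L →+* R) (b : F0 →+* R)
    (hab : ∀ c : K, a (algebraMap K L c) = b (algebraMap K F0 c))
    (hLD : ∀ (n : ℕ) (l : Fin n → L) (f : Fin n → F0), LinearIndependent K l →
      ∑ i, a (l i) * b (f i) = 0 → ∀ i, f i = 0) :
    Function.Injective (tensorLift a b hab) := by
  rw [injective_iff_map_eq_zero]
  intro x hx
  obtain ⟨n, l, f, hl, rfl⟩ := exists_repr_linearIndependent x
  rw [map_sum] at hx
  simp only [tensorLift_tmul] at hx
  have hf := hLD n l f hl hx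
  refine Finset.sum_eq_zero fun i _ => ?_
  rw [hf i, tmul_zero]

end TensorLift

/-- Base-change setup: `F1 = L·ι(F0)`, with `F0` and `L` linearly disjoint over `K` inside `F1`. -/
structure Setup (K L F0 F1 : Type*) [Field K] [Field L] [Field F0] [Field F1]
    [Algebra K L] [Algebra K F0] [Algebra L F1] where
  ι : F0 →+* F1
  ι_const : ∀ a : K, ι (algebraMap K F0 a) = algebraMap L F1 (algebraMap K L a)
  linDisj : ∀ (n : ℕ) (l : Fin n → L) (f : Fin n → F0), LinearIndependent K l →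
    ∑ i, algebraMap L F1 (l i) * ι (f i) = 0 → ∀ i, f i = 0
  gen : ∀ S : Subfield F1, (∀ c : L, algebraMap L F1 c ∈ S) → (∀ f : F0, ι f ∈ S) → S = ⊤

namespace Setup

variable {K L F0 F1 : Type*} [Field K] [Field L] [Field F0] [Field F1]
  [Algebra K L] [Algebra K F0] [Algebra L F1] (S : Setup K L F0 F1)

/-- The canonical map `L ⊗[K] F0 → F1`. -/
def mu : L ⊗[K] F0 →+* F1 :=
  tensorLift (algebraMap L F1) S.ι (fun c => (S.ι_const c).symm)

@[simp]
theorem mu_tmul (l : L) (f : F0) : S.mu (l ⊗ₜ[K] f) = algebraMap L F1 l * S.ι f :=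
  tensorLift_tmul _ _ _ l f

theorem mu_injective : Function.Injective S.mu :=
  tensorLift_injective _ _ _ S.linDisj

/-- The subfield of fractions of elements of the image of `μ`. -/
def fracSubfield : Subfield F1 where
  carrier := {z | ∃ x y : L ⊗[K] F0, S.mu y ≠ 0 ∧ z = S.mu x / S.mu y}
  mul_mem' := by
    rintro _ _ ⟨x, y, hy, rfl⟩ ⟨x', y', hy', rfl⟩
    refine ⟨x * x', y * y', ?_, ?_⟩
    · rw [map_mul]; exact mul_ne_zero hy hy'
    · rw [map_mul, map_mul, div_mul_div_comm]
  one_mem' := ⟨1, 1, by simp, by simp⟩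
  add_mem' := by
    rintro _ _ ⟨x, y, hy, rfl⟩ ⟨x', y', hy', rfl⟩
    refine ⟨x * y' + x' * y, y * y', ?_, ?_⟩
    · rw [map_mul]; exact mul_ne_zero hy hy'
    · rw [map_mul, map_add, map_mul, map_mul, div_add_div _ _ hy hy']
      ring
  zero_mem' := ⟨0, 1, by simp, by simp⟩
  neg_mem' := by
    rintro _ ⟨x, y, hy, rfl⟩
    exact ⟨-x, y, hy, by rw [map_neg, neg_div]⟩
  inv_mem' := by
    rintro _ ⟨x, y, hy, rfl⟩
    by_cases hx : S.mu x = 0
    · exact ⟨0, 1, by simp, by simp [hx]⟩
    · exact ⟨y, x, hx, by rw [inv_div]⟩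

theorem fracSubfield_eq_top : S.fracSubfield = ⊤ := by
  apply S.gen
  · intro c
    exact ⟨c ⊗ₜ 1, 1, by simp, by simp⟩
  · intro f
    exact ⟨1 ⊗ₜ f, 1, by simp, by simp⟩

theorem exists_div (z : F1) : ∃ x y : L ⊗[K] F0, S.mu y ≠ 0 ∧ z = S.mu x / S.mu y := by
  have : z ∈ S.fracSubfield := by rw [S.fracSubfield_eq_top]; trivial
  exact this

/-- Extension of compatible embeddings `a : L → Ω`, `b : F0 → Ω` (with the images linearly
disjoint) to `F1 → Ω`. -/
theorem exists_extension {Ω : Type*} [Field Ω] (a : L →+* Ω) (b : F0 →+* Ω)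
    (hab : ∀ c : K, a (algebraMap K L c) = b (algebraMap K F0 c))
    (hLD : ∀ (n : ℕ) (l : Fin n → L) (f : Fin n → F0), LinearIndependent K l →
      ∑ i, a (l i) * b (f i) = 0 → ∀ i, f i = 0) :
    ∃ φ : F1 →+* Ω, (∀ l : L, φ (algebraMap L F1 l) = a l) ∧ (∀ f : F0, φ (S.ι f) = b f) := by
  letI : Algebra (L ⊗[K] F0) F1 := S.mu.toAlgebra
  haveI : FaithfulSMul (L ⊗[K] F0) F1 :=
    (faithfulSMul_iff_algebraMap_injective _ _).mpr S.mu_injective
  haveI : IsFractionRing (L ⊗[K] F0) F1 := IsFractionRing.of_field _ _ (fun z => by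
    obtain ⟨x, y, _, h⟩ := S.exists_div z
    exact ⟨x, y, h⟩)
  have hinj : Function.Injective (tensorLift a b hab) := tensorLift_injective a b hab hLD
  refine ⟨IsFractionRing.lift hinj, fun l => ?_, fun f => ?_⟩
  · have h1 : algebraMap L F1 l = algebraMap (L ⊗[K] F0) F1 (l ⊗ₜ 1) := by
      show _ = S.mu (l ⊗ₜ 1)
      simp
    rw [h1, IsFractionRing.lift_algebraMap]
    simp
  · have h1 : S.ι f = algebraMap (L ⊗[K] F0) F1 (1 ⊗ₜ f) := by
      show _ = S.mu (1 ⊗ₜ f)
      simp
    rw [h1, IsFractionRing.lift_algebraMap]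
    simp

end Setup

end Fermat.Agent.Gateway.BaseChange
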