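/-
helper15 (P-GATEWAY, WP-BC part BC2): extension of places along a base-change setup.

For `S : Setup K L F0 F1` and a place `v` of `F0/K` with residue field `K`:
* `exists_extPlace`: a place `w` of `F1/L` with `w.ord (ι f) = v.ord f`;
* the "Gauss lemma" `ord_sum`: for ANY place `w` of `F1` with `w.ord ∘ ι = c * v.ord` (`c > 0`) and
  `K`-linearly independent `l i : L`, `w.ord (∑ l i * ι (f i)) = c * min (v.ord (f i))`;
* consequences: uniqueness of the extension, `e = 1`, residue field `L`.
-/
import Mathlib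
import Fermat.Agent.Gateway.BaseChange.LaurentExp
import Fermat.Agent.Gateway.BaseChange.TensorLift
import Fermat.Agent.S24.Descent
import Fermat.Agent.S24.AddVal
import Fermat.Agent.S24.PlaceBasic
import Fermat.Agent.S24.PlacesDedekind

set_option autoImplicit false

noncomputable section

namespace Fermat.Agent.Gateway.BaseChange

open AlgebraicCurve ModularCurve TensorProduct Fermat.Agent.S24

section CoeffMap

variable {K L : Type*} [Field K] [Field L]

theorem coeffMap_C' (g : K →+* L) (c : K) :
    coeffMap g (HahnSeries.C c : LaurentSeries K) = HahnSeries.C (g c) := by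
  rw [HahnSeries.C_apply, HahnSeries.C_apply, coeffMap_single]

theorem coeffMap_injective' (g : K →+* L) : Function.Injective (coeffMap g) :=
  (coeffMap g).injective

theorem order_coeffMap (g : K →+* L) (x : LaurentSeries K) :
    (coeffMap g x).order = x.order := by
  rcases eq_or_ne x 0 with rfl | hx
  · simp
  have hx' : coeffMap g x ≠ 0 := by
    intro h0
    exact hx ((map_eq_zero _).mp h0)
  apply le_antisymm
  · apply HahnSeries.order_le_of_coeff_ne_zero
    rw [coeffMap_coeff]
    intro h0
    exact (not_iff_not.mpr HahnSeries.coeff_order_eq_zero).mpr hx ((map_eq_zero _).mp h0)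
  · apply HahnSeries.order_le_of_coeff_ne_zero
    have := (not_iff_not.mpr HahnSeries.coeff_order_eq_zero).mpr hx'
    rw [coeffMap_coeff] at this
    intro h0
    exact this (by rw [h0, map_zero])

end CoeffMap

namespace Setup

variable {K L F0 F1 : Type*} [Field K] [Field L] [Field F0] [Field F1]
  [Algebra K L] [Algebra K F0] [Algebra L F1] (S : Setup K L F0 F1)

theorem ι_injective : Function.Injective S.ι := S.ι.injective

/-- Extension of the Laurent expansion at `v` to `F1`. -/
theorem exists_laurent_extension (v : Place K F0)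
    (hres : Function.Surjective (algebraMap K v.ResidueField))
    (π : v.toValuationSubring) (hπ : Irreducible π) :
    ∃ φ : F1 →+* LaurentSeries L, (∀ l : L, φ (algebraMap L F1 l) = HahnSeries.C l) ∧
      ∀ f : F0, φ (S.ι f) = coeffMap (algebraMap K L) (placeLaurent v hres π hπ f) := by
  refine S.exists_extension (HahnSeries.C : L →+* LaurentSeries L)
    ((coeffMap (algebraMap K L)).comp (placeLaurent v hres π hπ)) ?_ ?_
  · intro c
    rw [RingHom.comp_apply, placeLaurent_const, coeffMap_C']
  · intro n l f hl h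
    have h2 := Descent.eq_zero_of_sum_C_mul_coeffMap_eq_zero l hl
      (fun i => placeLaurent v hres π hπ (f i)) h
    intro i
    have := h2 i
    rwa [map_eq_zero] at this

/-- Existence of an extension of the place `v` to `F1`, with residue field `L`. -/
theorem exists_extPlace (v : Place K F0)
    (hres : Function.Surjective (algebraMap K v.ResidueField)) :
    ∃ w : Place L F1, (∀ f : F0, w.ord (S.ι f) = v.ord f) ∧
      ∀ z : F1, z ∈ w.toValuationSubring →
        ∃ lam : L, z = algebraMap L F1 lam ∨ 1 ≤ w.ord (z - algebraMap L F1 lam) := by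
  obtain ⟨π, hπ⟩ := IsDiscreteValuationRing.exists_irreducible v.toValuationSubring
  obtain ⟨φ, hφL, hφF⟩ := S.exists_laurent_extension v hres π hπ
  have hφ0 : ∀ z : F1, z ≠ 0 → φ z ≠ 0 := fun z hz => by
    rw [Ne, map_eq_zero]; exact hz
  have hval : IsAddVal L (fun z : F1 => (φ z).order) := by
    refine ⟨fun f g hf hg => ?_, fun f g hf hg hfg => ?_, fun c hc => ?_⟩
    · show (φ (f * g)).order = _
      rw [map_mul, HahnSeries.order_mul (hφ0 f hf) (hφ0 g hg)]
    · show min (φ f).order (φ g).order ≤ (φ (f + g)).order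
      rw [map_add]
      apply HahnSeries.min_order_le_order_add
      rw [← map_add]
      exact hφ0 _ hfg
    · show (φ (algebraMap L F1 c)).order = 0
      rw [hφL, HahnSeries.order_C]
  have hπF : (π : F0) ≠ 0 := by
    simpa [ne_eq, ZeroMemClass.coe_eq_zero] using hπ.ne_zero
  have hord : ∀ f : F0, f ≠ 0 → (φ (S.ι f)).order = v.ord f := by
    intro f hf
    rw [hφF, order_coeffMap, order_placeLaurent v hres π hπ hf]
  have hπ1 : (φ (S.ι (π : F0))).order = 1 := by
    rw [hord _ hπF, v.ord_coe_irreducible hπ]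
  obtain ⟨w, c, hc, hw⟩ := hval.exists_place
    ⟨S.ι (π : F0), by rw [Ne, map_eq_zero]; exact hπF, by
      show (φ (S.ι (π : F0))).order ≠ 0
      rw [hπ1]; exact one_ne_zero⟩
  have hc1 : c = 1 := by
    have h1 := hw (S.ι (π : F0)) (by rw [Ne, map_eq_zero]; exact hπF)
    have h1' : (1 : ℤ) = c * w.ord (S.ι (π : F0)) := by
      rw [← h1]; exact hπ1.symm
    have hdvd : (c : ℤ) ∣ 1 := ⟨_, h1'⟩
    have := Int.eq_one_of_dvd_one (by positivity) hdvd
    exact_mod_cast this
  have hw' : ∀ z : F1, z ≠ 0 → (φ z).order = w.ord z := by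
    intro z hz
    have h1 := hw z hz
    rw [hc1] at h1
    rw [h1]; simp
  refine ⟨w, fun f => ?_, fun z hz => ?_⟩
  · rcases eq_or_ne f 0 with rfl | hf
    · simp
    rw [← hw' (S.ι f) (by rw [Ne, map_eq_zero]; exact hf), hord f hf]
  · rcases eq_or_ne z 0 with rfl | hz0
    · exact ⟨0, Or.inl (by simp)⟩
    have hzord : 0 ≤ (φ z).order := by
      rw [hw' z hz0]
      exact (PD.place_mem_iff w hz0).mp hz
    refine ⟨(φ z).coeff 0, ?_⟩
    by_cases hd : z - algebraMap L F1 ((φ z).coeff 0) = 0
    · left; exact sub_eq_zero.mp hd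
    right
    rw [← hw' _ hd]
    by_contra hlt
    rw [not_le] at hlt
    have hne : φ (z - algebraMap L F1 ((φ z).coeff 0)) ≠ 0 := hφ0 _ hd
    apply (not_iff_not.mpr HahnSeries.coeff_order_eq_zero).mpr hne
    set o := (φ (z - algebraMap L F1 ((φ z).coeff 0))).order with ho
    rw [map_sub, hφL, HahnSeries.coeff_sub, HahnSeries.C_apply]
    rcases lt_or_eq_of_le (show o ≤ 0 by omega) with h1 | h1
    · rw [HahnSeries.coeff_eq_zero_of_lt_order (lt_of_lt_of_le h1 hzord),
        HahnSeries.coeff_single_of_ne h1.ne, sub_zero]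
    · rw [h1, HahnSeries.coeff_single_same, sub_self]

open Classical in
/-- The minimum of `v.ord (f i)` over the nonzero `f i` (and `0` if all vanish). -/
def minOrd (v : Place K F0) {n : ℕ} (f : Fin n → F0) : ℤ :=
  if h : (Finset.univ.filter fun i => f i ≠ 0).Nonempty then
    (Finset.univ.filter fun i => f i ≠ 0).inf' h (fun i => v.ord (f i)) else 0

open Classical in
theorem minOrd_le (v : Place K F0) {n : ℕ} (f : Fin n → F0) (i : Fin n) (hi : f i ≠ 0) :
    minOrd v f ≤ v.ord (f i) := by
  have hmem : i ∈ Finset.univ.filter fun i => f i ≠ 0 := by simp [hi]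
  have h : (Finset.univ.filter fun i => f i ≠ 0).Nonempty := ⟨i, hmem⟩
  rw [minOrd, dif_pos h]
  exact Finset.inf'_le _ hmem

open Classical in
theorem exists_minOrd_eq (v : Place K F0) {n : ℕ} (f : Fin n → F0) (hf : ∃ i, f i ≠ 0) :
    ∃ i, f i ≠ 0 ∧ v.ord (f i) = minOrd v f := by
  obtain ⟨i0, hi0⟩ := hf
  have h : (Finset.univ.filter fun i => f i ≠ 0).Nonempty := ⟨i0, by simp [hi0]⟩
  obtain ⟨i, hi, heq⟩ := Finset.exists_mem_eq_inf' h (fun i => v.ord (f i))
  refine ⟨i, by simpa using hi, ?_⟩
  rw [minOrd, dif_pos h, heq]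

/-- **Gauss lemma**, refined form: decomposition of `∑ l i * ι (f i)` as
`ι t ^ m * (λ + s)` with `λ ∈ Lˣ` and `s` in the maximal ideal of `w`. -/
theorem exists_unit_decomp (w : Place L F1) (v : Place K F0)
    (hres : Function.Surjective (algebraMap K v.ResidueField))
    (c : ℕ) (hc : 0 < c) (hw : ∀ f : F0, w.ord (S.ι f) = c * v.ord f)
    {n : ℕ} (l : Fin n → L) (hl : LinearIndependent K l) (f : Fin n → F0)
    (hf : ∃ i, f i ≠ 0) (t : F0) (ht : v.ord t = 1) :
    ∃ (lam : L) (s : F1), lam ≠ 0 ∧ (s = 0 ∨ 1 ≤ w.ord s) ∧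
      ∑ i, algebraMap L F1 (l i) * S.ι (f i)
        = S.ι t ^ (minOrd v f) * (algebraMap L F1 lam + s) := by
  classical
  set m := minOrd v f with hm
  have ht0 : t ≠ 0 := by
    rintro rfl
    simp at ht
  -- the normalised coefficients
  set g : Fin n → F0 := fun i => f i * t ^ (-m) with hg
  have hgord : ∀ i, f i ≠ 0 → v.ord (g i) = v.ord (f i) - m := by
    intro i hi
    rw [hg]
    simp only
    rw [v.ord_mul hi (zpow_ne_zero _ ht0), v.ord_zpow, ht]
    ring
  have hgmem : ∀ i, g i ∈ v.toValuationSubring := by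
    intro i
    by_cases hi : f i = 0
    · simp [hg, hi]
    · have hgi : g i ≠ 0 := mul_ne_zero hi (zpow_ne_zero _ ht0)
      rw [PD.place_mem_iff v hgi, hgord i hi]
      have := minOrd_le v f i hi
      omega
  set r : Fin n → K := fun i => placeRes v hres ⟨g i, hgmem i⟩ with hr
  set h : Fin n → F0 := fun i => g i - algebraMap K F0 (r i) with hh
  have hhord : ∀ i, h i = 0 ∨ 1 ≤ v.ord (h i) := by
    intro i
    by_cases hi : h i = 0
    · exact Or.inl hi
    right
    have hmem : (⟨g i, hgmem i⟩ - algebraMap K v.toValuationSubring (r i) : v.toValuationSubring)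
        ∈ IsLocalRing.maximalIdeal v.toValuationSubring := by
      rw [← placeRes_eq_zero_iff v hres, map_sub, AlgHom.commutes]
      simp [hr]
    have hcoe : ((⟨g i, hgmem i⟩ - algebraMap K v.toValuationSubring (r i) :
        v.toValuationSubring) : F0) = h i := by
      simp [hh]
    have := (PD.place_mem_maximalIdeal_iff v _ (by rw [hcoe]; exact hi)).mp hmem
    rw [hcoe] at this
    omega
  -- the leading constant
  obtain ⟨i0, hi0, hi0m⟩ := exists_minOrd_eq v f hf
  have hr0 : r i0 ≠ 0 := by
    intro h0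
    have hmem : (⟨g i0, hgmem i0⟩ : v.toValuationSubring)
        ∈ IsLocalRing.maximalIdeal v.toValuationSubring :=
      (placeRes_eq_zero_iff v hres _).mp h0
    have hgi : g i0 ≠ 0 := mul_ne_zero hi0 (zpow_ne_zero _ ht0)
    have := (PD.place_mem_maximalIdeal_iff v ⟨g i0, hgmem i0⟩ hgi).mp hmem
    rw [show ((⟨g i0, hgmem i0⟩ : v.toValuationSubring) : F0) = g i0 from rfl,
      hgord i0 hi0, hi0m] at this
    omega
  set lam : L := ∑ i, r i • l i with hlam
  have hlam0 : lam ≠ 0 := by
    intro h0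
    exact hr0 (Fintype.linearIndependent_iff.mp hl r h0 i0)
  set s : F1 := ∑ i, algebraMap L F1 (l i) * S.ι (h i) with hs
  have hsord : s = 0 ∨ 1 ≤ w.ord s := by
    have hle : w.adicValuation s ≤ WithZero.exp (-1 : ℤ) := by
      rw [hs]
      apply Valuation.map_sum_le
      intro i _
      rw [w.adicValuation_le_exp_iff]
      by_cases hi : h i = 0
      · left; rw [hi, map_zero, mul_zero]
      right
      have hli : l i ≠ 0 := hl.ne_zero i
      have h1 : algebraMap L F1 (l i) ≠ 0 := by
        rw [Ne, map_eq_zero]; exact hli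
      have h2 : S.ι (h i) ≠ 0 := by
        rw [Ne, map_eq_zero]; exact hi
      rw [w.ord_mul h1 h2, PD.place_ord_algebraMap, hw, zero_add]
      have h3 := (hhord i).resolve_left hi
      have hc' : (1 : ℤ) ≤ c := by exact_mod_cast hc
      have : (1 : ℤ) * 1 ≤ (c : ℤ) * v.ord (h i) :=
        mul_le_mul hc' h3 (by norm_num) (by positivity)
      omega
    have := (w.adicValuation_le_exp_iff).mp hle
    simpa using this
  refine ⟨lam, s, hlam0, hsord, ?_⟩
  have hfi : ∀ i, f i = t ^ m * (algebraMap K F0 (r i) + h i) := by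
    intro i
    rw [hh]
    simp only
    rw [add_sub_cancel, hg]
    simp only
    rw [mul_comm (f i), ← mul_assoc, ← zpow_add₀ ht0]
    simp
  have hsum : algebraMap L F1 lam = ∑ i, algebraMap L F1 (l i) * S.ι (algebraMap K F0 (r i)) := by
    rw [hlam, map_sum]
    refine Finset.sum_congr rfl fun i _ => ?_
    rw [S.ι_const, Algebra.smul_def, map_mul, mul_comm]
  rw [hsum, hs, ← Finset.sum_add_distrib, Finset.mul_sum]
  refine Finset.sum_congr rfl fun i _ => ?_
  conv_lhs => rw [hfi i]
  rw [map_mul, map_zpow₀, map_add]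
  ring

theorem ord_const_add (w : Place L F1) {lam : L} (hlam : lam ≠ 0) {s : F1}
    (hs : s = 0 ∨ 1 ≤ w.ord s) :
    algebraMap L F1 lam + s ≠ 0 ∧ w.ord (algebraMap L F1 lam + s) = 0 := by
  have h1 : algebraMap L F1 lam ≠ 0 := by
    rw [Ne, map_eq_zero]; exact hlam
  have h2 : w.ord (algebraMap L F1 lam) = 0 := PD.place_ord_algebraMap w lam
  rcases hs with rfl | hs
  · rw [add_zero]; exact ⟨h1, h2⟩
  have hs0 : s ≠ 0 := by
    rintro rfl
    simp at hs
  have hlt : w.ord (algebraMap L F1 lam) < w.ord s := by omega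
  have hne : algebraMap L F1 lam + s ≠ 0 := by
    intro h0
    have : s = -algebraMap L F1 lam := eq_neg_of_add_eq_zero_right h0
    rw [this, (isAddVal_ord w).map_neg h1] at hlt
    exact lt_irrefl _ hlt
  exact ⟨hne, by rw [(isAddVal_ord w).map_add_of_lt h1 hs0 hlt, h2]⟩

/-- **Gauss lemma**: the order of `∑ l i * ι (f i)` at any place `w` of `F1` lying over `v` with
index `c` is `c * min (v.ord (f i))`. -/
theorem ord_sum (w : Place L F1) (v : Place K F0)
    (hres : Function.Surjective (algebraMap K v.ResidueField))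
    (c : ℕ) (hc : 0 < c) (hw : ∀ f : F0, w.ord (S.ι f) = c * v.ord f)
    {n : ℕ} (l : Fin n → L) (hl : LinearIndependent K l) (f : Fin n → F0)
    (hf : ∃ i, f i ≠ 0) :
    ∑ i, algebraMap L F1 (l i) * S.ι (f i) ≠ 0 ∧
      w.ord (∑ i, algebraMap L F1 (l i) * S.ι (f i)) = c * minOrd v f := by
  obtain ⟨t, ht⟩ := ZD.PlaceLemmas.exists_ord_eq_one v
  obtain ⟨lam, s, hlam, hs, heq⟩ := S.exists_unit_decomp w v hres c hc hw l hl f hf t ht
  obtain ⟨hne, hord⟩ := ord_const_add w hlam hs
  have ht0 : t ≠ 0 := by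
    rintro rfl
    simp at ht
  have hιt : S.ι t ≠ 0 := by
    rw [Ne, map_eq_zero]; exact ht0
  rw [heq]
  refine ⟨mul_ne_zero (zpow_ne_zero _ hιt) hne, ?_⟩
  rw [w.ord_mul (zpow_ne_zero _ hιt) hne, w.ord_zpow, hw, ht, hord]
  ring

/-- The order at an extension `w` of `v` (with index `c`) of a fixed element of `F1` is `c` times
an integer that depends only on `v`. -/
theorem exists_ord_formula (v : Place K F0)
    (hres : Function.Surjective (algebraMap K v.ResidueField)) (z : F1) (hz : z ≠ 0) :
    ∃ k : ℤ, ∀ (w : Place L F1) (c : ℕ), 0 < c → (∀ f : F0, w.ord (S.ι f) = c * v.ord f) →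
      w.ord z = c * k := by
  obtain ⟨x, y, hy, hzxy⟩ := S.exists_div z
  have hx : S.mu x ≠ 0 := by
    intro h0
    rw [h0, zero_div] at hzxy
    exact hz hzxy
  obtain ⟨n, l, f, hl, rfl⟩ := exists_repr_linearIndependent x
  obtain ⟨n', l', f', hl', rfl⟩ := exists_repr_linearIndependent y
  simp only [map_sum, mu_tmul] at hx hy hzxy
  have hf : ∃ i, f i ≠ 0 := by
    by_contra hcon
    push Not at hcon
    exact hx (Finset.sum_eq_zero fun i _ => by rw [hcon i, map_zero, mul_zero])
  have hf' : ∃ i, f' i ≠ 0 := by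
    by_contra hcon
    push Not at hcon
    exact hy (Finset.sum_eq_zero fun i _ => by rw [hcon i, map_zero, mul_zero])
  refine ⟨minOrd v f - minOrd v f', fun w c hc hw => ?_⟩
  obtain ⟨h1, h2⟩ := S.ord_sum w v hres c hc hw l hl f hf
  obtain ⟨h1', h2'⟩ := S.ord_sum w v hres c hc hw l' hl' f' hf'
  rw [hzxy, div_eq_mul_inv, w.ord_mul h1 (inv_ne_zero h1'), w.ord_inv, h2, h2']
  ring

/-- Uniqueness of the extension of a place. -/
theorem eq_of_extends (v : Place K F0)
    (hres : Function.Surjective (algebraMap K v.ResidueField)) (w w' : Place L F1)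
    (hw : ∀ f : F0, w.ord (S.ι f) = v.ord f) (hw' : ∀ f : F0, w'.ord (S.ι f) = v.ord f) :
    w = w' := by
  apply place_eq_of_ord_proportional (c := 1) (c' := 1) one_pos one_pos
  intro z hz
  obtain ⟨k, hk⟩ := S.exists_ord_formula v hres z hz
  rw [hk w 1 one_pos (fun f => by rw [hw f]; simp), hk w' 1 one_pos (fun f => by rw [hw' f]; simp)]

/-- Constant field extensions are unramified: `e = 1`. -/
theorem index_eq_one (v : Place K F0)
    (hres : Function.Surjective (algebraMap K v.ResidueField)) (w : Place L F1) (c : ℕ)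
    (hc : 0 < c) (hw : ∀ f : F0, w.ord (S.ι f) = c * v.ord f) : c = 1 := by
  obtain ⟨z, hz⟩ := ZD.PlaceLemmas.exists_ord_eq_one w
  have hz0 : z ≠ 0 := by
    rintro rfl
    simp at hz
  obtain ⟨k, hk⟩ := S.exists_ord_formula v hres z hz0
  have h1 := hk w c hc hw
  rw [hz] at h1
  have hdvd : (c : ℤ) ∣ 1 := ⟨k, h1⟩
  have := Int.eq_one_of_dvd_one (by positivity) hdvd
  exact_mod_cast this

end Setup

end Fermat.Agent.Gateway.BaseChange
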