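/-
helper15 (P-GATEWAY, WP-BC part BC2): the extension map on places `extPlace`, base change of
divisors `bc`, compatibility with principal divisors and degrees, and the induced map
`bcPic0 : Pic0 K F0 →+ Pic0 L F1`.
-/
import Mathlib
import Fermat.Prelude.Def_AlgebraicCurve_BaseChangeGalois
import Fermat.Agent.Gateway.BaseChange.ExtPlace

set_option autoImplicit false

noncomputable section

namespace Fermat.Agent.Gateway.BaseChange

open AlgebraicCurve TensorProduct Fermat.Agent.S24

namespace Setup

variable {K L F0 F1 : Type*} [Field K] [Field L] [Field F0] [Field F1]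
  [Algebra K L] [Algebra K F0] [Algebra L F1] (S : Setup K L F0 F1)
  (hK : ∀ v : Place K F0, Function.Surjective (algebraMap K v.ResidueField))

/-- The extension of a place of `F0/K` to `F1/L`. -/
def extPlace (v : Place K F0) : Place L F1 :=
  Classical.choose (S.exists_extPlace v (hK v))

theorem extPlace_ord (v : Place K F0) (f : F0) : (S.extPlace hK v).ord (S.ι f) = v.ord f :=
  (Classical.choose_spec (S.exists_extPlace v (hK v))).1 f

theorem extPlace_residue (v : Place K F0) (z : F1) (hz : z ∈ (S.extPlace hK v).toValuationSubring) :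
    ∃ lam : L, z = algebraMap L F1 lam ∨ 1 ≤ (S.extPlace hK v).ord (z - algebraMap L F1 lam) :=
  (Classical.choose_spec (S.exists_extPlace v (hK v))).2 z hz

/-- Uniqueness: a place of `F1` inducing `v.ord` on `F0` is `extPlace v`. -/
theorem eq_extPlace_of_ord (w : Place L F1) (v : Place K F0)
    (h : ∀ f : F0, w.ord (S.ι f) = v.ord f) : w = S.extPlace hK v :=
  S.eq_of_extends v (hK v) w _ h (S.extPlace_ord hK v)

theorem extPlace_injective : Function.Injective (S.extPlace hK) := by
  intro v v' hvv'
  apply place_eq_of_ord_proportional (c := 1) (c' := 1) one_pos one_pos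
  intro f _
  rw [← S.extPlace_ord hK v f, ← S.extPlace_ord hK v' f, hvv']

/-- The restriction of the order function of a place of `F1` to `F0` is an additive valuation. -/
theorem isAddVal_restrict (w : Place L F1) : IsAddVal K (fun f : F0 => w.ord (S.ι f)) := by
  refine ⟨fun f g hf hg => ?_, fun f g hf hg hfg => ?_, fun c _ => ?_⟩
  · show w.ord (S.ι (f * g)) = _
    rw [map_mul, w.ord_mul ((map_ne_zero _).mpr hf) ((map_ne_zero _).mpr hg)]
  · show min (w.ord (S.ι f)) (w.ord (S.ι g)) ≤ w.ord (S.ι (f + g))
    rw [map_add]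
    exact (isAddVal_ord w).map_add _ _ ((map_ne_zero _).mpr hf) ((map_ne_zero _).mpr hg)
      (by rw [← map_add]; exact (map_ne_zero _).mpr hfg)
  · show w.ord (S.ι (algebraMap K F0 c)) = 0
    rw [S.ι_const, PD.place_ord_algebraMap]

/-- A place of `F1` is in the range of `extPlace` iff its order function is nontrivial on `F0`. -/
theorem mem_range_extPlace_iff (w : Place L F1) :
    w ∈ Set.range (S.extPlace hK) ↔ ∃ f : F0, w.ord (S.ι f) ≠ 0 := by
  constructor
  · rintro ⟨v, rfl⟩
    obtain ⟨t, ht⟩ := ZD.PlaceLemmas.exists_ord_eq_one v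
    exact ⟨t, by rw [S.extPlace_ord hK v t, ht]; exact one_ne_zero⟩
  · rintro ⟨f, hf⟩
    have hf0 : f ≠ 0 := by
      rintro rfl
      simp at hf
    obtain ⟨v, c, hc, hv⟩ := (S.isAddVal_restrict w).exists_place ⟨f, hf0, hf⟩
    have hv' : ∀ g : F0, w.ord (S.ι g) = c * v.ord g := by
      intro g
      rcases eq_or_ne g 0 with rfl | hg
      · simp
      · exact hv g hg
    have hc1 := S.index_eq_one v (hK v) w c hc hv'
    refine ⟨v, (S.eq_extPlace_of_ord hK w v fun g => ?_).symm⟩
    rw [hv' g, hc1]
    simp

theorem ord_ι_eq_zero_of_notMem_range (w : Place L F1) (hw : w ∉ Set.range (S.extPlace hK))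
    (f : F0) : w.ord (S.ι f) = 0 := by
  by_contra h
  exact hw ((S.mem_range_extPlace_iff hK w).mpr ⟨f, h⟩)

/-- The residue field of `extPlace v` is `L`. -/
theorem extPlace_residue_surjective (v : Place K F0) :
    Function.Surjective (algebraMap L (S.extPlace hK v).ResidueField) := by
  intro x
  obtain ⟨a, rfl⟩ := IsLocalRing.residue_surjective x
  obtain ⟨lam, hlam⟩ := S.extPlace_residue hK v (a : F1) a.2
  refine ⟨lam, ?_⟩
  rw [IsScalarTower.algebraMap_apply L (S.extPlace hK v).toValuationSubring
    (S.extPlace hK v).ResidueField, IsLocalRing.ResidueField.algebraMap_eq]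
  symm
  rw [← sub_eq_zero, ← map_sub, IsLocalRing.residue_eq_zero_iff]
  rcases hlam with h | h
  · have : a - algebraMap L (S.extPlace hK v).toValuationSubring lam = 0 := by
      ext
      simp [h]
    rw [this]
    exact zero_mem _
  · have hne : ((a - algebraMap L (S.extPlace hK v).toValuationSubring lam :
        (S.extPlace hK v).toValuationSubring) : F1) ≠ 0 := by
      intro h0
      have : (a : F1) - algebraMap L F1 lam = 0 := by simpa using h0
      rw [this] at h
      simp at h
    rw [PD.place_mem_maximalIdeal_iff _ _ hne]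
    have : ((a - algebraMap L (S.extPlace hK v).toValuationSubring lam :
        (S.extPlace hK v).toValuationSubring) : F1) = (a : F1) - algebraMap L F1 lam := by
      simp
    rw [this]
    omega

theorem deg_eq_one_of_surjective {k E : Type*} [Field k] [Field E] [Algebra k E] (v : Place k E)
    (h : Function.Surjective (algebraMap k v.ResidueField)) : v.deg = 1 := by
  have hbij : Function.Bijective (algebraMap k v.ResidueField) :=
    ⟨(algebraMap k v.ResidueField).injective, h⟩
  show Module.finrank k v.ResidueField = 1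
  rw [← Module.finrank_self k]
  exact ((AlgEquiv.ofBijective (Algebra.ofId k v.ResidueField) hbij).toLinearEquiv.finrank_eq).symm

theorem deg_extPlace (v : Place K F0) : (S.extPlace hK v).deg = 1 :=
  deg_eq_one_of_surjective _ (S.extPlace_residue_surjective hK v)


/-- Base change of divisors. -/
def bc : Divisor K F0 →+ Divisor L F1 :=
  Finsupp.mapDomain.addMonoidHom (S.extPlace hK)

theorem bc_def (D : Divisor K F0) : S.bc hK D = Finsupp.mapDomain (S.extPlace hK) D := rfl

@[simp]
theorem bc_single (v : Place K F0) (n : ℤ) :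
    S.bc hK (Finsupp.single v n) = Finsupp.single (S.extPlace hK v) n := by
  rw [bc_def, Finsupp.mapDomain_single]

@[simp]
theorem bc_apply_extPlace (D : Divisor K F0) (v : Place K F0) :
    S.bc hK D (S.extPlace hK v) = D v :=
  Finsupp.mapDomain_apply (S.extPlace_injective hK) D v

theorem bc_apply_of_notMem_range (D : Divisor K F0) (w : Place L F1)
    (hw : w ∉ Set.range (S.extPlace hK)) : S.bc hK D w = 0 :=
  Finsupp.mapDomain_of_notMem_range D w hw

theorem bc_injective : Function.Injective (S.bc hK) :=
  Finsupp.mapDomain_injective (S.extPlace_injective hK)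

theorem degree_bc (D : Divisor K F0) : Divisor.degree (S.bc hK D) = Divisor.degree D := by
  induction D using Finsupp.induction with
  | zero => simp
  | single_add v n D _ _ ih =>
    rw [map_add, map_add, map_add, ih, bc_single, Divisor.degree_single, Divisor.degree_single,
      S.deg_extPlace hK v, deg_eq_one_of_surjective v (hK v)]

/-- `bc (div f) = div (ι f)`. -/
theorem bc_ord {D : Divisor K F0} {f : F0} (hD : ∀ v, D v = v.ord f) (w : Place L F1) :
    S.bc hK D w = w.ord (S.ι f) := by
  by_cases hw : w ∈ Set.range (S.extPlace hK)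
  · obtain ⟨v, rfl⟩ := hw
    rw [bc_apply_extPlace, hD, extPlace_ord]
  · rw [S.bc_apply_of_notMem_range hK D w hw, S.ord_ι_eq_zero_of_notMem_range hK w hw]

theorem bc_mem_principal {D : Divisor K F0} (hD : D ∈ Divisor.principal (K := K) (F := F0)) :
    S.bc hK D ∈ Divisor.principal (K := L) (F := F1) := by
  obtain ⟨f, hf, hD⟩ := hD
  exact ⟨S.ι f, (map_ne_zero _).mpr hf, S.bc_ord hK hD⟩

theorem bc_mem_degZero {D : Divisor K F0} (hD : D ∈ Divisor.degZero (K := K) (F := F0)) :
    S.bc hK D ∈ Divisor.degZero (K := L) (F := F1) := by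
  rw [Divisor.mem_degZero] at hD ⊢
  rw [degree_bc, hD]

/-- `bc` restricted to degree-zero divisors. -/
def bcDegZero : Divisor.degZero (K := K) (F := F0) →+ Divisor.degZero (K := L) (F := F1) :=
  ((S.bc hK).comp (Divisor.degZero (K := K) (F := F0)).subtype).codRestrict _
    (fun D => S.bc_mem_degZero hK D.2)

@[simp]
theorem coe_bcDegZero (D : Divisor.degZero (K := K) (F := F0)) :
    (S.bcDegZero hK D : Divisor L F1) = S.bc hK (D : Divisor K F0) := rfl

/-- Base change on `Pic0`. -/
def bcPic0 : Pic0 K F0 →+ Pic0 L F1 :=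
  QuotientAddGroup.map _ _ (S.bcDegZero hK) (by
    rintro ⟨D, hD0⟩ hD
    simp only [AddSubgroup.mem_addSubgroupOf, AddSubgroup.mem_comap] at hD ⊢
    exact S.bc_mem_principal hK hD)

theorem bcPic0_mk (D : Divisor.degZero (K := K) (F := F0)) :
    S.bcPic0 hK (Pic0.mk D) = Pic0.mk (S.bcDegZero hK D) := rfl

/-- Automorphisms of `F1` fixing `ι F0` fix every extended place. -/
theorem smul_extPlace (g : SemilinearAut L F1) (hg : ∀ f : F0, g • S.ι f = S.ι f)
    (v : Place K F0) : g • S.extPlace hK v = S.extPlace hK v := by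
  apply S.eq_extPlace_of_ord hK
  intro f
  have h := SemilinearAut.ord_smul g (S.extPlace hK v) (S.ι f)
  rw [hg f] at h
  rw [h, extPlace_ord]

theorem smul_bc (g : SemilinearAut L F1) (hg : ∀ f : F0, g • S.ι f = S.ι f)
    (D : Divisor K F0) : g • S.bc hK D = S.bc hK D := by
  induction D using Finsupp.induction with
  | zero => simp
  | single_add v n D _ _ ih =>
    rw [map_add, smul_add, ih, bc_single, SemilinearAut.smul_single, S.smul_extPlace hK g hg]

end Setup

end Fermat.Agent.Gateway.BaseChange
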