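import Mathlib
import Fermat.Prelude.Def_ModularCurve_LaurentCoeff
import Fermat.Prelude.Def_AlgebraicCurve_BaseChangeGalois

/-!
# P-GATEWAY WP-BC: common definitions (helper86)

Abstract base change of a field of Laurent series `F0 ⊆ K((q))` along a field extension
`K → L`: `F1 = L(ι F0) ⊆ L((q))`, `ι = coeffMap (algebraMap K L)`.
`F1` is a PARAMETER together with a proof `h : IsBC F0 F1` (no transport along equalities of
intermediate fields is ever needed); the instance we care about is
`isBC_laurentBaseChange : IsBC (laurentBaseChange K F) (laurentBaseChange L F)`.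
-/

set_option autoImplicit false

noncomputable section

namespace Fermat.Agent.Gateway.BaseChange

open ModularCurve AlgebraicCurve IntermediateField

section Iota

variable (K L : Type*) [Field K] [Field L] [Algebra K L]

/-- Coefficientwise base change `K((q)) → L((q))`. -/
def iota : LaurentSeries K →+* LaurentSeries L := coeffMap (algebraMap K L)

variable {K L}

@[simp]
theorem iota_coeff (x : LaurentSeries K) (k : ℤ) :
    (iota K L x).coeff k = algebraMap K L (x.coeff k) := rfl

theorem iota_injective : Function.Injective (iota K L) := (iota K L).injective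

theorem iota_algebraMap (c : K) :
    iota K L (algebraMap K (LaurentSeries K) c)
      = algebraMap L (LaurentSeries L) (algebraMap K L c) := by
  rw [algebraMap_laurentSeries_eq_single, algebraMap_laurentSeries_eq_single]
  exact coeffMap_single _ _ _

/-- `coeffMap σ` fixes `ι x` for `σ ∈ Aut(L/K)`. -/
theorem coeffMap_iota (σ : L ≃ₐ[K] L) (x : LaurentSeries K) :
    coeffMap (σ : L →+* L) (iota K L x) = iota K L x := by
  ext k
  simp

end Iota

section IsBC

variable {K L : Type*} [Field K] [Field L] [Algebra K L]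

/-- `F1` is the base change of `F0`: `F1 = L(ι F0)`. -/
structure IsBC (F0 : IntermediateField K (LaurentSeries K))
    (F1 : IntermediateField L (LaurentSeries L)) : Prop where
  eq_adjoin : F1 = IntermediateField.adjoin L
    (⇑(iota K L) '' (F0 : Set (LaurentSeries K)))

variable {F0 : IntermediateField K (LaurentSeries K)}
  {F1 : IntermediateField L (LaurentSeries L)}

theorem IsBC.iota_mem (h : IsBC F0 F1) {x : LaurentSeries K} (hx : x ∈ F0) :
    iota K L x ∈ F1 := by
  rw [h.eq_adjoin]
  exact IntermediateField.subset_adjoin L _ ⟨x, hx, rfl⟩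

/-- `ι` restricted to `F0 → F1`. -/
def IsBC.iotaF (h : IsBC F0 F1) : F0 →+* F1 where
  toFun x := ⟨iota K L (x : LaurentSeries K), h.iota_mem x.2⟩
  map_one' := Subtype.ext (map_one _)
  map_mul' _ _ := Subtype.ext (map_mul _ _ _)
  map_zero' := Subtype.ext (map_zero _)
  map_add' _ _ := Subtype.ext (map_add _ _ _)

@[simp]
theorem IsBC.coe_iotaF (h : IsBC F0 F1) (x : F0) :
    ((h.iotaF x : F1) : LaurentSeries L) = iota K L (x : LaurentSeries K) := rfl

theorem IsBC.iotaF_injective (h : IsBC F0 F1) : Function.Injective h.iotaF :=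
  h.iotaF.injective

theorem IsBC.iotaF_algebraMap (h : IsBC F0 F1) (c : K) :
    h.iotaF (algebraMap K F0 c) = algebraMap L F1 (algebraMap K L c) :=
  Subtype.ext (iota_algebraMap c)

theorem IsBC.mem_iff (h : IsBC F0 F1) {x : LaurentSeries L} :
    x ∈ F1 ↔ x ∈ Subfield.closure
      (Set.range (algebraMap L (LaurentSeries L)) ∪
        (⇑(iota K L) '' (F0 : Set (LaurentSeries K)))) := by
  rw [h.eq_adjoin]
  exact Iff.rfl

/-- `F1` is stable under `coeffMap σ`, `σ ∈ Aut(L/K)`. -/
theorem IsBC.coeffMap_mem (h : IsBC F0 F1) (σ : L ≃ₐ[K] L) {x : LaurentSeries L}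
    (hx : x ∈ F1) : coeffMap (σ : L →+* L) x ∈ F1 := by
  rw [h.mem_iff] at hx
  induction hx using Subfield.closure_induction with
  | mem y hy =>
      rcases hy with ⟨a, rfl⟩ | ⟨z, hz, rfl⟩
      · rw [coeffMap_algebraMap]
        exact F1.algebraMap_mem _
      · rw [coeffMap_iota]
        exact h.iota_mem hz
  | one => simp
  | add _ _ _ _ hx hy => simpa using add_mem hx hy
  | neg _ _ hx => simpa using neg_mem hx
  | inv _ _ hx => simpa using inv_mem hx
  | mul _ _ _ _ hx hy => simpa using mul_mem hx hy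

/-- The ring automorphism of `F1` induced by `σ ∈ Aut(L/K)`. -/
def IsBC.ringAut (h : IsBC F0 F1) (σ : L ≃ₐ[K] L) : F1 ≃+* F1 where
  toFun x := ⟨coeffMap (σ : L →+* L) (x : LaurentSeries L), h.coeffMap_mem σ x.2⟩
  invFun x := ⟨coeffMap (σ.symm : L →+* L) (x : LaurentSeries L), h.coeffMap_mem σ.symm x.2⟩
  left_inv x := Subtype.ext <| by
    show coeffMap (σ.symm : L →+* L) (coeffMap (σ : L →+* L) (x : LaurentSeries L))
      = (x : LaurentSeries L)
    rw [coeffMap_coeffMap,
      coeffMap_congr (g := RingHom.id L) (RingHom.ext fun a => σ.symm_apply_apply a)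
        (x : LaurentSeries L),
      coeffMap_id]
  right_inv x := Subtype.ext <| by
    show coeffMap (σ : L →+* L) (coeffMap (σ.symm : L →+* L) (x : LaurentSeries L))
      = (x : LaurentSeries L)
    rw [coeffMap_coeffMap,
      coeffMap_congr (g := RingHom.id L) (RingHom.ext fun a => σ.apply_symm_apply a)
        (x : LaurentSeries L),
      coeffMap_id]
  map_mul' x y :=
    Subtype.ext (map_mul (coeffMap (σ : L →+* L)) (x : LaurentSeries L) (y : LaurentSeries L))
  map_add' x y :=
    Subtype.ext (map_add (coeffMap (σ : L →+* L)) (x : LaurentSeries L) (y : LaurentSeries L))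

@[simp]
theorem IsBC.coe_ringAut_apply (h : IsBC F0 F1) (σ : L ≃ₐ[K] L) (x : F1) :
    (h.ringAut σ x : LaurentSeries L) = coeffMap (σ : L →+* L) (x : LaurentSeries L) := rfl

theorem IsBC.ringAut_algebraMap (h : IsBC F0 F1) (σ : L ≃ₐ[K] L) (a : L) :
    h.ringAut σ (algebraMap L F1 a) = algebraMap L F1 (σ a) :=
  Subtype.ext (coeffMap_algebraMap (σ : L →+* L) a)

theorem IsBC.ringAut_iotaF (h : IsBC F0 F1) (σ : L ≃ₐ[K] L) (x : F0) :
    h.ringAut σ (h.iotaF x) = h.iotaF x :=
  Subtype.ext (coeffMap_iota σ _)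

/-- The semilinear action of `Aut(L/K)` on `F1`. -/
def IsBC.gal (h : IsBC F0 F1) : (L ≃ₐ[K] L) →* SemilinearAut L F1 where
  toFun σ := ⟨(h.ringAut σ, σ.toRingEquiv), fun a => h.ringAut_algebraMap σ a⟩
  map_one' := by
    refine Subtype.ext (Prod.ext (RingEquiv.ext fun x => Subtype.ext ?_) rfl)
    show coeffMap ((1 : L ≃ₐ[K] L) : L →+* L) (x : LaurentSeries L) = (x : LaurentSeries L)
    rw [show ((1 : L ≃ₐ[K] L) : L →+* L) = RingHom.id L from RingHom.ext fun _ => rfl,
      coeffMap_id]
  map_mul' σ τ := by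
    refine Subtype.ext (Prod.ext (RingEquiv.ext fun x => Subtype.ext ?_) rfl)
    show coeffMap ((σ * τ : L ≃ₐ[K] L) : L →+* L) (x : LaurentSeries L)
      = coeffMap (σ : L →+* L) (coeffMap (τ : L →+* L) (x : LaurentSeries L))
    rw [coeffMap_coeffMap]
    exact coeffMap_congr (RingHom.ext fun _ => rfl) _

@[simp]
theorem IsBC.toRingAut_gal (h : IsBC F0 F1) (σ : L ≃ₐ[K] L) :
    SemilinearAut.toRingAut (h.gal σ) = h.ringAut σ := rfl

@[simp]
theorem IsBC.baseAut_gal (h : IsBC F0 F1) (σ : L ≃ₐ[K] L) :
    SemilinearAut.baseAut (h.gal σ) = σ.toRingEquiv := rfl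

theorem IsBC.coe_gal_smul (h : IsBC F0 F1) (σ : L ≃ₐ[K] L) (x : F1) :
    ((h.gal σ • x : F1) : LaurentSeries L) = coeffMap (σ : L →+* L) (x : LaurentSeries L) :=
  rfl

theorem IsBC.gal_smul_iotaF (h : IsBC F0 F1) (σ : L ≃ₐ[K] L) (x : F0) :
    h.gal σ • h.iotaF x = h.iotaF x :=
  h.ringAut_iotaF σ x

theorem IsBC.gal_smul_algebraMap (h : IsBC F0 F1) (σ : L ≃ₐ[K] L) (a : L) :
    h.gal σ • algebraMap L F1 a = algebraMap L F1 (σ a) :=
  h.ringAut_algebraMap σ a

end IsBC

section Instance

variable (K L : Type*) [Field K] [Field L] [Algebra K L] [Algebra ℚ K] [Algebra ℚ L]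
  [IsScalarTower ℚ K L]

theorem iota_coeffEmb (x : LaurentSeries ℚ) : iota K L (coeffEmb K x) = coeffEmb L x := by
  ext k
  simp [IsScalarTower.algebraMap_apply ℚ K L]

theorem iota_mem_laurentBaseChange (F : IntermediateField ℚ (LaurentSeries ℚ))
    {x : LaurentSeries K} (hx : x ∈ laurentBaseChange K F) :
    iota K L x ∈ laurentBaseChange L F := by
  rw [mem_laurentBaseChange_iff] at hx
  induction hx using Subfield.closure_induction with
  | mem y hy =>
      rcases hy with ⟨a, rfl⟩ | ⟨z, hz, rfl⟩
      · rw [iota_algebraMap]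
        exact (laurentBaseChange L F).algebraMap_mem _
      · rw [iota_coeffEmb]
        exact coeffEmb_mem_laurentBaseChange L hz
  | one => simp
  | add _ _ _ _ hx hy => simpa using add_mem hx hy
  | neg _ _ hx => simpa using neg_mem hx
  | inv _ _ hx => simpa using inv_mem hx
  | mul _ _ _ _ hx hy => simpa using mul_mem hx hy

/-- The Prelude base changes of a `ℚ`-model form a base change pair. -/
theorem isBC_laurentBaseChange (F : IntermediateField ℚ (LaurentSeries ℚ)) :
    IsBC (laurentBaseChange K F) (laurentBaseChange L F) := by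
  constructor
  apply le_antisymm
  · rw [laurentBaseChange, IntermediateField.adjoin_le_iff]
    rintro _ ⟨x, hx, rfl⟩
    apply IntermediateField.subset_adjoin
    exact ⟨coeffEmb K x, coeffEmb_mem_laurentBaseChange K hx, iota_coeffEmb K L x⟩
  · rw [IntermediateField.adjoin_le_iff]
    rintro _ ⟨x, hx, rfl⟩
    exact iota_mem_laurentBaseChange K L F hx

end Instance

end Fermat.Agent.Gateway.BaseChange
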