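/-
helper15 (P-GATEWAY, WP-BC): bridge from helper86's concrete base-change pairs `IsBC F0 F1`
(intermediate fields of Laurent series) to the abstract `Setup K L F0 F1`, so that
`extPlace`, `bc`, `bcPic0`, ... apply to `laurentBaseChange K F ⊆ laurentBaseChange L F`.
-/
import Mathlib
import Fermat.Agent.Gateway.BaseChange.Defs
import Fermat.Agent.Gateway.BaseChange.BCDiv

set_option autoImplicit false

noncomputable section

namespace Fermat.Agent.Gateway.BaseChange

open AlgebraicCurve ModularCurve Fermat.Agent.S24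

variable {K L : Type*} [Field K] [Field L] [Algebra K L]
  {F0 : IntermediateField K (LaurentSeries K)} {F1 : IntermediateField L (LaurentSeries L)}

theorem IsBC.linDisj (h : IsBC F0 F1) (n : ℕ) (l : Fin n → L) (f : Fin n → F0)
    (hl : LinearIndependent K l)
    (hsum : ∑ i, algebraMap L F1 (l i) * h.iotaF (f i) = 0) : ∀ i, f i = 0 := by
  have h1 : ∑ k, HahnSeries.C (l k) * coeffMap (algebraMap K L) ((f k : F0) : LaurentSeries K)
      = 0 := by
    have h2 := congrArg (fun x : F1 => (x : LaurentSeries L)) hsum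
    simp only [AddSubmonoidClass.coe_finsetSum, MulMemClass.coe_mul, IsBC.coe_iotaF,
      ZeroMemClass.coe_zero] at h2
    rw [← h2]
    refine Finset.sum_congr rfl fun k _ => ?_
    congr 1
    rw [HahnSeries.C_apply]
    exact (algebraMap_laurentSeries_eq_single L (l k)).symm
  have h3 := Descent.eq_zero_of_sum_C_mul_coeffMap_eq_zero l hl
    (fun k => ((f k : F0) : LaurentSeries K)) h1
  intro i
  exact Subtype.ext (h3 i)

theorem IsBC.gen (h : IsBC F0 F1) (S : Subfield F1) (hL : ∀ c : L, algebraMap L F1 c ∈ S)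
    (hF : ∀ f : F0, h.iotaF f ∈ S) : S = ⊤ := by
  have key : ∀ y : LaurentSeries L, y ∈ Subfield.closure
      (Set.range (algebraMap L (LaurentSeries L)) ∪
        (⇑(iota K L) '' (F0 : Set (LaurentSeries K)))) →
      ∃ z : F1, z ∈ S ∧ (z : LaurentSeries L) = y := by
    intro y hy
    induction hy using Subfield.closure_induction with
    | mem y hy =>
      rcases hy with ⟨a, rfl⟩ | ⟨z, hz, rfl⟩
      · exact ⟨algebraMap L F1 a, hL a, rfl⟩
      · exact ⟨h.iotaF ⟨z, hz⟩, hF ⟨z, hz⟩, rfl⟩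
    | one => exact ⟨1, one_mem S, rfl⟩
    | add a b _ _ ha hb =>
      obtain ⟨za, ha1, rfl⟩ := ha
      obtain ⟨zb, hb1, rfl⟩ := hb
      exact ⟨za + zb, add_mem ha1 hb1, rfl⟩
    | neg a _ ha =>
      obtain ⟨za, ha1, rfl⟩ := ha
      exact ⟨-za, neg_mem ha1, rfl⟩
    | inv a _ ha =>
      obtain ⟨za, ha1, rfl⟩ := ha
      exact ⟨za⁻¹, inv_mem ha1, rfl⟩
    | mul a b _ _ ha hb =>
      obtain ⟨za, ha1, rfl⟩ := ha
      obtain ⟨zb, hb1, rfl⟩ := hb
      exact ⟨za * zb, mul_mem ha1 hb1, rfl⟩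
  rw [eq_top_iff]
  intro x _
  obtain ⟨z, hz, hzx⟩ := key (x : LaurentSeries L) (h.mem_iff.mp x.2)
  have : z = x := Subtype.ext hzx
  rw [← this]
  exact hz

/-- A base-change pair of Laurent-series fields is a base-change setup. -/
def IsBC.toSetup (h : IsBC F0 F1) : Setup K L F0 F1 where
  ι := h.iotaF
  ι_const := h.iotaF_algebraMap
  linDisj := h.linDisj
  gen := h.gen

@[simp]
theorem IsBC.toSetup_ι (h : IsBC F0 F1) : h.toSetup.ι = h.iotaF := rfl

/-- `Aut(L/K)` fixes every extended place. -/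
theorem IsBC.gal_smul_extPlace (h : IsBC F0 F1)
    (hK : ∀ v : Place K F0, Function.Surjective (algebraMap K v.ResidueField))
    (σ : L ≃ₐ[K] L) (v : Place K F0) :
    h.gal σ • h.toSetup.extPlace hK v = h.toSetup.extPlace hK v :=
  h.toSetup.smul_extPlace hK (h.gal σ) (fun f => h.gal_smul_iotaF σ f) v

/-- `Aut(L/K)` fixes every base-changed divisor. -/
theorem IsBC.gal_smul_bc (h : IsBC F0 F1)
    (hK : ∀ v : Place K F0, Function.Surjective (algebraMap K v.ResidueField))
    (σ : L ≃ₐ[K] L) (D : Divisor K F0) :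
    h.gal σ • h.toSetup.bc hK D = h.toSetup.bc hK D :=
  h.toSetup.smul_bc hK (h.gal σ) (fun f => h.gal_smul_iotaF σ f) D

end Fermat.Agent.Gateway.BaseChange
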