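import Mathlib
import Fermat.Prelude.Def_AlgebraicCurve_Repartitions
import Fermat.Prelude.Def_AlgebraicCurve_BaseChangeGalois
import Fermat.Agent.S24.AddVal
import Fermat.Agent.S24.PlacesDedekind

/-!
# WP-BC, slice BC4a: a canonical effective representative of a divisor class

Abstract function field `F1 / L` with principal divisors, an effective divisor `B` and a place `P`
with residue field `L`.  For a divisor `D` let `m` be the least natural number with
`L(D + m B) ≠ 0` and `f ∈ L(D + m B) \ {0}` of maximal order at `P`; such an `f` is unique up to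
`L^×`, so `canon B P D := D + m • B + div f` is a well defined effective divisor, linearly
equivalent to `D + m • B`, which only depends on the class of `D`, and which is equivariant for
every semilinear automorphism fixing `B` and `P`.

Main declarations (namespace `Fermat.Agent.Gateway.BaseChange`):
`canon`, `canon_nonneg`, `canon_linEquiv`, `canon_add_principal`, `canon_smul_aut`, `canon_smul`,
`finite_orbit`, `finiteIndex_stabilizer`, `exists_rep_of_finite_orbit`, `hne_of_poleDivisor`,
`poleDivisor`, `smul_poleDivisor`, `hne_poleDivisor`.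
-/

set_option autoImplicit false

noncomputable section

namespace Fermat.Agent.Gateway.BaseChange

open AlgebraicCurve Fermat.Agent.S24

namespace Canonical

variable {L F1 : Type*} [Field L] [Field F1] [Algebra L F1]

/-! ### degree of effective divisors -/

theorem degree_eq_sum (E : Divisor L F1) :
    Divisor.degree E = E.sum fun v n => n * (v.deg : ℤ) := by
  simp [Divisor.degree, Finsupp.liftAddHom_apply]

theorem apply_mul_deg_le_degree {E : Divisor L F1} (h : 0 ≤ E) (P : Place L F1) :
    E P * (P.deg : ℤ) ≤ Divisor.degree E := by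
  rw [degree_eq_sum]
  by_cases hP : P ∈ E.support
  · exact Finset.single_le_sum (f := fun v => E v * (v.deg : ℤ))
      (fun v _ => mul_nonneg (h v) (Int.natCast_nonneg _)) hP
  · rw [Finsupp.notMem_support_iff] at hP
    rw [hP, zero_mul]
    exact Finsupp.sum_nonneg fun v _ => mul_nonneg (h v) (Int.natCast_nonneg _)

theorem deg_eq_one (P : Place L F1) (hP : Function.Surjective (algebraMap L P.ResidueField)) :
    P.deg = 1 := by
  have hbij : Function.Bijective (algebraMap L P.ResidueField) :=
    ⟨(algebraMap L P.ResidueField).injective, hP⟩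
  show Module.finrank L P.ResidueField = 1
  rw [← Module.finrank_self L]
  exact ((AlgEquiv.ofBijective (Algebra.ofId L P.ResidueField) hbij).toLinearEquiv.finrank_eq).symm

/-! ### orders -/

theorem ord_const (v : Place L F1) (c : L) : v.ord (algebraMap L F1 c) = 0 :=
  PD.place_ord_algebraMap v c

theorem ord_const_mul (v : Place L F1) {c : L} (hc : c ≠ 0) (f : F1) :
    v.ord (algebraMap L F1 c * f) = v.ord f := by
  rcases eq_or_ne f 0 with rfl | hf
  · simp
  · rw [v.ord_mul (by simpa using hc) hf, ord_const, zero_add]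

theorem ord_div (v : Place L F1) {f g : F1} (hf : f ≠ 0) (hg : g ≠ 0) :
    v.ord (f / g) = v.ord f - v.ord g :=
  (isAddVal_ord v).map_div hf hg

theorem ord_pow (v : Place L F1) (f : F1) (n : ℕ) : v.ord (f ^ n) = n * v.ord f := by
  have := v.ord_zpow f (n : ℤ)
  rwa [zpow_natCast] at this

theorem ord_prod (v : Place L F1) {ι : Type*} (s : Finset ι) (f : ι → F1)
    (hf : ∀ i ∈ s, f i ≠ 0) : v.ord (∏ i ∈ s, f i) = ∑ i ∈ s, v.ord (f i) := by
  classical
  induction s using Finset.induction_on with
  | empty => simp
  | insert a s ha ih =>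
    rw [Finset.prod_insert ha, Finset.sum_insert ha,
      v.ord_mul (hf a (Finset.mem_insert_self a s))
        (Finset.prod_ne_zero_iff.mpr fun i hi => hf i (Finset.mem_insert_of_mem hi)),
      ih fun i hi => hf i (Finset.mem_insert_of_mem hi)]

/-- If the residue field of `P` is `L`, every `P`-integral `u` is congruent to a constant. -/
theorem exists_const_sub (P : Place L F1)
    (hP : Function.Surjective (algebraMap L P.ResidueField)) {u : F1} (hu : u ≠ 0)
    (hu0 : 0 ≤ P.ord u) :
    ∃ c : L, u - algebraMap L F1 c = 0 ∨ 0 < P.ord (u - algebraMap L F1 c) := by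
  have hmem : u ∈ P.toValuationSubring := (PD.place_mem_iff P hu).mpr hu0
  obtain ⟨c, hc⟩ := hP (IsLocalRing.residue P.toValuationSubring ⟨u, hmem⟩)
  refine ⟨c, ?_⟩
  rw [IsScalarTower.algebraMap_apply L P.toValuationSubring P.ResidueField,
    IsLocalRing.ResidueField.algebraMap_eq] at hc
  have h0 : IsLocalRing.residue P.toValuationSubring
      ((⟨u, hmem⟩ : P.toValuationSubring) - algebraMap L P.toValuationSubring c) = 0 := by
    rw [map_sub, hc, sub_self]
  rw [IsLocalRing.residue_eq_zero_iff] at h0
  by_cases h : u - algebraMap L F1 c = 0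
  · exact Or.inl h
  · right
    have hcoe : (((⟨u, hmem⟩ : P.toValuationSubring) - algebraMap L P.toValuationSubring c :
        P.toValuationSubring) : F1) = u - algebraMap L F1 c := by
      simp
    have := (PD.place_mem_maximalIdeal_iff P _ (by rw [hcoe]; exact h)).mp h0
    rwa [hcoe] at this

theorem ord_smul' (σ : SemilinearAut L F1) (w : Place L F1) (f : F1) :
    w.ord (σ • f) = (σ⁻¹ • w).ord f := by
  have h := SemilinearAut.ord_smul σ (σ⁻¹ • w) f
  rwa [smul_inv_smul] at h

/-! ### the divisor of a function -/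

variable [HasPrincipalDivisors L F1]

/-- The divisor of a function (zero for the zero function). -/
def divOf (f : F1) : Divisor L F1 :=
  letI := Classical.propDecidable
  if h : f ≠ 0 then (HasPrincipalDivisors.exists_divisor (K := L) f h).choose else 0

@[simp]
theorem divOf_apply (f : F1) (v : Place L F1) : divOf (L := L) f v = v.ord f := by
  by_cases h : f ≠ 0
  · rw [divOf, dif_pos h]
    exact (HasPrincipalDivisors.exists_divisor (K := L) f h).choose_spec.1 v
  · rw [divOf, dif_neg h]
    rw [not_not] at h
    subst h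
    simp

theorem degree_divOf (f : F1) : Divisor.degree (divOf (L := L) f) = 0 := by
  by_cases h : f ≠ 0
  · rw [divOf, dif_pos h]
    exact (HasPrincipalDivisors.exists_divisor (K := L) f h).choose_spec.2
  · rw [divOf, dif_neg h, map_zero]

theorem divOf_const_mul {c : L} (hc : c ≠ 0) (f : F1) :
    divOf (L := L) (algebraMap L F1 c * f) = divOf f := by
  ext v
  rw [divOf_apply, divOf_apply, ord_const_mul v hc]

theorem divOf_div {f g : F1} (hf : f ≠ 0) (hg : g ≠ 0) :
    divOf (L := L) (f / g) = divOf f - divOf g := by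
  ext v
  rw [Finsupp.sub_apply, divOf_apply, divOf_apply, divOf_apply, ord_div v hf hg]

theorem divOf_smul (σ : SemilinearAut L F1) (f : F1) :
    divOf (L := L) (σ • f) = σ • divOf f := by
  ext w
  rw [SemilinearAut.divisor_smul_apply, divOf_apply, divOf_apply, ord_smul']

/-- A nonzero `f` lies in `L(E)` iff `E + div f` is effective. -/
theorem mem_rr_iff {E : Divisor L F1} {f : F1} (hf : f ≠ 0) :
    f ∈ riemannRochSpace E ↔ 0 ≤ E + divOf f := by
  rw [mem_riemannRochSpace_iff]
  constructor
  · intro h v
    have := (h v).resolve_left hf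
    rw [Finsupp.add_apply, divOf_apply]
    simp only [Finsupp.coe_zero, Pi.zero_apply]
    omega
  · intro h v
    right
    have := h v
    rw [Finsupp.add_apply, divOf_apply] at this
    simp only [Finsupp.coe_zero, Pi.zero_apply] at this
    omega

/-- Upper bound for the order at a degree one place of a nonzero element of `L(E)`. -/
theorem ord_le_of_mem_rr {E : Divisor L F1} {f : F1} (hf : f ≠ 0)
    (hmem : f ∈ riemannRochSpace E) (P : Place L F1) (hP1 : P.deg = 1) :
    P.ord f ≤ Divisor.degree E - E P := by
  have h0 := (mem_rr_iff hf).mp hmem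
  have h1 := apply_mul_deg_le_degree h0 P
  rw [map_add, degree_divOf, add_zero, hP1, Finsupp.add_apply, divOf_apply] at h1
  push_cast at h1
  omega

end Canonical

open Canonical

section Main

variable {L F1 : Type*} [Field L] [Field F1] [Algebra L F1] [HasPrincipalDivisors L F1]
variable (B : Divisor L F1) (P : Place L F1)

/-- `m` is the least multiple of `B` for which `L(D + m B)` is nonzero, and `f` is a nonzero
element of `L(D + m B)` of maximal order at `P`. -/
structure IsCanonData (D : Divisor L F1) (m : ℕ) (f : F1) : Prop where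
  ne_zero : f ≠ 0
  mem : f ∈ riemannRochSpace (D + m • B)
  min : ∀ k < m, riemannRochSpace (D + k • B) = ⊥
  max : ∀ g ∈ riemannRochSpace (D + m • B), g ≠ 0 → P.ord g ≤ P.ord f

variable {B P}

theorem exists_isCanonData (hP : Function.Surjective (algebraMap L P.ResidueField))
    (hne : ∀ D : Divisor L F1, ∃ m : ℕ, riemannRochSpace (D + m • B) ≠ ⊥) (D : Divisor L F1) :
    ∃ m f, IsCanonData B P D m f := by
  classical
  have hm1 : riemannRochSpace (D + Nat.find (hne D) • B) ≠ ⊥ := Nat.find_spec (hne D)
  have hm2 : ∀ k < Nat.find (hne D), riemannRochSpace (D + k • B) = ⊥ := fun k hk =>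
    not_not.mp (Nat.find_min (hne D) hk)
  generalize Nat.find (hne D) = m at hm1 hm2
  obtain ⟨f₀, hf₀mem, hf₀⟩ := Submodule.exists_mem_ne_zero_of_ne_bot hm1
  have hP1 := deg_eq_one P hP
  obtain ⟨N, ⟨f, hfmem, hf0, hfN⟩, hmax⟩ := Int.exists_greatest_of_bdd
    (P := fun z => ∃ g ∈ riemannRochSpace (D + m • B), g ≠ 0 ∧ P.ord g = z)
    ⟨Divisor.degree (D + m • B) - (D + m • B) P, fun z ⟨g, hg, hg0, hz⟩ =>
      hz ▸ ord_le_of_mem_rr hg0 hg P hP1⟩ ⟨P.ord f₀, f₀, hf₀mem, hf₀, rfl⟩
  exact ⟨m, f, hf0, hfmem, hm2, fun g hg hg0 => hfN ▸ hmax _ ⟨g, hg, hg0, rfl⟩⟩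

omit [HasPrincipalDivisors L F1] in
theorem IsCanonData.unique (hP : Function.Surjective (algebraMap L P.ResidueField))
    {D : Divisor L F1} {m m' : ℕ} {f f' : F1} (h : IsCanonData B P D m f)
    (h' : IsCanonData B P D m' f') :
    m = m' ∧ ∃ c : L, c ≠ 0 ∧ f' = algebraMap L F1 c * f := by
  have hmm : m = m' := by
    rcases lt_trichotomy m m' with hlt | heq | hgt
    · exfalso
      have hf := h.mem
      rw [h'.min m hlt, Submodule.mem_bot] at hf
      exact h.ne_zero hf
    · exact heq
    · exfalso
      have hf := h'.mem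
      rw [h.min m' hgt, Submodule.mem_bot] at hf
      exact h'.ne_zero hf
  subst hmm
  refine ⟨rfl, ?_⟩
  have hord : P.ord f' = P.ord f :=
    le_antisymm (h.max f' h'.mem h'.ne_zero) (h'.max f h.mem h.ne_zero)
  have hu : f' / f ≠ 0 := div_ne_zero h'.ne_zero h.ne_zero
  have hu0 : 0 ≤ P.ord (f' / f) := by rw [ord_div P h'.ne_zero h.ne_zero, hord, sub_self]
  obtain ⟨c, hc⟩ := exists_const_sub P hP hu hu0
  have hf0 := h.ne_zero
  have hkey : f' - algebraMap L F1 c * f = (f' / f - algebraMap L F1 c) * f := by
    field_simp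
  rcases hc with hc | hc
  · have hff : f' = algebraMap L F1 c * f := by rw [← sub_eq_zero, hkey, hc, zero_mul]
    refine ⟨c, ?_, hff⟩
    rintro rfl
    rw [map_zero, zero_mul] at hff
    exact h'.ne_zero hff
  · exfalso
    have hne : f' / f - algebraMap L F1 c ≠ 0 := by
      intro h0
      rw [h0] at hc
      simp at hc
    have hg0 : f' - algebraMap L F1 c * f ≠ 0 := by
      rw [hkey]
      exact mul_ne_zero hne h.ne_zero
    have hgmem : f' - algebraMap L F1 c * f ∈ riemannRochSpace (D + m • B) := by
      have := Submodule.sub_mem _ h'.mem (Submodule.smul_mem _ c h.mem)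
      rwa [Algebra.smul_def] at this
    have := h.max _ hgmem hg0
    rw [hkey, P.ord_mul hne h.ne_zero] at this
    omega

omit [HasPrincipalDivisors L F1] in
/-- Transport of canonical data along a bijection of `F1` compatible with the Riemann-Roch
spaces and shifting the order at `P` by a constant. -/
theorem IsCanonData.transport {D D' : Divisor L F1} {m : ℕ} {f : F1}
    (h : IsCanonData B P D m f) (φ ψ : F1 → F1) (hφψ : ∀ x, φ (ψ x) = x)
    (hφ0 : ∀ x, x ≠ 0 → φ x ≠ 0) (hψ0 : ∀ x, x ≠ 0 → ψ x ≠ 0)
    (hmem : ∀ (k : ℕ) (x : F1), x ∈ riemannRochSpace (D + k • B) →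
      φ x ∈ riemannRochSpace (D' + k • B))
    (hmem' : ∀ (k : ℕ) (x : F1), x ∈ riemannRochSpace (D' + k • B) →
      ψ x ∈ riemannRochSpace (D + k • B))
    (c : ℤ) (hord : ∀ x, x ≠ 0 → P.ord (φ x) = P.ord x + c) :
    IsCanonData B P D' m (φ f) := by
  refine ⟨hφ0 f h.ne_zero, hmem m f h.mem, fun k hk => ?_, fun g hg hg0 => ?_⟩
  · rw [eq_bot_iff]
    intro x hx
    rw [Submodule.mem_bot]
    by_contra hx0
    have h1 := hmem' k x hx
    rw [h.min k hk, Submodule.mem_bot] at h1
    exact hψ0 x hx0 h1
  · have h1 := h.max (ψ g) (hmem' m g hg) (hψ0 g hg0)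
    have h2 := hord (ψ g) (hψ0 g hg0)
    rw [hφψ] at h2
    rw [h2, hord f h.ne_zero]
    omega

variable (B P)

/-- The canonical effective representative of the class of `D + m B`, `m` minimal. -/
def canon (D : Divisor L F1) : Divisor L F1 :=
  letI := Classical.propDecidable
  if h : ∃ m f, IsCanonData B P D m f then
    D + h.choose • B + divOf h.choose_spec.choose
  else 0

variable {B P}

theorem canon_spec {D : Divisor L F1} (hex : ∃ m f, IsCanonData B P D m f) :
    ∃ m f, IsCanonData B P D m f ∧ canon B P D = D + m • B + divOf f := by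
  refine ⟨hex.choose, hex.choose_spec.choose, hex.choose_spec.choose_spec, ?_⟩
  rw [canon, dif_pos hex]

/-- Characterisation of `canon`. -/
theorem canon_eq (hP : Function.Surjective (algebraMap L P.ResidueField))
    {D : Divisor L F1} {m : ℕ} {f : F1} (h : IsCanonData B P D m f) :
    canon B P D = D + m • B + divOf f := by
  obtain ⟨m', f', h', heq⟩ := canon_spec ⟨m, f, h⟩
  obtain ⟨rfl, c, hc, rfl⟩ := h.unique hP h'
  rw [heq, divOf_const_mul hc]

theorem canon_nonneg (hP : Function.Surjective (algebraMap L P.ResidueField))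
    (hne : ∀ D : Divisor L F1, ∃ m : ℕ, riemannRochSpace (D + m • B) ≠ ⊥) (D : Divisor L F1) :
    0 ≤ canon B P D := by
  obtain ⟨m, f, h⟩ := exists_isCanonData hP hne D
  rw [canon_eq hP h]
  exact (mem_rr_iff h.ne_zero).mp h.mem

theorem canon_linEquiv (hP : Function.Surjective (algebraMap L P.ResidueField))
    (hne : ∀ D : Divisor L F1, ∃ m : ℕ, riemannRochSpace (D + m • B) ≠ ⊥) (D : Divisor L F1) :
    ∃ m : ℕ, ∃ f : F1, f ≠ 0 ∧ ∀ w, canon B P D w = D w + m * B w + w.ord f := by
  obtain ⟨m, f, h⟩ := exists_isCanonData hP hne D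
  refine ⟨m, f, h.ne_zero, fun w => ?_⟩
  rw [canon_eq hP h, Finsupp.add_apply, Finsupp.add_apply, Finsupp.smul_apply, nsmul_eq_mul,
    divOf_apply]

/-- `canon` only depends on the linear equivalence class. -/
theorem canon_add_principal (hP : Function.Surjective (algebraMap L P.ResidueField))
    (hne : ∀ D : Divisor L F1, ∃ m : ℕ, riemannRochSpace (D + m • B) ≠ ⊥) (D : Divisor L F1)
    (h : F1) (hh : h ≠ 0) (D' : Divisor L F1) (hD' : ∀ w, D' w = D w + w.ord h) :
    canon B P D' = canon B P D := by
  obtain ⟨m, f, hmf⟩ := exists_isCanonData hP hne D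
  have hDD : D' = D + divOf h := by
    ext w
    rw [hD', Finsupp.add_apply, divOf_apply]
  have htr : IsCanonData B P D' m (f / h) := by
    refine hmf.transport (fun x => x / h) (fun x => x * h) (fun x => by field_simp)
      (fun x hx => div_ne_zero hx hh) (fun x hx => mul_ne_zero hx hh) ?_ ?_ (-P.ord h)
      (fun x hx => by rw [ord_div P hx hh]; ring)
    · intro k x hx
      rw [mem_riemannRochSpace_iff] at hx ⊢
      intro v
      rcases eq_or_ne x 0 with rfl | hx0
      · left; simp
      · right
        have := (hx v).resolve_left hx0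
        rw [Finsupp.add_apply] at this
        rw [ord_div v hx0 hh, Finsupp.add_apply, hD']
        omega
    · intro k x hx
      rw [mem_riemannRochSpace_iff] at hx ⊢
      intro v
      rcases eq_or_ne x 0 with rfl | hx0
      · left; simp
      · right
        have := (hx v).resolve_left hx0
        rw [Finsupp.add_apply, hD'] at this
        rw [v.ord_mul hx0 hh, Finsupp.add_apply]
        omega
  rw [canon_eq hP htr, canon_eq hP hmf, divOf_div hmf.ne_zero hh, hDD]
  abel

/-- Equivariance of `canon` under a semilinear automorphism fixing `B` and `P`. -/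
theorem canon_smul_aut (hP : Function.Surjective (algebraMap L P.ResidueField))
    (hne : ∀ D : Divisor L F1, ∃ m : ℕ, riemannRochSpace (D + m • B) ≠ ⊥)
    (σ : SemilinearAut L F1) (hσB : σ • B = B) (hσP : σ • P = P) (D : Divisor L F1) :
    canon B P (σ • D) = σ • canon B P D := by
  obtain ⟨m, f, hmf⟩ := exists_isCanonData hP hne D
  have hσP' : σ⁻¹ • P = P := by rw [inv_smul_eq_iff, hσP]
  have hBw : ∀ w : Place L F1, B (σ⁻¹ • w) = B w := fun w => by
    rw [← SemilinearAut.divisor_smul_apply, hσB]
  have hBw' : ∀ v : Place L F1, B (σ • v) = B v := fun v => by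
    conv_lhs => rw [← hσB]
    rw [SemilinearAut.divisor_smul_apply_smul]
  have htr : IsCanonData B P (σ • D) m (σ • f) := by
    refine hmf.transport (fun x => σ • x) (fun x => σ⁻¹ • x) (fun x => smul_inv_smul σ x)
      (fun x hx => by simpa using hx) (fun x hx => by simpa using hx) ?_ ?_ 0
      (fun x _ => by rw [ord_smul', hσP', add_zero])
    · intro k x hx
      rw [mem_riemannRochSpace_iff] at hx ⊢
      intro w
      rcases eq_or_ne x 0 with rfl | hx0
      · left; simp
      · right
        have := (hx (σ⁻¹ • w)).resolve_left hx0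
        rw [Finsupp.add_apply, Finsupp.smul_apply, hBw] at this
        rw [ord_smul', Finsupp.add_apply, Finsupp.smul_apply, SemilinearAut.divisor_smul_apply]
        exact this
    · intro k x hx
      rw [mem_riemannRochSpace_iff] at hx ⊢
      intro v
      rcases eq_or_ne x 0 with rfl | hx0
      · left; simp
      · right
        have := (hx (σ • v)).resolve_left hx0
        rw [Finsupp.add_apply, Finsupp.smul_apply, hBw',
          SemilinearAut.divisor_smul_apply_smul] at this
        rw [ord_smul', inv_inv, Finsupp.add_apply, Finsupp.smul_apply]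
        exact this
  rw [canon_eq hP htr, canon_eq hP hmf, divOf_smul, smul_add, smul_add, smul_comm σ m B, hσB]

/-! ### group actions -/

variable {G : Type*} [Group G] (ρ : G →* SemilinearAut L F1)

/-- Equivariance of `canon` for a group acting through semilinear automorphisms fixing `B`
and `P`. -/
theorem canon_smul (hBG : ∀ g, ρ g • B = B) (hPG : ∀ g, ρ g • P = P)
    (hP : Function.Surjective (algebraMap L P.ResidueField))
    (hne : ∀ D : Divisor L F1, ∃ m : ℕ, riemannRochSpace (D + m • B) ≠ ⊥)
    (g : G) (D : Divisor L F1) :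
    canon B P (ρ g • D) = ρ g • canon B P D :=
  canon_smul_aut hP hne (ρ g) (hBG g) (hPG g) D

/-- If `ρ g • D` is linearly equivalent to `D`, then `ρ g` fixes `canon D`. -/
theorem smul_canon_eq_of_principal (hBG : ∀ g, ρ g • B = B) (hPG : ∀ g, ρ g • P = P)
    (hP : Function.Surjective (algebraMap L P.ResidueField))
    (hne : ∀ D : Divisor L F1, ∃ m : ℕ, riemannRochSpace (D + m • B) ≠ ⊥)
    {g : G} {D : Divisor L F1}
    (hg : ρ g • D - D ∈ Divisor.principal (K := L) (F := F1)) :
    ρ g • canon B P D = canon B P D := by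
  obtain ⟨h, hh, hD⟩ := hg
  rw [← canon_smul ρ hBG hPG hP hne g D]
  refine canon_add_principal hP hne D h hh (ρ g • D) fun w => ?_
  have := hD w
  rw [Finsupp.sub_apply] at this
  omega

/-- The set of translates of `canon D` is finite as soon as a finite index subgroup preserves
the class of `D`. -/
theorem finite_range_smul_canon (hBG : ∀ g, ρ g • B = B) (hPG : ∀ g, ρ g • P = P)
    (hP : Function.Surjective (algebraMap L P.ResidueField))
    (hne : ∀ D : Divisor L F1, ∃ m : ℕ, riemannRochSpace (D + m • B) ≠ ⊥)
    (D : Divisor L F1) (H : Subgroup G) [H.FiniteIndex]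
    (hH : ∀ g ∈ H, ρ g • D - D ∈ Divisor.principal (K := L) (F := F1)) :
    (Set.range fun g : G => ρ g • canon B P D).Finite := by
  have hfix : ∀ g ∈ H, ρ g • canon B P D = canon B P D := fun g hg =>
    smul_canon_eq_of_principal ρ hBG hPG hP hne (hH g hg)
  let f' : G ⧸ H → Divisor L F1 := Quotient.lift (fun g : G => ρ g • canon B P D) (by
    intro a b hab
    have hab' : a⁻¹ * b ∈ H := QuotientGroup.leftRel_apply.mp hab
    have hb : b = a * (a⁻¹ * b) := by group
    show ρ a • canon B P D = ρ b • canon B P D
    rw [hb, map_mul, mul_smul, hfix _ hab'])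
  have : Finite (G ⧸ H) := Subgroup.finite_quotient_of_finiteIndex
  refine (Set.finite_range f').subset ?_
  rintro _ ⟨g, rfl⟩
  exact ⟨QuotientGroup.mk g, rfl⟩

/-- **Finite orbits**: if a finite index subgroup of `G` preserves the class of `D`, every place
in the support of `canon D` has a finite `G`-orbit. -/
theorem finite_orbit (hBG : ∀ g, ρ g • B = B) (hPG : ∀ g, ρ g • P = P)
    (hP : Function.Surjective (algebraMap L P.ResidueField))
    (hne : ∀ D : Divisor L F1, ∃ m : ℕ, riemannRochSpace (D + m • B) ≠ ⊥)
    (D : Divisor L F1) (H : Subgroup G) [H.FiniteIndex]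
    (hH : ∀ g ∈ H, ρ g • D - D ∈ Divisor.principal (K := L) (F := F1))
    {w : Place L F1} (hw : w ∈ (canon B P D).support) :
    (Set.range fun g : G => ρ g • w).Finite := by
  have hfin := finite_range_smul_canon ρ hBG hPG hP hne D H hH
  have hbig : (⋃ E ∈ Set.range fun g : G => ρ g • canon B P D,
      ((E : Divisor L F1).support : Set (Place L F1))).Finite :=
    hfin.biUnion fun E _ => E.support.finite_toSet
  refine hbig.subset ?_
  rintro _ ⟨g, rfl⟩
  simp only [Set.mem_iUnion, Finset.mem_coe, Finsupp.mem_support_iff]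
  refine ⟨ρ g • canon B P D, ⟨g, rfl⟩, ?_⟩
  rw [SemilinearAut.divisor_smul_apply_smul]
  exact Finsupp.mem_support_iff.mp hw

omit [HasPrincipalDivisors L F1] in
/-- A point with finite orbit has a stabiliser of finite index (general form). -/
theorem finiteIndex_comap_stabilizer_of_finite_range {α : Type*}
    [MulAction (SemilinearAut L F1) α] {a : α}
    (hfin : (Set.range fun g : G => ρ g • a).Finite) :
    ((MulAction.stabilizer (SemilinearAut L F1) a).comap ρ).FiniteIndex := by
  let _ : MulAction G α := MulAction.compHom α ρ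
  have h2 : MulAction.stabilizer G a = (MulAction.stabilizer (SemilinearAut L F1) a).comap ρ := by
    ext g
    rfl
  rw [← h2]
  have : Finite (MulAction.orbit G a) := hfin.to_subtype
  have : Finite (G ⧸ MulAction.stabilizer G a) :=
    Finite.of_equiv _ (MulAction.orbitEquivQuotientStabilizer G a)
  exact Subgroup.finiteIndex_of_finite_quotient

omit [HasPrincipalDivisors L F1] in
/-- A place with finite orbit has a stabiliser of finite index. -/
theorem finiteIndex_stabilizer_of_finite_range {w : Place L F1}
    (hfin : (Set.range fun g : G => ρ g • w).Finite) :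
    ((MulAction.stabilizer (SemilinearAut L F1) w).comap ρ).FiniteIndex :=
  finiteIndex_comap_stabilizer_of_finite_range ρ hfin

/-- **Finite index stabilisers**: if a finite index subgroup of `G` preserves the class of `D`,
every place in the support of `canon D` has a stabiliser of finite index in `G`. -/
theorem finiteIndex_stabilizer (hBG : ∀ g, ρ g • B = B) (hPG : ∀ g, ρ g • P = P)
    (hP : Function.Surjective (algebraMap L P.ResidueField))
    (hne : ∀ D : Divisor L F1, ∃ m : ℕ, riemannRochSpace (D + m • B) ≠ ⊥)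
    (D : Divisor L F1) (H : Subgroup G) [H.FiniteIndex]
    (hH : ∀ g ∈ H, ρ g • D - D ∈ Divisor.principal (K := L) (F := F1))
    {w : Place L F1} (hw : w ∈ (canon B P D).support) :
    ((MulAction.stabilizer (SemilinearAut L F1) w).comap ρ).FiniteIndex :=
  finiteIndex_stabilizer_of_finite_range ρ (finite_orbit ρ hBG hPG hP hne D H hH hw)

omit [HasPrincipalDivisors L F1] in
/-- The places in the support of a `G`-stable divisor have finite orbits. -/
theorem finite_orbit_of_mem_support_of_smul_eq (hBG : ∀ g, ρ g • B = B) {w : Place L F1}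
    (hw : w ∈ B.support) : (Set.range fun g : G => ρ g • w).Finite := by
  refine B.support.finite_toSet.subset ?_
  rintro _ ⟨g, rfl⟩
  rw [Finset.mem_coe, Finsupp.mem_support_iff]
  have h := SemilinearAut.divisor_smul_apply_smul (ρ g) B w
  rw [hBG g] at h
  rw [h]
  exact Finsupp.mem_support_iff.mp hw

/-- **Canonical representative** (`hcan` of `Torsion.lean`): every class of `Pic⁰` with finite
`G`-orbit is represented by a degree zero divisor all of whose places have a finite `G`-orbit. -/
theorem exists_rep_of_finite_orbit (hBG : ∀ g, ρ g • B = B) (hPG : ∀ g, ρ g • P = P)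
    (hP : Function.Surjective (algebraMap L P.ResidueField))
    (hne : ∀ D : Divisor L F1, ∃ m : ℕ, riemannRochSpace (D + m • B) ≠ ⊥)
    (x : Pic0 L F1) (hx : (Set.range fun g : G => ρ g • x).Finite) :
    ∃ D : Divisor.degZero (K := L) (F := F1), Pic0.mk D = x ∧
      ∀ w ∈ (D : Divisor L F1).support, (Set.range fun g : G => ρ g • w).Finite := by
  obtain ⟨D₀, rfl⟩ := Pic0.mk_surjective x
  have hHfin := finiteIndex_comap_stabilizer_of_finite_range ρ hx
  have hH : ∀ g ∈ (MulAction.stabilizer (SemilinearAut L F1) (Pic0.mk D₀)).comap ρ,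
      ρ g • (D₀ : Divisor L F1) - D₀ ∈ Divisor.principal (K := L) (F := F1) := by
    intro g hg
    have h1 : ρ g • Pic0.mk D₀ = Pic0.mk D₀ := hg
    rw [SemilinearAut.pic0_smul_mk] at h1
    have h2 := (QuotientAddGroup.eq (s := (Divisor.principal (K := L) (F := F1)).addSubgroupOf
      (Divisor.degZero (K := L) (F := F1)))).mp h1
    rw [AddSubgroup.mem_addSubgroupOf] at h2
    have h3 := neg_mem h2
    have h4 : -((-(SemilinearAut.degZeroSMulHom (ρ g) D₀) + D₀ :
        Divisor.degZero (K := L) (F := F1)) : Divisor L F1)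
        = ρ g • (D₀ : Divisor L F1) - D₀ := by
      push_cast
      rw [SemilinearAut.coe_degZeroSMulHom]
      abel
    rwa [h4] at h3
  obtain ⟨m, f, hmf⟩ := exists_isCanonData hP hne (D₀ : Divisor L F1)
  have hC := canon_eq hP hmf
  have hdeg : (D₀ : Divisor L F1) + divOf f ∈ Divisor.degZero (K := L) (F := F1) := by
    rw [Divisor.mem_degZero, map_add, degree_divOf, add_zero]
    exact D₀.2
  refine ⟨⟨(D₀ : Divisor L F1) + divOf f, hdeg⟩, ?_, ?_⟩
  · symm
    refine (QuotientAddGroup.eq (s := (Divisor.principal (K := L) (F := F1)).addSubgroupOf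
      (Divisor.degZero (K := L) (F := F1)))).mpr ?_
    rw [AddSubgroup.mem_addSubgroupOf]
    push_cast
    rw [neg_add_cancel_left]
    exact ⟨f, hmf.ne_zero, fun v => divOf_apply f v⟩
  · intro w hw
    by_cases hwB : w ∈ B.support
    · exact finite_orbit_of_mem_support_of_smul_eq ρ hBG hwB
    · refine finite_orbit ρ hBG hPG hP hne (D₀ : Divisor L F1) _ hH (w := w) ?_
      rw [Finsupp.mem_support_iff] at hw ⊢
      rw [Finsupp.notMem_support_iff] at hwB
      rw [hC, Finsupp.add_apply, Finsupp.add_apply, Finsupp.smul_apply, hwB, smul_zero, add_zero,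
        ← Finsupp.add_apply]
      exact hw

end Main

/-! ### discharging the non-vanishing hypothesis for the pole divisor of a function -/

section PoleDivisor

variable {L F1 : Type*} [Field L] [Field F1] [Algebra L F1]

/-- At a pole `v` of `x`, `ord (x - c) = ord x`. -/
theorem Canonical.ord_sub_const_of_neg (v : Place L F1) {x : F1} (hx : v.ord x < 0) (c : L) :
    v.ord (x - algebraMap L F1 c) = v.ord x := by
  rcases eq_or_ne c 0 with rfl | hc
  · simp
  · have hx0 : x ≠ 0 := by
      rintro rfl
      simp at hx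
    have hc0 : algebraMap L F1 c ≠ 0 := by simpa using hc
    have := (isAddVal_ord v).map_add_of_lt hx0 (neg_ne_zero.mpr hc0)
      (by rw [(isAddVal_ord v).map_neg hc0, ord_const]; exact hx)
    rwa [← sub_eq_add_neg] at this

/-- Away from the poles of `x`, `0 ≤ ord (x - c)`. -/
theorem Canonical.ord_sub_const_nonneg (v : Place L F1) {x : F1} (hx : 0 ≤ v.ord x) (c : L) :
    0 ≤ v.ord (x - algebraMap L F1 c) := by
  rcases eq_or_ne (x - algebraMap L F1 c) 0 with h | h
  · rw [h]
    simp
  rcases eq_or_ne c 0 with rfl | hc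
  · simpa using hx
  have hc0 : algebraMap L F1 c ≠ 0 := by simpa using hc
  rcases eq_or_ne x 0 with rfl | hx0
  · rw [zero_sub, (isAddVal_ord v).map_neg hc0, ord_const]
  have := (isAddVal_ord v).map_sub hx0 hc0 h
  rw [ord_const] at this
  exact le_trans (le_min hx le_rfl) this

/-- If `x` is a non-constant function, all residue fields are `L` and `B` is the pole divisor of
`x`, then for every divisor `D` some `L(D + m B)` is nonzero. -/
theorem hne_of_poleDivisor (x : F1) (hx : x ∉ Set.range (algebraMap L F1))
    (hres : ∀ w : Place L F1, Function.Surjective (algebraMap L w.ResidueField))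
    (B : Divisor L F1) (hB : ∀ w, B w = max 0 (-(w.ord x))) (D : Divisor L F1) :
    ∃ m : ℕ, riemannRochSpace (D + m • B) ≠ ⊥ := by
  classical
  have hx0 : x ≠ 0 := by
    rintro rfl
    exact hx ⟨0, map_zero _⟩
  have hxc : ∀ c : L, x - algebraMap L F1 c ≠ 0 := fun c h =>
    hx ⟨c, (sub_eq_zero.mp h).symm⟩
  have hex : ∀ w : Place L F1, ∃ c : L, 0 ≤ w.ord x → 0 < w.ord (x - algebraMap L F1 c) := by
    intro w
    by_cases hw : 0 ≤ w.ord x
    · obtain ⟨c, hc⟩ := exists_const_sub w (hres w) hx0 hw
      exact ⟨c, fun _ => hc.resolve_left (hxc c)⟩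
    · exact ⟨0, fun h => absurd h hw⟩
  choose a ha using hex
  set S := D.support.filter (fun w => D w < 0 ∧ 0 ≤ w.ord x) with hS
  set f : F1 := ∏ w ∈ S, (x - algebraMap L F1 (a w)) ^ (D w).natAbs with hf
  set K : ℕ := ∑ w ∈ S, (D w).natAbs with hK
  set T : ℕ := ∑ w ∈ D.support, (D w).natAbs with hT
  have hf0 : f ≠ 0 := Finset.prod_ne_zero_iff.mpr fun w _ => pow_ne_zero _ (hxc _)
  have hordf : ∀ v : Place L F1, v.ord f
      = ∑ w ∈ S, ((D w).natAbs : ℤ) * v.ord (x - algebraMap L F1 (a w)) := by
    intro v
    rw [hf, ord_prod v S _ (fun w _ => pow_ne_zero _ (hxc _))]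
    exact Finset.sum_congr rfl fun w _ => ord_pow v _ _
  refine ⟨K + T, fun hbot => ?_⟩
  have hmem : f ∈ riemannRochSpace (D + (K + T) • B) := by
    rw [mem_riemannRochSpace_iff]
    intro v
    right
    rw [Finsupp.add_apply, Finsupp.smul_apply, nsmul_eq_mul, hB v, hordf v]
    by_cases hv : 0 ≤ v.ord x
    · rw [max_eq_left (by omega), mul_zero, add_zero]
      have hterm : ∀ w ∈ S, 0 ≤ ((D w).natAbs : ℤ) * v.ord (x - algebraMap L F1 (a w)) :=
        fun w _ => mul_nonneg (Int.natCast_nonneg _) (ord_sub_const_nonneg v hv _)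
      by_cases hvS : v ∈ S
      · have h1 := Finset.single_le_sum hterm hvS
        have h2 := ha v hv
        have h3 : D v < 0 := (Finset.mem_filter.mp hvS).2.1
        have h4 : ((D v).natAbs : ℤ) = -D v := by omega
        nlinarith [mul_nonneg (Int.natCast_nonneg (D v).natAbs)
          (by omega : 0 ≤ v.ord (x - algebraMap L F1 (a v)) - 1)]
      · have h1 := Finset.sum_nonneg hterm
        have h3 : 0 ≤ D v := by
          by_contra hneg
          rw [not_le] at hneg
          exact hvS (Finset.mem_filter.mpr
            ⟨Finsupp.mem_support_iff.mpr (by omega), hneg, hv⟩)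
        omega
    · rw [not_le] at hv
      rw [max_eq_right (by omega)]
      have hsum : ∑ w ∈ S, ((D w).natAbs : ℤ) * v.ord (x - algebraMap L F1 (a w))
          = (K : ℤ) * v.ord x := by
        rw [hK, Nat.cast_sum, Finset.sum_mul]
        exact Finset.sum_congr rfl fun w _ => by rw [ord_sub_const_of_neg v hv]
      rw [hsum]
      have hT' : ((D v).natAbs : ℤ) ≤ T := by
        by_cases hvs : v ∈ D.support
        · exact_mod_cast Finset.single_le_sum (f := fun w => (D w).natAbs)
            (fun _ _ => Nat.zero_le _) hvs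
        · rw [Finsupp.notMem_support_iff.mp hvs]
          simp
      have h5 : -D v ≤ ((D v).natAbs : ℤ) := by omega
      push_cast
      nlinarith [mul_nonneg (Int.natCast_nonneg T) (by omega : 0 ≤ -v.ord x - 1)]
  rw [hbot, Submodule.mem_bot] at hmem
  exact hf0 hmem

variable [HasPrincipalDivisors L F1]

/-- The pole divisor of a function. -/
def poleDivisor (x : F1) : Divisor L F1 :=
  Finsupp.mapRange (fun n : ℤ => max 0 (-n)) (by simp) (divOf (L := L) x)

@[simp]
theorem poleDivisor_apply (x : F1) (w : Place L F1) :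
    poleDivisor (L := L) x w = max 0 (-(w.ord x)) := by
  rw [poleDivisor, Finsupp.mapRange_apply, divOf_apply]

theorem poleDivisor_nonneg (x : F1) : 0 ≤ poleDivisor (L := L) x := fun w => by
  rw [poleDivisor_apply]
  exact le_max_left _ _

/-- The pole divisor of a function fixed by `σ` is fixed by `σ`. -/
theorem smul_poleDivisor (σ : SemilinearAut L F1) {x : F1} (hσx : σ • x = x) :
    σ • poleDivisor (L := L) x = poleDivisor x := by
  ext w
  rw [SemilinearAut.divisor_smul_apply, poleDivisor_apply, poleDivisor_apply]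
  conv_rhs => rw [← hσx, ord_smul']

/-- `hne` for the pole divisor of a non-constant function when all residue fields are `L`. -/
theorem hne_poleDivisor (x : F1) (hx : x ∉ Set.range (algebraMap L F1))
    (hres : ∀ w : Place L F1, Function.Surjective (algebraMap L w.ResidueField))
    (D : Divisor L F1) :
    ∃ m : ℕ, riemannRochSpace (D + m • poleDivisor (L := L) x) ≠ ⊥ :=
  hne_of_poleDivisor x hx hres _ (poleDivisor_apply x) D

end PoleDivisor

end Fermat.Agent.Gateway.BaseChange
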