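import Fermat.Agent.Gateway.BaseChange.Concrete
import Fermat.Agent.Gateway.BaseChange.Canonical

/-!
# P-GATEWAY WP-BC: discharging the canonical representative hypothesis `hcan` (helper79)

Glue between `Canonical.lean` (`exists_rep_of_finite_orbit`) and `Concrete.lean`
(`IsBC.torsionEquiv`, `IsBC.card_torsion_eq`): in the concrete base change `F0 ⊆ K((q))`,
`F1 = L(ι F0) ⊆ L((q))` the hypothesis `hcan` holds as soon as `F1 / L` has principal divisors.

* `Setup.ι_notMem_range` : a non-constant function stays non-constant after base change.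
* `IsBC.exists_rep_of_finite_orbit` : `hcan`.
* `IsBC.torsionEquivCanon`, `IsBC.card_torsion_eq_canon` : `hcan`-free versions of BC4.
-/

set_option autoImplicit false

noncomputable section

namespace Fermat.Agent.Gateway.BaseChange

open ModularCurve AlgebraicCurve IntermediateField Fermat.Agent.S24

section SetupLemmas

variable {K L F0' F1' : Type*} [Field K] [Field L] [Field F0'] [Field F1'] [Algebra K L]
  [Algebra K F0'] [Algebra L F1']

/-- A non-constant function of `F0` stays non-constant in `F1`. -/
theorem Setup.ι_notMem_range (S : Setup K L F0' F1') {x : F0'}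
    (hx : x ∉ Set.range (algebraMap K F0')) : S.ι x ∉ Set.range (algebraMap L F1') := by
  rintro ⟨c, hc⟩
  by_cases hcK : c ∈ Set.range (algebraMap K L)
  · obtain ⟨a, rfl⟩ := hcK
    rw [← S.ι_const] at hc
    exact hx ⟨a, S.ι.injective hc⟩
  · have hli : LinearIndependent K ![(1 : L), c] := by
      rw [LinearIndependent.pair_iff]
      intro s t hst
      have ht : t = 0 := by
        by_contra ht
        apply hcK
        refine ⟨-s / t, ?_⟩
        have h1 : t • c = -(s • (1 : L)) := eq_neg_of_add_eq_zero_right hst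
        rw [Algebra.smul_def, Algebra.smul_def, mul_one] at h1
        have ht' : algebraMap K L t ≠ 0 := by simpa using ht
        rw [map_div₀, map_neg, div_eq_iff ht', ← h1, mul_comm]
      subst ht
      rw [zero_smul, add_zero, Algebra.smul_def, mul_one] at hst
      exact ⟨by simpa using hst, rfl⟩
    have h1 := S.linDisj 2 ![1, c] ![x, -1] hli (by
      simp only [Fin.sum_univ_two, Matrix.cons_val_zero, Matrix.cons_val_one, map_one, one_mul,
        map_neg, mul_neg, mul_one]
      rw [hc, add_neg_cancel]) 1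
    simp at h1

end SetupLemmas

variable {K L : Type*} [Field K] [Field L] [Algebra K L]
  {F0 : IntermediateField K (LaurentSeries K)} {F1 : IntermediateField L (LaurentSeries L)}

/-- A non-constant function of `F1` coming from `F0` has a zero or a pole at an extended place;
in particular `F0` has a place. -/
theorem IsBC.exists_place (h : IsBC F0 F1)
    (hK : ∀ v : Place K F0, Function.Surjective (algebraMap K v.ResidueField))
    (hconst : ∀ x : F1, x ≠ 0 → (∀ w : Place L F1, w.ord x = 0) →
      ∃ c : L, x = algebraMap L F1 c)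
    (hnc : ∃ x : F0, x ∉ Set.range (algebraMap K F0)) : Nonempty (Place K F0) := by
  obtain ⟨x₀, hx₀⟩ := hnc
  have hι := h.toSetup.ι_notMem_range hx₀
  have hι0 : h.toSetup.ι x₀ ≠ 0 := by
    intro h0
    exact hι ⟨0, by rw [map_zero, h0]⟩
  by_contra hemp
  rw [not_nonempty_iff] at hemp
  have hall : ∀ w : Place L F1, w.ord (h.toSetup.ι x₀) = 0 := by
    intro w
    by_contra hw
    obtain ⟨v, -⟩ := (h.toSetup.mem_range_extPlace_iff hK w).mpr ⟨x₀, hw⟩
    exact hemp.false v
  obtain ⟨c, hc⟩ := hconst _ hι0 hall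
  exact hι ⟨c, hc.symm⟩

/-- **`hcan`**: every class of `Pic⁰(F1)` with finite `Aut(L/K)`-orbit is represented by a degree
zero divisor all of whose places have a finite orbit. -/
theorem IsBC.exists_rep_of_finite_orbit [HasPrincipalDivisors L F1] (h : IsBC F0 F1)
    (hK : ∀ v : Place K F0, Function.Surjective (algebraMap K v.ResidueField))
    (hL : ∀ w : Place L F1, Function.Surjective (algebraMap L w.ResidueField))
    (hconst : ∀ x : F1, x ≠ 0 → (∀ w : Place L F1, w.ord x = 0) →
      ∃ c : L, x = algebraMap L F1 c)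
    (hnc : ∃ x : F0, x ∉ Set.range (algebraMap K F0))
    (x : Pic0 L F1) (hx : (Set.range fun σ : L ≃ₐ[K] L => h.gal σ • x).Finite) :
    ∃ D : Divisor.degZero (K := L) (F := F1), Pic0.mk D = x ∧
      ∀ w ∈ (D : Divisor L F1).support,
        (Set.range fun σ : L ≃ₐ[K] L => h.gal σ • w).Finite := by
  obtain ⟨v⟩ := h.exists_place hK hconst hnc
  obtain ⟨x₀, hx₀⟩ := hnc
  exact Fermat.Agent.Gateway.BaseChange.exists_rep_of_finite_orbit
    (B := poleDivisor (h.iotaF x₀)) (P := h.toSetup.extPlace hK v) h.gal
    (fun σ => smul_poleDivisor _ (h.gal_smul_iotaF σ x₀))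
    (fun σ => h.gal_smul_extPlace hK σ v)
    (hL _)
    (hne_poleDivisor _ (h.toSetup.ι_notMem_range hx₀) hL) x hx

section Main

variable [IsAlgClosed K] [IsAlgClosed L] [CharZero K] [HasPrincipalDivisors L F1]

/-- **BC4 (concrete, `hcan` discharged)**: base change is an isomorphism on `n`-torsion. -/
def IsBC.torsionEquivCanon (h : IsBC F0 F1)
    (hK : ∀ v : Place K F0, Function.Surjective (algebraMap K v.ResidueField))
    (hL : ∀ w : Place L F1, Function.Surjective (algebraMap L w.ResidueField))
    (hconst : ∀ x : F1, x ≠ 0 → (∀ w : Place L F1, w.ord x = 0) →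
      ∃ c : L, x = algebraMap L F1 c)
    (hnc : ∃ x : F0, x ∉ Set.range (algebraMap K F0))
    (n : ℕ) [Finite (Pic0.torsion L F1 n)] :
    Pic0.torsion K F0 n ≃+ Pic0.torsion L F1 n :=
  h.torsionEquiv hK hL hconst hnc (h.exists_rep_of_finite_orbit hK hL hconst hnc) n

theorem IsBC.coe_torsionEquivCanon (h : IsBC F0 F1)
    (hK : ∀ v : Place K F0, Function.Surjective (algebraMap K v.ResidueField))
    (hL : ∀ w : Place L F1, Function.Surjective (algebraMap L w.ResidueField))
    (hconst : ∀ x : F1, x ≠ 0 → (∀ w : Place L F1, w.ord x = 0) →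
      ∃ c : L, x = algebraMap L F1 c)
    (hnc : ∃ x : F0, x ∉ Set.range (algebraMap K F0))
    (n : ℕ) [Finite (Pic0.torsion L F1 n)] (y : Pic0.torsion K F0 n) :
    (h.torsionEquivCanon hK hL hconst hnc n y : Pic0 L F1)
      = h.toSetup.bcPic0 hK (y : Pic0 K F0) := rfl

theorem IsBC.card_torsion_eq_canon (h : IsBC F0 F1)
    (hK : ∀ v : Place K F0, Function.Surjective (algebraMap K v.ResidueField))
    (hL : ∀ w : Place L F1, Function.Surjective (algebraMap L w.ResidueField))
    (hconst : ∀ x : F1, x ≠ 0 → (∀ w : Place L F1, w.ord x = 0) →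
      ∃ c : L, x = algebraMap L F1 c)
    (hnc : ∃ x : F0, x ∉ Set.range (algebraMap K F0))
    (n : ℕ) [Finite (Pic0.torsion L F1 n)] :
    Nat.card (Pic0.torsion K F0 n) = Nat.card (Pic0.torsion L F1 n) :=
  Nat.card_congr (h.torsionEquivCanon hK hL hconst hnc n).toEquiv

end Main

end Fermat.Agent.Gateway.BaseChange
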