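import Fermat.Agent.Gateway.BaseChange.Pic

/-!
# P-GATEWAY WP-BC, block BC4 assembly (helper86)

Given `E : ExtData K L F0 F1`, a group `G` acting on `F1` through `ρ : G →* SemilinearAut L F1`:

* `exists_bc_eq_of_support` : a divisor of `F1` supported on extended places is a base change.
* `exists_bcPic0_eq_of_finite_orbit` : a class with finite `G`-orbit is a base change, given the
  "canonical representative" hypothesis `hcan` (output of `Canonical.lean`).
* `bcTorsionEquiv : Pic0.torsion K F0 n ≃+ Pic0.torsion L F1 n`.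
-/

set_option autoImplicit false

noncomputable section

namespace Fermat.Agent.Gateway.BaseChange

open AlgebraicCurve Fermat.Agent.S24

section PlaceLemmas

variable {K F : Type*} [Field K] [Field F] [Algebra K F]

/-- Residue field `= K` in order form. -/
theorem place_exists_residue (w : Place K F)
    (hw : Function.Surjective (algebraMap K w.ResidueField)) (u : F) (hu : w.ord u = 0) :
    ∃ a : K, u = algebraMap K F a ∨ 0 < w.ord (u - algebraMap K F a) := by
  rcases eq_or_ne u 0 with rfl | hu0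
  · exact ⟨0, Or.inl (by simp)⟩
  have hmem : u ∈ w.toValuationSubring := (place_mem_iff_ord_nonneg w hu0).mpr hu.ge
  obtain ⟨a, ha⟩ := hw (IsLocalRing.residue w.toValuationSubring ⟨u, hmem⟩)
  refine ⟨a, ?_⟩
  by_cases h0 : u - algebraMap K F a = 0
  · exact Or.inl (sub_eq_zero.mp h0)
  right
  -- `u - a` lies in the maximal ideal
  have h1 : IsLocalRing.residue w.toValuationSubring
      (⟨u, hmem⟩ - algebraMap K w.toValuationSubring a) = 0 := by
    rw [map_sub, sub_eq_zero]
    exact ha.symm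
  rw [IsLocalRing.residue_eq_zero_iff] at h1
  have hmem' : u - algebraMap K F a ∈ w.toValuationSubring :=
    sub_mem hmem (w.algebraMap_mem' a)
  have h2 : 0 ≤ w.ord (u - algebraMap K F a) := (place_mem_iff_ord_nonneg w h0).mp hmem'
  rcases h2.lt_or_eq with h2 | h2
  · exact h2
  exfalso
  -- ord = 0 means a unit
  have hinv : (u - algebraMap K F a)⁻¹ ∈ w.toValuationSubring := by
    rw [place_mem_iff_ord_nonneg w (inv_ne_zero h0), w.ord_inv, ← h2, neg_zero]
  have hunit : IsUnit (⟨u, hmem⟩ - algebraMap K w.toValuationSubring a : w.toValuationSubring) := by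
    refine IsUnit.of_mul_eq_one ⟨(u - algebraMap K F a)⁻¹, hinv⟩ ?_
    apply Subtype.ext
    show (u - algebraMap K F a) * (u - algebraMap K F a)⁻¹ = 1
    exact mul_inv_cancel₀ h0
  exact (IsLocalRing.mem_maximalIdeal _).mp h1 hunit

end PlaceLemmas

namespace ExtData

variable {K L F0 F1 : Type*} [Field K] [Field L] [Field F0] [Field F1] [Algebra K L]
  [Algebra K F0] [Algebra L F1] (E : ExtData K L F0 F1)

theorem exists_bc_eq_of_support (D1 : Divisor L F1)
    (h : ∀ w ∈ D1.support, w ∈ Set.range E.ext) : ∃ D0 : Divisor K F0, E.bc D0 = D1 := by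
  refine ⟨Finsupp.comapDomain E.ext D1 E.ext_injective.injOn, ?_⟩
  rw [bc_def]
  exact Finsupp.mapDomain_comapDomain E.ext E.ext_injective D1 fun w hw => h w hw

variable {G : Type*} [Group G] (ρ : G →* SemilinearAut L F1)

/-- A class with finite `G`-orbit is a base change. `hcan` says that such a class has a
representative supported on places with finite orbit (canonical effective divisor minus a
multiple of a stable divisor). -/
theorem exists_bcPic0_eq_of_finite_orbit
    (hfin : ∀ w : Place L F1, (Set.range fun g : G => ρ g • w).Finite → w ∈ Set.range E.ext)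
    (hcan : ∀ x : Pic0 L F1, (Set.range fun g : G => ρ g • x).Finite →
      ∃ D : Divisor.degZero (K := L) (F := F1), Pic0.mk D = x ∧
        ∀ w ∈ (D : Divisor L F1).support, (Set.range fun g : G => ρ g • w).Finite)
    (x : Pic0 L F1) (hx : (Set.range fun g : G => ρ g • x).Finite) :
    ∃ y : Pic0 K F0, E.bcPic0 y = x := by
  obtain ⟨D, rfl, hD⟩ := hcan x hx
  obtain ⟨D0, hD0⟩ := E.exists_bc_eq_of_support (D : Divisor L F1) fun w hw => hfin w (hD w hw)
  have hdeg : D0 ∈ Divisor.degZero (K := K) (F := F0) := by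
    rw [Divisor.mem_degZero, ← E.degree_bc, hD0]
    exact D.2
  refine ⟨Pic0.mk ⟨D0, hdeg⟩, ?_⟩
  rw [bcPic0_mk]
  congr 1
  exact Subtype.ext hD0

theorem bcPic0_mem_torsion {n : ℕ} {y : Pic0 K F0} (hy : y ∈ Pic0.torsion K F0 n) :
    E.bcPic0 y ∈ Pic0.torsion L F1 n := by
  rw [Pic0.mem_torsion] at hy ⊢
  rw [← map_zsmul, hy, map_zero]

/-- `bcPic0` restricted to `n`-torsion. -/
def bcTorsion (n : ℕ) : Pic0.torsion K F0 n →+ Pic0.torsion L F1 n :=
  (E.bcPic0.domRestrict (Pic0.torsion K F0 n)).codRestrict _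
    (fun y => E.bcPic0_mem_torsion y.2)

@[simp]
theorem coe_bcTorsion {n : ℕ} (y : Pic0.torsion K F0 n) :
    (E.bcTorsion n y : Pic0 L F1) = E.bcPic0 (y : Pic0 K F0) := rfl

theorem bcTorsion_injective (hinj : Function.Injective E.bcPic0) (n : ℕ) :
    Function.Injective (E.bcTorsion n) := by
  intro y y' h
  apply Subtype.ext
  apply hinj
  have := congrArg (fun z : Pic0.torsion L F1 n => (z : Pic0 L F1)) h
  simpa using this

theorem finite_orbit_of_mem_torsion {n : ℕ} [Finite (Pic0.torsion L F1 n)] {x : Pic0 L F1}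
    (hx : x ∈ Pic0.torsion L F1 n) : (Set.range fun g : G => ρ g • x).Finite := by
  have hsub : (Set.range fun g : G => ρ g • x) ⊆
      ((↑) : Pic0.torsion L F1 n → Pic0 L F1) '' Set.univ := by
    rintro _ ⟨g, rfl⟩
    exact ⟨⟨ρ g • x, SemilinearAut.smul_mem_torsion (ρ g) hx⟩, Set.mem_univ _, rfl⟩
  exact (Set.finite_univ.image _).subset hsub

theorem bcTorsion_surjective (hinj : Function.Injective E.bcPic0)
    (hsurj : ∀ x : Pic0 L F1, (Set.range fun g : G => ρ g • x).Finite →
      ∃ y : Pic0 K F0, E.bcPic0 y = x)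
    (n : ℕ) [Finite (Pic0.torsion L F1 n)] : Function.Surjective (E.bcTorsion n) := by
  rintro ⟨x, hx⟩
  obtain ⟨y, hy⟩ := hsurj x (finite_orbit_of_mem_torsion ρ hx)
  have hyt : y ∈ Pic0.torsion K F0 n := by
    rw [Pic0.mem_torsion]
    apply hinj
    rw [map_zsmul, hy, map_zero]
    exact Pic0.mem_torsion.mp hx
  exact ⟨⟨y, hyt⟩, Subtype.ext hy⟩

/-- **BC4**: base change is an isomorphism on `n`-torsion. -/
def bcTorsionEquiv (hinj : Function.Injective E.bcPic0)
    (hsurj : ∀ x : Pic0 L F1, (Set.range fun g : G => ρ g • x).Finite →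
      ∃ y : Pic0 K F0, E.bcPic0 y = x)
    (n : ℕ) [Finite (Pic0.torsion L F1 n)] :
    Pic0.torsion K F0 n ≃+ Pic0.torsion L F1 n :=
  AddEquiv.ofBijective (E.bcTorsion n)
    ⟨E.bcTorsion_injective hinj n, E.bcTorsion_surjective ρ hinj hsurj n⟩

@[simp]
theorem coe_bcTorsionEquiv (hinj : Function.Injective E.bcPic0)
    (hsurj : ∀ x : Pic0 L F1, (Set.range fun g : G => ρ g • x).Finite →
      ∃ y : Pic0 K F0, E.bcPic0 y = x)
    (n : ℕ) [Finite (Pic0.torsion L F1 n)] (y : Pic0.torsion K F0 n) :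
    (E.bcTorsionEquiv ρ hinj hsurj n y : Pic0 L F1) = E.bcPic0 (y : Pic0 K F0) := rfl

theorem card_torsion_eq (hinj : Function.Injective E.bcPic0)
    (hsurj : ∀ x : Pic0 L F1, (Set.range fun g : G => ρ g • x).Finite →
      ∃ y : Pic0 K F0, E.bcPic0 y = x)
    (n : ℕ) [Finite (Pic0.torsion L F1 n)] :
    Nat.card (Pic0.torsion K F0 n) = Nat.card (Pic0.torsion L F1 n) :=
  Nat.card_congr (E.bcTorsionEquiv ρ hinj hsurj n).toEquiv

end ExtData

end Fermat.Agent.Gateway.BaseChange
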