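import Fermat.Agent.Gateway.BaseChange.Aut
import Fermat.Agent.Gateway.BaseChange.Torsion
import Fermat.Agent.Gateway.BaseChange.Bridge

/-!
# P-GATEWAY WP-BC: the concrete base change `F0 ⊆ K((q))`, `F1 = L(ι F0) ⊆ L((q))` (helper86)

Glue between `IsBC` (Defs/Fixed/Aut), helper15's `Setup` (TensorLift/ExtPlace/BCDiv/Bridge:
`IsBC.toSetup`) and the abstract `ExtData` (Pic/Torsion).
-/

set_option autoImplicit false

noncomputable section

namespace Fermat.Agent.Gateway.BaseChange

open ModularCurve AlgebraicCurve IntermediateField Fermat.Agent.S24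

variable {K L : Type*} [Field K] [Field L] [Algebra K L]
  {F0 : IntermediateField K (LaurentSeries K)} {F1 : IntermediateField L (LaurentSeries L)}

section SetupExtData

variable {F0' F1' : Type*} [Field F0'] [Field F1'] [Algebra K F0'] [Algebra L F1']

/-- The abstract `ExtData` attached to helper15's `Setup.extPlace`. -/
def Setup.extData (S : Setup K L F0' F1')
    (hK : ∀ v : Place K F0', Function.Surjective (algebraMap K v.ResidueField)) :
    ExtData K L F0' F1' where
  ι := S.ι
  ι_const := S.ι_const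
  ext := S.extPlace hK
  ext_ord := S.extPlace_ord hK
  mem_range_ext := fun w hw => (S.mem_range_extPlace_iff hK w).mpr hw
  ext_deg := fun v => by
    rw [S.deg_extPlace hK v, Setup.deg_eq_one_of_surjective v (hK v)]

theorem Setup.extData_bcPic0 (S : Setup K L F0' F1')
    (hK : ∀ v : Place K F0', Function.Surjective (algebraMap K v.ResidueField)) :
    (S.extData hK).bcPic0 = S.bcPic0 hK := rfl

end SetupExtData

section LeadingCoeff

/-- Leading `q`-coefficient on `F1`. -/
def lcF (F1 : IntermediateField L (LaurentSeries L)) (x : F1) : L :=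
  (x : LaurentSeries L).leadingCoeff

theorem lcF_ne_zero {x : F1} (hx : x ≠ 0) : lcF F1 x ≠ 0 := by
  rw [lcF, HahnSeries.leadingCoeff_ne_zero]
  intro h
  exact hx (Subtype.ext h)

theorem lcF_const_mul (c : L) (x : F1) : lcF F1 (algebraMap L F1 c * x) = c * lcF F1 x := by
  have h2 : ((algebraMap L F1 c * x : F1) : LaurentSeries L)
      = algebraMap L (LaurentSeries L) c * (x : LaurentSeries L) := rfl
  rw [lcF, lcF, h2, HahnSeries.leadingCoeff_mul, algebraMap_laurentSeries_eq_single,
    HahnSeries.leadingCoeff_of_single]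

theorem leadingCoeff_coeffMap (g : L →+* L) (x : LaurentSeries L) :
    (coeffMap g x).leadingCoeff = g x.leadingCoeff := by
  rw [HahnSeries.leadingCoeff_eq, HahnSeries.leadingCoeff_eq, order_coeffMap, coeffMap_coeff]

theorem IsBC.lcF_gal_smul (h : IsBC F0 F1) (σ : L ≃ₐ[K] L) (x : F1) :
    lcF F1 (h.gal σ • x) = SemilinearAut.baseAut (h.gal σ) (lcF F1 x) := by
  rw [lcF, h.coe_gal_smul, leadingCoeff_coeffMap]
  rfl

end LeadingCoeff

section Main

variable [IsAlgClosed K] [IsAlgClosed L]

/-- **BC3 (concrete)**: `Pic⁰(F0) → Pic⁰(F1)` is injective. -/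
theorem IsBC.bcPic0_injective (h : IsBC F0 F1)
    (hK : ∀ v : Place K F0, Function.Surjective (algebraMap K v.ResidueField))
    (hconst : ∀ x : F1, x ≠ 0 → (∀ w : Place L F1, w.ord x = 0) →
      ∃ c : L, x = algebraMap L F1 c) :
    Function.Injective (h.toSetup.bcPic0 hK) := by
  rw [← Setup.extData_bcPic0]
  exact (h.toSetup.extData hK).bcPic0_injective h.gal (fun σ f => h.gal_smul_iotaF σ f)
    (lcF F1) (fun x hx => lcF_ne_zero hx) lcF_const_mul h.lcF_gal_smul hconst
    (fun x hx => h.exists_iotaF_eq_of_fixed isFixedBase_of_isAlgClosed x hx)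

/-- **BC4b (concrete)**: a place of `F1` with finite `Aut(L/K)`-orbit is an extended place. -/
theorem IsBC.mem_range_extPlace_of_finite_orbit [CharZero K] (h : IsBC F0 F1)
    (hK : ∀ v : Place K F0, Function.Surjective (algebraMap K v.ResidueField))
    (hL : ∀ w : Place L F1, Function.Surjective (algebraMap L w.ResidueField))
    (hnc : ∃ x : F0, x ∉ Set.range (algebraMap K F0))
    (w : Place L F1) (hw : (Set.range fun σ : L ≃ₐ[K] L => h.gal σ • w).Finite) :
    w ∈ Set.range (h.toSetup.extPlace hK) :=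
  (h.toSetup.extData hK).mem_range_ext_of_finite_orbit h.gal (fun σ f => h.gal_smul_iotaF σ f)
    (fun w u hu => place_exists_residue w (hL w) u hu)
    (fun a ha => infinite_orbit_of_transcendental a (transcendental_of_not_mem_range ha))
    hnc w hw

/-- **BC4 (concrete)**: base change is an isomorphism on `n`-torsion, given the canonical
representative hypothesis `hcan` and finiteness of the `n`-torsion of `F1`. -/
def IsBC.torsionEquiv [CharZero K] (h : IsBC F0 F1)
    (hK : ∀ v : Place K F0, Function.Surjective (algebraMap K v.ResidueField))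
    (hL : ∀ w : Place L F1, Function.Surjective (algebraMap L w.ResidueField))
    (hconst : ∀ x : F1, x ≠ 0 → (∀ w : Place L F1, w.ord x = 0) →
      ∃ c : L, x = algebraMap L F1 c)
    (hnc : ∃ x : F0, x ∉ Set.range (algebraMap K F0))
    (hcan : ∀ x : Pic0 L F1, (Set.range fun σ : L ≃ₐ[K] L => h.gal σ • x).Finite →
      ∃ D : Divisor.degZero (K := L) (F := F1), Pic0.mk D = x ∧
        ∀ w ∈ (D : Divisor L F1).support,
          (Set.range fun σ : L ≃ₐ[K] L => h.gal σ • w).Finite)
    (n : ℕ) [Finite (Pic0.torsion L F1 n)] :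
    Pic0.torsion K F0 n ≃+ Pic0.torsion L F1 n :=
  (h.toSetup.extData hK).bcTorsionEquiv h.gal
    (by rw [Setup.extData_bcPic0]; exact h.bcPic0_injective hK hconst)
    ((h.toSetup.extData hK).exists_bcPic0_eq_of_finite_orbit h.gal
      (fun w hw => h.mem_range_extPlace_of_finite_orbit hK hL hnc w hw) hcan) n

theorem IsBC.coe_torsionEquiv [CharZero K] (h : IsBC F0 F1)
    (hK : ∀ v : Place K F0, Function.Surjective (algebraMap K v.ResidueField))
    (hL : ∀ w : Place L F1, Function.Surjective (algebraMap L w.ResidueField))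
    (hconst : ∀ x : F1, x ≠ 0 → (∀ w : Place L F1, w.ord x = 0) →
      ∃ c : L, x = algebraMap L F1 c)
    (hnc : ∃ x : F0, x ∉ Set.range (algebraMap K F0))
    (hcan : ∀ x : Pic0 L F1, (Set.range fun σ : L ≃ₐ[K] L => h.gal σ • x).Finite →
      ∃ D : Divisor.degZero (K := L) (F := F1), Pic0.mk D = x ∧
        ∀ w ∈ (D : Divisor L F1).support,
          (Set.range fun σ : L ≃ₐ[K] L => h.gal σ • w).Finite)
    (n : ℕ) [Finite (Pic0.torsion L F1 n)] (y : Pic0.torsion K F0 n) :
    (h.torsionEquiv hK hL hconst hnc hcan n y : Pic0 L F1)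
      = h.toSetup.bcPic0 hK (y : Pic0 K F0) := rfl

theorem IsBC.card_torsion_eq [CharZero K] (h : IsBC F0 F1)
    (hK : ∀ v : Place K F0, Function.Surjective (algebraMap K v.ResidueField))
    (hL : ∀ w : Place L F1, Function.Surjective (algebraMap L w.ResidueField))
    (hconst : ∀ x : F1, x ≠ 0 → (∀ w : Place L F1, w.ord x = 0) →
      ∃ c : L, x = algebraMap L F1 c)
    (hnc : ∃ x : F0, x ∉ Set.range (algebraMap K F0))
    (hcan : ∀ x : Pic0 L F1, (Set.range fun σ : L ≃ₐ[K] L => h.gal σ • x).Finite →
      ∃ D : Divisor.degZero (K := L) (F := F1), Pic0.mk D = x ∧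
        ∀ w ∈ (D : Divisor L F1).support,
          (Set.range fun σ : L ≃ₐ[K] L => h.gal σ • w).Finite)
    (n : ℕ) [Finite (Pic0.torsion L F1 n)] :
    Nat.card (Pic0.torsion K F0 n) = Nat.card (Pic0.torsion L F1 n) :=
  Nat.card_congr (h.torsionEquiv hK hL hconst hnc hcan n).toEquiv

end Main

end Fermat.Agent.Gateway.BaseChange
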