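import Fermat.Agent.Gateway.BaseChange.Defs

/-!
# P-GATEWAY WP-BC, block BC1 (helper86)

* `slice φ : L((q)) →+ K((q))` for a `K`-linear functional `φ : L → K` (coefficientwise).
* `IsBC.mem_of_iota_mem` : `ι y ∈ F1 → y ∈ F0` (no hypothesis on `K`, `L`): linear disjointness
  of `L` and `ι K((q))` over `K` is coefficientwise-trivial.
* `IsFixedBase K L` : `K` is the fixed field of `Aut(L/K)`.
* `mem_range_iota_of_fixed`, `IsBC.exists_iotaF_eq_of_fixed` : Galois descent of elements.
-/

set_option autoImplicit false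

noncomputable section

namespace Fermat.Agent.Gateway.BaseChange

open ModularCurve AlgebraicCurve IntermediateField
open scoped Pointwise

variable {K L : Type*} [Field K] [Field L] [Algebra K L]

theorem coeff_algebraMap_mul' (c : L) (x : LaurentSeries L) (k : ℤ) :
    (algebraMap L (LaurentSeries L) c * x).coeff k = c * x.coeff k := by
  rw [algebraMap_laurentSeries_eq_single, HahnSeries.coeff_single_zero_mul]

/-- Apply a `K`-linear functional coefficientwise. -/
def slice (φ : L →ₗ[K] K) : LaurentSeries L →+ LaurentSeries K where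
  toFun x := x.map φ
  map_zero' := by ext k; simp
  map_add' x y := by ext k; simp

@[simp]
theorem slice_coeff (φ : L →ₗ[K] K) (x : LaurentSeries L) (k : ℤ) :
    (slice φ x).coeff k = φ (x.coeff k) := rfl

theorem slice_const_mul_iota (φ : L →ₗ[K] K) (c : L) (z : LaurentSeries K) :
    slice φ (algebraMap L (LaurentSeries L) c * iota K L z)
      = algebraMap K (LaurentSeries K) (φ c) * z := by
  ext k
  rw [slice_coeff, coeff_algebraMap_mul', coeff_algebraMap_mul', iota_coeff, mul_comm c,
    ← Algebra.smul_def, map_smul, smul_eq_mul, mul_comm]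

theorem eq_zero_of_slice_eq_zero {x : LaurentSeries L}
    (hx : ∀ φ : L →ₗ[K] K, slice φ x = 0) : x = 0 := by
  ext k
  rw [HahnSeries.coeff_zero]
  apply (Module.forall_dual_apply_eq_zero_iff K (x.coeff k)).mp
  intro φ
  have := congrArg (fun y => y.coeff k) (hx φ)
  simpa using this

variable (L) in
/-- The generators `c * ι z`, `c ∈ L`, `z ∈ F0`. -/
def gens (F0 : IntermediateField K (LaurentSeries K)) : Set (LaurentSeries L) :=
  {x | ∃ (c : L) (z : LaurentSeries K), z ∈ F0 ∧ x = algebraMap L (LaurentSeries L) c * iota K L z}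

variable {F0 : IntermediateField K (LaurentSeries K)}
  {F1 : IntermediateField L (LaurentSeries L)}

theorem gens_mul_gens : gens L F0 * gens L F0 ⊆ gens L F0 := by
  rintro _ ⟨_, ⟨c, z, hz, rfl⟩, _, ⟨c', z', hz', rfl⟩, rfl⟩
  refine ⟨c * c', z * z', F0.mul_mem hz hz', ?_⟩
  simp only [map_mul]
  ring

variable (L) in
/-- The ring `L[ι F0]` of finite sums `∑ c * ι z`. -/
def spanRing (F0 : IntermediateField K (LaurentSeries K)) : Subring (LaurentSeries L) where
  carrier := AddSubmonoid.closure (gens L F0)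
  zero_mem' := zero_mem _
  add_mem' := add_mem
  one_mem' := AddSubmonoid.subset_closure ⟨1, 1, F0.one_mem, by simp⟩
  mul_mem' := by
    intro a b ha hb
    have h1 : a * b ∈ AddSubmonoid.closure (gens L F0) * AddSubmonoid.closure (gens L F0) :=
      AddSubmonoid.mul_mem_mul ha hb
    rw [AddSubmonoid.closure_mul_closure] at h1
    exact AddSubmonoid.closure_mono gens_mul_gens h1
  neg_mem' := by
    intro a ha
    induction ha using AddSubmonoid.closure_induction with
    | mem x hx =>
        obtain ⟨c, z, hz, rfl⟩ := hx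
        exact AddSubmonoid.subset_closure ⟨-c, z, hz, by simp⟩
    | zero => simp
    | add x y _ _ hx hy =>
        rw [neg_add]
        exact add_mem hx hy

theorem mem_spanRing_iff {x : LaurentSeries L} :
    x ∈ spanRing L F0 ↔ x ∈ AddSubmonoid.closure (gens L F0) := Iff.rfl

theorem slice_mem_of_mem_spanRing (φ : L →ₗ[K] K) {b : LaurentSeries L}
    (hb : b ∈ spanRing L F0) : slice φ b ∈ F0 := by
  rw [mem_spanRing_iff] at hb
  induction hb using AddSubmonoid.closure_induction with
  | mem x hx =>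
      obtain ⟨c, z, hz, rfl⟩ := hx
      rw [slice_const_mul_iota]
      exact F0.mul_mem (F0.algebraMap_mem _) hz
  | zero => rw [map_zero]; exact F0.zero_mem
  | add x y _ _ hx hy => rw [map_add]; exact F0.add_mem hx hy

theorem slice_mul_iota_of_mem_spanRing (φ : L →ₗ[K] K) {b : LaurentSeries L}
    (hb : b ∈ spanRing L F0) (y : LaurentSeries K) :
    slice φ (b * iota K L y) = slice φ b * y := by
  rw [mem_spanRing_iff] at hb
  induction hb using AddSubmonoid.closure_induction with
  | mem x hx =>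
      obtain ⟨c, z, _, rfl⟩ := hx
      rw [mul_assoc, ← map_mul, slice_const_mul_iota, slice_const_mul_iota, mul_assoc]
  | zero => simp
  | add x y _ _ hx hy => rw [add_mul, map_add, map_add, hx, hy, add_mul]

theorem IsBC.exists_div (h : IsBC F0 F1) {x : LaurentSeries L} (hx : x ∈ F1) :
    ∃ a ∈ spanRing L F0, ∃ b ∈ spanRing L F0, a / b = x := by
  rw [h.mem_iff, Subfield.mem_closure_iff] at hx
  obtain ⟨a, ha, b, hb, rfl⟩ := hx
  have hle : Subring.closure (Set.range (algebraMap L (LaurentSeries L)) ∪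
      (⇑(iota K L) '' (F0 : Set (LaurentSeries K)))) ≤ spanRing L F0 := by
    rw [Subring.closure_le]
    rintro _ (⟨c, rfl⟩ | ⟨z, hz, rfl⟩)
    · exact AddSubmonoid.subset_closure ⟨c, 1, F0.one_mem, by simp⟩
    · exact AddSubmonoid.subset_closure ⟨1, z, hz, by simp⟩
  exact ⟨a, hle ha, b, hle hb, rfl⟩

/-- **BC1, part 1**: `F1 ∩ ι (K((q))) = ι F0`. -/
theorem IsBC.mem_of_iota_mem (h : IsBC F0 F1) {y : LaurentSeries K}
    (hy : iota K L y ∈ F1) : y ∈ F0 := by
  obtain ⟨a, ha, b, hb, hab⟩ := h.exists_div hy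
  by_cases hb0 : b = 0
  · rw [hb0, div_zero] at hab
    have : y = 0 := iota_injective (by rw [← hab, map_zero])
    rw [this]
    exact F0.zero_mem
  have hmul : b * iota K L y = a := by
    rw [← hab]
    field_simp
  -- some slice of `b` is nonzero
  obtain ⟨φ, hφ⟩ : ∃ φ : L →ₗ[K] K, slice φ b ≠ 0 := by
    by_contra hcon
    simp only [not_exists, not_not] at hcon
    exact hb0 (eq_zero_of_slice_eq_zero hcon)
  have h1 := congrArg (slice φ) hmul
  rw [slice_mul_iota_of_mem_spanRing φ hb] at h1
  have : y = slice φ a / slice φ b := by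
    rw [eq_div_iff hφ, mul_comm]
    exact h1
  rw [this]
  exact F0.div_mem (slice_mem_of_mem_spanRing φ ha) (slice_mem_of_mem_spanRing φ hb)

theorem IsBC.mem_iff_iota_mem (h : IsBC F0 F1) {y : LaurentSeries K} :
    iota K L y ∈ F1 ↔ y ∈ F0 :=
  ⟨h.mem_of_iota_mem, h.iota_mem⟩

/-- `h.iotaF` hits exactly the elements of `F1` with coefficients in `K`. -/
theorem IsBC.exists_iotaF_eq (h : IsBC F0 F1) (x : F1) {y : LaurentSeries K}
    (hy : iota K L y = (x : LaurentSeries L)) : ∃ f : F0, h.iotaF f = x := by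
  have hy' : y ∈ F0 := h.mem_of_iota_mem (by rw [hy]; exact x.2)
  exact ⟨⟨y, hy'⟩, Subtype.ext hy⟩

variable (K L) in
/-- `K` is the fixed field of `Aut(L/K)`. -/
def IsFixedBase : Prop :=
  ∀ c : L, (∀ σ : L ≃ₐ[K] L, σ c = c) → c ∈ Set.range (algebraMap K L)

/-- A Laurent series fixed by all `coeffMap σ`, `σ ∈ Aut(L/K)`, has coefficients in `K`. -/
theorem mem_range_iota_of_fixed (hKL : IsFixedBase K L) {x : LaurentSeries L}
    (hx : ∀ σ : L ≃ₐ[K] L, coeffMap (σ : L →+* L) x = x) : ∃ y, iota K L y = x := by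
  obtain ⟨r, hr⟩ := LinearMap.exists_leftInverse_of_injective (Algebra.linearMap K L)
    (LinearMap.ker_eq_bot.mpr (algebraMap K L).injective)
  refine ⟨slice r x, ?_⟩
  ext k
  rw [iota_coeff, slice_coeff]
  obtain ⟨c, hc⟩ := hKL (x.coeff k) fun σ => by
    have := congrArg (fun y => y.coeff k) (hx σ)
    simpa using this
  rw [← hc]
  have := congrArg (fun f => f c) hr
  simp only [LinearMap.coe_comp, Function.comp_apply, Algebra.linearMap_apply,
    LinearMap.id_coe, id_eq] at this
  rw [this]

/-- **BC1, part 3**: an element of `F1` fixed by `Aut(L/K)` comes from `F0`. -/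
theorem IsBC.exists_iotaF_eq_of_fixed (h : IsBC F0 F1) (hKL : IsFixedBase K L) (x : F1)
    (hx : ∀ σ : L ≃ₐ[K] L, h.gal σ • x = x) : ∃ f : F0, h.iotaF f = x := by
  obtain ⟨y, hy⟩ := mem_range_iota_of_fixed hKL (x := (x : LaurentSeries L)) fun σ => by
    have := congrArg (fun z : F1 => (z : LaurentSeries L)) (hx σ)
    simpa [h.coe_gal_smul] using this
  exact h.exists_iotaF_eq x hy

end Fermat.Agent.Gateway.BaseChange
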