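/-
helper15 (P-GATEWAY, WP-BC5 abstract core): compatibility of base change of divisors with
pullback / pushforward / correspondences along a commutative square of function fields

    F0  --φ0-->  F0'     (over K)
    |ι           |ι'
    F1  --φ1-->  F1'     (over L)

with `S : Setup K L F0 F1`, `S' : Setup K L F0' F1'`.
-/
import Mathlib
import Fermat.Prelude.Def_AlgebraicCurve_Correspondence
import Fermat.Agent.Gateway.BaseChange.BCDiv

set_option autoImplicit false
set_option linter.style.haveILetI false
set_option linter.unusedSectionVars false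
set_option linter.unusedVariables false

noncomputable section

namespace Fermat.Agent.Gateway.BaseChange

open AlgebraicCurve Fermat.Agent.S24

section Along

variable {K F F' : Type*} [Field K] [Field F] [Field F'] [Algebra K F] [Algebra K F']

theorem ramificationIndexAlong_pos (φ : F →ₐ[K] F') (hφ : φ.toRingHom.IsIntegral)
    (w : Place K F') : 0 < Place.ramificationIndexAlong φ w := by
  letI := algebraAlong φ
  haveI := isScalarTower_along φ
  haveI := isIntegral_along φ hφ
  exact w.ramificationIndex_pos (F := F)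

/-- The inertia degree along `φ` is one as soon as the residue field upstairs is the constant
field. -/
theorem inertiaDegAlong_eq_one (φ : F →ₐ[K] F') (hφ : φ.toRingHom.IsIntegral)
    (w : Place K F') (hw : Function.Surjective (algebraMap K w.ResidueField)) :
    w.inertiaDegAlong φ hφ = 1 := by
  letI := algebraAlong φ
  haveI := isScalarTower_along φ
  haveI := isIntegral_along φ hφ
  show Module.finrank (w.restrict F).ResidueField w.ResidueField = 1
  have hsurj : Function.Surjective (algebraMap (w.restrict F).ResidueField w.ResidueField) := by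
    intro x
    obtain ⟨a, rfl⟩ := hw x
    exact ⟨algebraMap K (w.restrict F).ResidueField a,
      (IsScalarTower.algebraMap_apply K (w.restrict F).ResidueField w.ResidueField a).symm⟩
  have hbij : Function.Bijective (algebraMap (w.restrict F).ResidueField w.ResidueField) :=
    ⟨(algebraMap (w.restrict F).ResidueField w.ResidueField).injective, hsurj⟩
  rw [← Module.finrank_self (w.restrict F).ResidueField]
  exact ((AlgEquiv.ofBijective (Algebra.ofId (w.restrict F).ResidueField w.ResidueField)
    hbij).toLinearEquiv.finrank_eq).symm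

end Along

namespace Setup

variable {K L F0 F1 F0' F1' : Type*} [Field K] [Field L] [Field F0] [Field F1] [Field F0']
  [Field F1'] [Algebra K L] [Algebra K F0] [Algebra L F1] [Algebra K F0'] [Algebra L F1']
  (S : Setup K L F0 F1) (S' : Setup K L F0' F1')
  (hK : ∀ v : Place K F0, Function.Surjective (algebraMap K v.ResidueField))
  (hK' : ∀ v : Place K F0', Function.Surjective (algebraMap K v.ResidueField))
  (φ0 : F0 →ₐ[K] F0') (φ1 : F1 →ₐ[L] F1')
  (h0 : φ0.toRingHom.IsIntegral) (h1 : φ1.toRingHom.IsIntegral)
  (hsq : ∀ f : F0, φ1 (S.ι f) = S'.ι (φ0 f))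

include hK hK' h0 h1 hsq in
/-- Key computation: restriction of an extended place and equality of ramification indices. -/
theorem restrictAlong_extPlace_aux (w' : Place K F0') :
    (S'.extPlace hK' w').restrictAlong φ1 h1 = S.extPlace hK (w'.restrictAlong φ0 h0) ∧
      Place.ramificationIndexAlong φ1 (S'.extPlace hK' w') = Place.ramificationIndexAlong φ0 w' := by
  set W := S'.extPlace hK' w' with hW
  set V := W.restrictAlong φ1 h1 with hV
  set v := w'.restrictAlong φ0 h0 with hv
  set eW := Place.ramificationIndexAlong φ1 W with heW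
  set ew := Place.ramificationIndexAlong φ0 w' with hew
  have heW0 : 0 < eW := ramificationIndexAlong_pos φ1 h1 W
  have hew0 : 0 < ew := ramificationIndexAlong_pos φ0 h0 w'
  have key : ∀ f : F0, (eW : ℤ) * V.ord (S.ι f) = ew * v.ord f := by
    intro f
    rw [← Place.ord_restrictAlong φ1 h1 W (S.ι f), hsq, S'.extPlace_ord hK' w',
      Place.ord_restrictAlong φ0 h0 w' f]
  obtain ⟨t, ht⟩ := ZD.PlaceLemmas.exists_ord_eq_one v
  have ht0 : t ≠ 0 := by
    rintro rfl
    simp at ht
  have hnt : V.ord (S.ι t) ≠ 0 := by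
    intro h0'
    have := key t
    rw [h0', ht, mul_zero, mul_one] at this
    have : (ew : ℤ) = 0 := this.symm
    omega
  obtain ⟨v'', c, hc, hv''⟩ := (S.isAddVal_restrict V).exists_place ⟨t, ht0, hnt⟩
  have hvv : v'' = v := by
    apply place_eq_of_ord_proportional (c := eW * c) (c' := ew) (Nat.mul_pos heW0 hc) hew0
    intro f hf
    have h2 : V.ord (S.ι f) = c * v''.ord f := hv'' f hf
    rw [← key f, h2]
    push_cast
    ring
  rw [hvv] at hv''
  have hVv : ∀ f : F0, V.ord (S.ι f) = c * v.ord f := by
    intro f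
    rcases eq_or_ne f 0 with rfl | hf
    · simp
    · exact hv'' f hf
  have hc1 : c = 1 := S.index_eq_one v (hK v) V c hc hVv
  subst hc1
  refine ⟨S.eq_extPlace_of_ord hK V v fun f => by rw [hVv f]; simp, ?_⟩
  have := key t
  rw [hVv t, ht] at this
  simp only [Nat.cast_one, mul_one] at this
  exact_mod_cast this

include hK hK' h0 h1 hsq in
theorem restrictAlong_extPlace (w' : Place K F0') :
    (S'.extPlace hK' w').restrictAlong φ1 h1 = S.extPlace hK (w'.restrictAlong φ0 h0) :=
  (restrictAlong_extPlace_aux S S' hK hK' φ0 φ1 h0 h1 hsq w').1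

include hK hK' h0 h1 hsq in
theorem ramificationIndexAlong_extPlace (w' : Place K F0') :
    Place.ramificationIndexAlong φ1 (S'.extPlace hK' w') = Place.ramificationIndexAlong φ0 w' :=
  (restrictAlong_extPlace_aux S S' hK hK' φ0 φ1 h0 h1 hsq w').2

include hK hK' h0 h1 hsq in
/-- A place of `F1'` which is not an extended place restricts to a place of `F1` which is not an
extended place. -/
theorem restrictAlong_notMem_range (W : Place L F1') (hW : W ∉ Set.range (S'.extPlace hK')) :
    W.restrictAlong φ1 h1 ∉ Set.range (S.extPlace hK) := by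
  intro hmem
  obtain ⟨f, hf⟩ := (S.mem_range_extPlace_iff hK _).mp hmem
  apply hW
  rw [S'.mem_range_extPlace_iff hK']
  refine ⟨φ0 f, ?_⟩
  rw [← hsq, Place.ord_restrictAlong φ1 h1 W (S.ι f)]
  have := ramificationIndexAlong_pos φ1 h1 W
  exact mul_ne_zero (by exact_mod_cast this.ne') hf

variable [HasPrincipalDivisors K F0'] [HasPrincipalDivisors L F1']

include hK hK' h0 h1 hsq in
/-- Base change commutes with pullback of divisors. -/
theorem bc_pullbackAlong (D : Divisor K F0) :
    S'.bc hK' (Divisor.pullbackAlong φ0 h0 D) = Divisor.pullbackAlong φ1 h1 (S.bc hK D) := by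
  ext W
  by_cases hW : W ∈ Set.range (S'.extPlace hK')
  · obtain ⟨w', rfl⟩ := hW
    rw [bc_apply_extPlace, Divisor.pullbackAlong_apply, Divisor.pullbackAlong_apply,
      restrictAlong_extPlace S S' hK hK' φ0 φ1 h0 h1 hsq,
      ramificationIndexAlong_extPlace S S' hK hK' φ0 φ1 h0 h1 hsq, bc_apply_extPlace]
  · rw [S'.bc_apply_of_notMem_range hK' _ W hW, Divisor.pullbackAlong_apply,
      S.bc_apply_of_notMem_range hK _ _
        (restrictAlong_notMem_range S S' hK hK' φ0 φ1 h0 h1 hsq W hW), mul_zero]

include hK hK' h0 h1 hsq in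
/-- Base change commutes with pushforward of divisors. -/
theorem bc_pushforwardAlong (D' : Divisor K F0') :
    S.bc hK (Divisor.pushforwardAlong φ0 h0 D') = Divisor.pushforwardAlong φ1 h1 (S'.bc hK' D') := by
  induction D' using Finsupp.induction with
  | zero => simp
  | single_add w' n D' _ _ ih =>
    rw [map_add, map_add, map_add, map_add, ih]
    congr 1
    rw [Divisor.pushforwardAlong_single, bc_single, bc_single, Divisor.pushforwardAlong_single,
      restrictAlong_extPlace S S' hK hK' φ0 φ1 h0 h1 hsq,
      inertiaDegAlong_eq_one φ0 h0 w' (hK' w'),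
      inertiaDegAlong_eq_one φ1 h1 _ (S'.extPlace_residue_surjective hK' w')]

variable (ψ0 : F0 →ₐ[K] F0') (ψ1 : F1 →ₐ[L] F1')
  (g0 : ψ0.toRingHom.IsIntegral) (g1 : ψ1.toRingHom.IsIntegral)
  (hsqψ : ∀ f : F0, ψ1 (S.ι f) = S'.ι (ψ0 f))

include hK hK' h0 h1 hsq g0 g1 hsqψ in
/-- Base change commutes with correspondences (pull back along `φ`, push forward along `ψ`). -/
theorem bc_correspondence (D : Divisor K F0) :
    S.bc hK (Divisor.correspondence φ0 ψ0 h0 g0 D)
      = Divisor.correspondence φ1 ψ1 h1 g1 (S.bc hK D) := by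
  rw [Divisor.correspondence_apply, Divisor.correspondence_apply,
    bc_pushforwardAlong S S' hK hK' ψ0 ψ1 g0 g1 hsqψ,
    bc_pullbackAlong S S' hK hK' φ0 φ1 h0 h1 hsq]

include hK hK' h0 h1 hsq g0 g1 hsqψ in
/-- Base change on `Pic0` commutes with correspondences. -/
theorem bcPic0_correspondence
    (hFI0 : FundamentalIdentityAlong K φ0 h0) (hfin0 : FiniteAlong K ψ0)
    (hN0 : NormFormulaAlong K ψ0 hfin0)
    (hFI1 : FundamentalIdentityAlong L φ1 h1) (hfin1 : FiniteAlong L ψ1)
    (hN1 : NormFormulaAlong L ψ1 hfin1) (x : Pic0 K F0) :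
    S.bcPic0 hK (Pic0.correspondence φ0 ψ0 h0 g0 hFI0 hfin0 hN0 x)
      = Pic0.correspondence φ1 ψ1 h1 g1 hFI1 hfin1 hN1 (S.bcPic0 hK x) := by
  obtain ⟨D, rfl⟩ := Pic0.mk_surjective x
  rw [Pic0.correspondence_mk, bcPic0_mk, bcPic0_mk, Pic0.correspondence_mk]
  congr 1
  apply Subtype.ext
  rw [coe_bcDegZero, Pic0.coe_degZeroCorrespondence, Pic0.coe_degZeroCorrespondence,
    coe_bcDegZero]
  exact bc_correspondence S S' hK hK' φ0 φ1 h0 h1 hsq ψ0 ψ1 g0 g1 hsqψ _

end Setup

end Fermat.Agent.Gateway.BaseChange
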