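/-
helper64 (P-GATEWAY, WP-BC5 instantiation): base change `Pic⁰(F_K(N)) → Pic⁰(F_L(N))` along an
extension `K ⊆ L` of algebraically closed fields of characteristic zero commutes with the Hecke
correspondence `heckeOperatorAlong · N ℓ`.

Abstract core = helper15's `Setup.bcPic0_correspondence` (Square.lean); inputs of the Hecke
correspondence = `Gateway/HK1/Modular.lean`.
-/
import Fermat.Agent.Gateway.BaseChange.Square
import Fermat.Agent.Gateway.BaseChange.Concrete
import Fermat.Agent.Gateway.HK1.Modular
import Fermat.Prelude.Thm_ModularCurve_coeffMap_qExpand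

set_option autoImplicit false
set_option linter.unusedSectionVars false
set_option linter.unusedVariables false

noncomputable section

namespace Fermat.Agent.Gateway.BaseChange.Hecke

open ModularCurve AlgebraicCurve IntermediateField Fermat.Agent.S24 Fermat.Agent.Gateway.HK1
open Fermat.Agent.Gateway.BaseChange

variable (K L : Type) [Field K] [Field L] [Algebra K L] [Algebra ℚ K] [Algebra ℚ L]

/-- `ι` commutes with `q ↦ q^n`. -/
theorem iota_qExpand (n : ℕ) [NeZero n] (x : LaurentSeries K) :
    iota K L (qExpand K n x) = qExpand L n (iota K L x) :=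
  ModularCurve.coeffMap_qExpand (algebraMap K L) n x

section Residue

variable [IsAlgClosed K] [CharZero K] (M : ℕ) [NeZero M]

/-- Residue fields of places of the modular function field over an algebraically closed field of
characteristic zero are the constant field. -/
theorem residue_surjective_FL (v : Place K (FL K M)) :
    Function.Surjective (algebraMap K v.ResidueField) :=
  haveI := finiteDimensional_FL K M
  PD.residue_surjective (transcendental_jL K M) v

end Residue

variable [IsAlgClosed K] [CharZero K] [IsAlgClosed L] [CharZero L]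
  (N ℓ : ℕ) [NeZero N] [NeZero ℓ]

/-- **WP-BC5**, setup-agnostic form: for ANY base-change setups `S` (level `N`) and `S'`
(level `N * ℓ`) whose `ι` is the coefficientwise map, `bcPic0` commutes with `T_ℓ`. -/
theorem bcPic0_heckeOperatorAlong_of_setup
    (S : Setup K L (FL K N) (FL L N)) (S' : Setup K L (FL K (N * ℓ)) (FL L (N * ℓ)))
    (hS : ∀ f : FL K N, ((S.ι f : FL L N) : LaurentSeries L) = iota K L (f : LaurentSeries K))
    (hS' : ∀ f : FL K (N * ℓ),
      ((S'.ι f : FL L (N * ℓ)) : LaurentSeries L) = iota K L (f : LaurentSeries K))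
    (hK : ∀ v : Place K (FL K N), Function.Surjective (algebraMap K v.ResidueField))
    (x : Pic0 K (FL K N)) :
    S.bcPic0 hK (heckeOperatorAlong K N ℓ x) = heckeOperatorAlong L N ℓ (S.bcPic0 hK x) := by
  have hcK : CharZero (FL K N) :=
    charZero_of_injective_algebraMap (algebraMap K (FL K N)).injective
  have hcL : CharZero (FL L N) :=
    charZero_of_injective_algebraMap (algebraMap L (FL L N)).injective
  have hPK := hasPrincipalDivisors_FL K (N * ℓ)
  have hPL := hasPrincipalDivisors_FL L (N * ℓ)
  have haK := finiteAlong_alpha K N ℓ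
  have hbK := finiteAlong_beta K N ℓ
  have haL := finiteAlong_alpha L N ℓ
  have hbL := finiteAlong_beta L N ℓ
  rw [heckeOperatorAlong_eq (isIntegral_of_finiteAlong _ haK) (isIntegral_of_finiteAlong _ hbK)
      (fundamentalIdentityAlong _ _ hbK) haK (normFormulaAlong _ haK),
    heckeOperatorAlong_eq (isIntegral_of_finiteAlong _ haL) (isIntegral_of_finiteAlong _ hbL)
      (fundamentalIdentityAlong _ _ hbL) haL (normFormulaAlong _ haL)]
  unfold heckePic0Bar
  refine Setup.bcPic0_correspondence S S' hK (residue_surjective_FL K (N * ℓ))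
    (heckeBetaBar K N ℓ) (heckeBetaBar L N ℓ) _ _ ?_ (heckeAlphaBar K N ℓ) (heckeAlphaBar L N ℓ)
    _ _ ?_ _ _ _ _ _ _ x
  · intro f
    apply Subtype.ext
    rw [coe_heckeBetaBar, hS, hS', coe_heckeBetaBar, iota_qExpand]
  · intro f
    apply Subtype.ext
    rw [coe_heckeAlphaBar, hS, hS', coe_heckeAlphaBar]

variable [IsScalarTower ℚ K L]

/-- The base-change setup of the modular function field of level `M`. -/
def setupFL (M : ℕ) [NeZero M] : Setup K L (FL K M) (FL L M) :=
  (isBC_laurentBaseChange K L (modularFunctionFieldFull M)).toSetup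

/-- Base change `Pic⁰(F_K(M)) → Pic⁰(F_L(M))`. -/
def bcPic0FL (M : ℕ) [NeZero M] : Pic0 K (FL K M) →+ Pic0 L (FL L M) :=
  (setupFL K L M).bcPic0 (residue_surjective_FL K M)

theorem bcPic0FL_eq (M : ℕ) [NeZero M]
    (hK : ∀ v : Place K (FL K M), Function.Surjective (algebraMap K v.ResidueField)) :
    bcPic0FL K L M = (isBC_laurentBaseChange K L (modularFunctionFieldFull M)).toSetup.bcPic0 hK :=
  rfl

/-- **WP-BC5**: base change commutes with the Hecke correspondence `T_ℓ`. -/
theorem bcPic0FL_heckeOperatorAlong (x : Pic0 K (FL K N)) :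
    bcPic0FL K L N (heckeOperatorAlong K N ℓ x) = heckeOperatorAlong L N ℓ (bcPic0FL K L N x) :=
  bcPic0_heckeOperatorAlong_of_setup K L N ℓ (setupFL K L N) (setupFL K L (N * ℓ))
    (fun _ => rfl) (fun _ => rfl) _ x

/-- **WP-BC5**, in the form of the GATEWAY plan (any proof `hK` of the residue hypothesis). -/
theorem bcPic0_heckeOperatorAlong
    (hK : ∀ v : Place K (FL K N), Function.Surjective (algebraMap K v.ResidueField))
    (x : Pic0 K (FL K N)) :
    (isBC_laurentBaseChange K L (modularFunctionFieldFull N)).toSetup.bcPic0 hK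
        (heckeOperatorAlong K N ℓ x)
      = heckeOperatorAlong L N ℓ
        ((isBC_laurentBaseChange K L (modularFunctionFieldFull N)).toSetup.bcPic0 hK x) :=
  bcPic0FL_heckeOperatorAlong K L N ℓ x

end Fermat.Agent.Gateway.BaseChange.Hecke
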