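import Fermat.Agent.Gateway.BaseChange.Concrete
import Fermat.Agent.Gateway.BaseChange.Canonical
import Fermat.Agent.Gateway.HK1.Modular
import Fermat.Agent.S24.Setup

/-!
# P-GATEWAY WP-BC: instantiation `ℚ̄ → ℂ` for the modular function fields (helper86)

`Kbar = AlgebraicClosure ℚ`, `ℂ` is a `Kbar`-algebra through `S24.Setup.iota` (LOCAL instance
`algKbarC`; use `open Fermat.Agent.Gateway.BaseChange.Modular` +
`attribute [local instance] algKbarC` downstream).

* `isBC N : IsBC (modularFunctionFieldBar N) (FL ℂ N)`.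
* `residue_surjective_FL`, `const_of_ord_eq_zero_FL`, `jL_notMem_range` : the function-field
  inputs of `Concrete.lean`, for every algebraically closed `L` of characteristic zero.
* `bcPic0 N`, `bcPic0_injective N`, `torsionEquiv N hcan n`, `card_torsion_eq`.
-/

set_option autoImplicit false

noncomputable section

namespace Fermat.Agent.Gateway.BaseChange.Modular

open ModularCurve AlgebraicCurve IntermediateField Fermat.Agent.S24
open Fermat.Agent.Gateway.HK1 Fermat.Agent.S24.Setup

/-! ### General function-field inputs -/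

section General

variable {K F : Type*} [Field K] [Field F] [Algebra K F] [IsAlgClosed K] [CharZero K]

/-- A function without zeros and poles is constant. -/
theorem const_of_ord_eq_zero {x0 : F} (hx0 : Transcendental K x0) [FiniteDimensional K⟮x0⟯ F]
    (x : F) (hx : ∀ w : Place K F, w.ord x = 0) : ∃ c : K, x = algebraMap K F c := by
  by_contra hcon
  have hnot : x ∉ Set.range (algebraMap K F) := fun ⟨c, hc⟩ => hcon ⟨c, hc.symm⟩
  have htr : Transcendental K x := PDiv.transcendental_of_notMem_range hnot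
  have : FiniteDimensional K⟮x⟯ F :=
    PDiv.finiteDimensional_adjoin_simple_of_transcendental hx0 htr
  obtain ⟨inst, hsum⟩ := PDiv.sum_ord_poles x htr
  have hempty : IsEmpty {v : Place K F // v.ord x < 0} :=
    ⟨fun v => by have := v.2; rw [hx v.1] at this; exact lt_irrefl _ this⟩
  rw [Finset.univ_eq_empty, Finset.sum_empty] at hsum
  have hpos : 0 < Module.finrank K⟮x⟯ F := Module.finrank_pos
  omega

end General

/-! ### The modular function fields over an algebraically closed field -/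

section ModularL

variable (L : Type) [Field L] [Algebra ℚ L] [IsAlgClosed L] [CharZero L] (M : ℕ) [NeZero M]

theorem residue_surjective_FL (v : Place L (FL L M)) :
    Function.Surjective (algebraMap L v.ResidueField) :=
  haveI := finiteDimensional_FL L M
  PD.residue_surjective (transcendental_jL L M) v

theorem const_of_ord_eq_zero_FL (x : FL L M) (_hx0 : x ≠ 0)
    (hx : ∀ w : Place L (FL L M), w.ord x = 0) : ∃ c : L, x = algebraMap L (FL L M) c :=
  haveI := finiteDimensional_FL L M
  const_of_ord_eq_zero (transcendental_jL L M) x hx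

omit [IsAlgClosed L] [CharZero L] in
theorem jL_notMem_range : jL L M ∉ Set.range (algebraMap L (FL L M)) := by
  rintro ⟨c, hc⟩
  apply transcendental_jL L M
  rw [← hc]
  exact isAlgebraic_algebraMap c

end ModularL

/-! ### `ℚ̄ → ℂ` -/

/-- `ℂ` as a `ℚ̄`-algebra through the fixed embedding `S24.Setup.iota`. -/
@[reducible] def algKbarC : Algebra Kbar ℂ := Fermat.Agent.S24.Setup.iota.toAlgebra

attribute [local instance] algKbarC

theorem algebraMap_KbarC : algebraMap Kbar ℂ = Fermat.Agent.S24.Setup.iota := rfl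

instance isScalarTower_Q_Kbar_C : IsScalarTower ℚ Kbar ℂ :=
  IsScalarTower.of_algebraMap_eq fun c => (iotaAlg.commutes c).symm

variable (N : ℕ)

/-- The base change pair `F_ℚ̄(N) ⊆ F_ℂ(N)`. -/
theorem isBC : IsBC (modularFunctionFieldBar N) (laurentBaseChange ℂ (modularFunctionFieldFull N)) :=
  isBC_laurentBaseChange Kbar ℂ (modularFunctionFieldFull N)

variable [NeZero N]

theorem hK (v : Place Kbar (modularFunctionFieldBar N)) :
    Function.Surjective (algebraMap Kbar v.ResidueField) :=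
  residue_surjective_FL Kbar N v

/-- Base change `J₀(N)(ℚ̄) → Pic⁰(X₀(N)_ℂ)`. -/
def bcPic0 : Pic0 Kbar (modularFunctionFieldBar N) →+ Pic0 ℂ (FL ℂ N) :=
  (isBC N).toSetup.bcPic0 (hK N)

theorem bcPic0_injective : Function.Injective (bcPic0 N) :=
  (isBC N).bcPic0_injective (hK N) (const_of_ord_eq_zero_FL ℂ N)

/-- The hypothesis on canonical representatives (output of `Canonical.lean`). -/
def HCan : Prop :=
  ∀ x : Pic0 ℂ (FL ℂ N), (Set.range fun σ : ℂ ≃ₐ[Kbar] ℂ => (isBC N).gal σ • x).Finite →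
    ∃ D : Divisor.degZero (K := ℂ) (F := FL ℂ N), Pic0.mk D = x ∧
      ∀ w ∈ (D : Divisor ℂ (FL ℂ N)).support,
        (Set.range fun σ : ℂ ≃ₐ[Kbar] ℂ => (isBC N).gal σ • w).Finite

/-- **WP-BC, main output**: `J₀(N)[n](ℚ̄) ≃ Pic⁰(X₀(N)_ℂ)[n]`. -/
def torsionEquiv (hcan : HCan N) (n : ℕ) [Finite (Pic0.torsion ℂ (FL ℂ N) n)] :
    Pic0.torsion Kbar (modularFunctionFieldBar N) n ≃+ Pic0.torsion ℂ (FL ℂ N) n :=
  (isBC N).torsionEquiv (hK N) (residue_surjective_FL ℂ N) (const_of_ord_eq_zero_FL ℂ N)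
    ⟨jL Kbar N, jL_notMem_range Kbar N⟩ hcan n

theorem coe_torsionEquiv (hcan : HCan N) (n : ℕ) [Finite (Pic0.torsion ℂ (FL ℂ N) n)]
    (y : Pic0.torsion Kbar (modularFunctionFieldBar N) n) :
    (torsionEquiv N hcan n y : Pic0 ℂ (FL ℂ N)) = bcPic0 N (y : Pic0 Kbar _) := rfl

theorem card_torsion_eq (hcan : HCan N) (n : ℕ) [Finite (Pic0.torsion ℂ (FL ℂ N) n)] :
    Nat.card (Pic0.torsion Kbar (modularFunctionFieldBar N) n)
      = Nat.card (Pic0.torsion ℂ (FL ℂ N) n) :=
  Nat.card_congr (torsionEquiv N hcan n).toEquiv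

/-! ### Discharging `HCan` with `Canonical.lean` -/

theorem iotaF_jL : (isBC N).iotaF (jL Kbar N) = jL ℂ N := by
  apply Subtype.ext
  show iota Kbar ℂ (jqModC Kbar) = jqModC ℂ
  exact map_jqModC (algebraMap Kbar ℂ)

theorem gal_smul_jL (σ : ℂ ≃ₐ[Kbar] ℂ) : (isBC N).gal σ • jL ℂ N = jL ℂ N := by
  rw [← iotaF_jL, (isBC N).gal_smul_iotaF]

/-- `F_ℚ̄(N)` has a place (a pole of `j`). -/
theorem exists_place : Nonempty (Place Kbar (modularFunctionFieldBar N)) := by
  have := finiteDimensional_FL Kbar N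
  obtain ⟨inst, hsum⟩ := PDiv.sum_ord_poles (jL Kbar N) (transcendental_jL Kbar N)
  by_contra hcon
  have hempty : IsEmpty {v : Place Kbar (FL Kbar N) // v.ord (jL Kbar N) < 0} :=
    ⟨fun v => hcon ⟨v.1⟩⟩
  rw [Finset.univ_eq_empty, Finset.sum_empty] at hsum
  have hpos : 0 < Module.finrank Kbar⟮jL Kbar N⟯ (FL Kbar N) := Module.finrank_pos
  omega

theorem hcan : HCan N := by
  have := hasPrincipalDivisors_FL ℂ N
  obtain ⟨v0⟩ := exists_place N
  intro x hx
  exact exists_rep_of_finite_orbit (B := poleDivisor (L := ℂ) (jL ℂ N))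
    (P := (isBC N).toSetup.extPlace (hK N) v0) (isBC N).gal
    (fun σ => smul_poleDivisor _ (gal_smul_jL N σ))
    (fun σ => (isBC N).gal_smul_extPlace (hK N) σ v0)
    (residue_surjective_FL ℂ N _)
    (hne_poleDivisor (jL ℂ N) (jL_notMem_range ℂ N) (residue_surjective_FL ℂ N)) x hx

/-- **WP-BC, main output (unconditional up to finiteness of the complex torsion)**. -/
def torsionEquiv' (n : ℕ) [Finite (Pic0.torsion ℂ (FL ℂ N) n)] :
    Pic0.torsion Kbar (modularFunctionFieldBar N) n ≃+ Pic0.torsion ℂ (FL ℂ N) n :=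
  torsionEquiv N (hcan N) n

theorem coe_torsionEquiv' (n : ℕ) [Finite (Pic0.torsion ℂ (FL ℂ N) n)]
    (y : Pic0.torsion Kbar (modularFunctionFieldBar N) n) :
    (torsionEquiv' N n y : Pic0 ℂ (FL ℂ N)) = bcPic0 N (y : Pic0 Kbar _) := rfl

theorem card_torsion_eq' (n : ℕ) [Finite (Pic0.torsion ℂ (FL ℂ N) n)] :
    Nat.card (Pic0.torsion Kbar (modularFunctionFieldBar N) n)
      = Nat.card (Pic0.torsion ℂ (FL ℂ N) n) :=
  card_torsion_eq N (hcan N) n

end Fermat.Agent.Gateway.BaseChange.Modular
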