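/-
helper15 (P-GATEWAY, WP-BC, concrete inputs): for a function field `F/K` (`K` algebraically closed
of characteristic zero, `F` finite over `K(x)`): a nonzero element without zeros and poles is a
constant (`hconst` of `IsBC.torsionEquiv`), and the instances for the modular function fields
`F_L(M) = laurentBaseChange L (modularFunctionFieldFull M)`: `hconst_FL`, `hnc_FL`.
-/
import Mathlib
import Fermat.Agent.S24.ZeroDivisor
import Fermat.Agent.S24.PrincipalDiv
import Fermat.Agent.Gateway.HK1.Modular

set_option autoImplicit false

noncomputable section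

namespace Fermat.Agent.Gateway.BaseChange.ModularConst

open AlgebraicCurve IntermediateField ModularCurve Fermat.Agent.S24

section Abstract

variable {K F : Type*} [Field K] [Field F] [Algebra K F] [IsAlgClosed K] [CharZero K]

/-- A nonzero element of a function field without zeros is a constant. -/
theorem exists_const_of_no_zero {x : F} (hx : Transcendental K x) [FiniteDimensional K⟮x⟯ F]
    (f : F) (h : ∀ v : Place K F, ¬ 0 < v.ord f) : ∃ c : K, f = algebraMap K F c := by
  by_contra hcon
  have hf : Transcendental K f := by
    intro halg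
    obtain ⟨a, ha⟩ := PD.exists_algebraMap_eq_of_isAlgebraic halg
    exact hcon ⟨a, ha.symm⟩
  haveI : FiniteDimensional K⟮f⟯ F := PD.finiteDimensional_adjoin_of_transcendental (x := x) hf
  obtain ⟨inst, hsum⟩ := ZD.sum_ord_zeros f hf
  have hempty : IsEmpty {v : Place K F // 0 < v.ord f} := ⟨fun v => h v.1 v.2⟩
  rw [Finset.univ_eq_empty, Finset.sum_empty] at hsum
  have hpos : 0 < Module.finrank K⟮f⟯ F := Module.finrank_pos
  omega

/-- A nonzero element of a function field with trivial divisor is a constant. -/
theorem exists_const_of_ord_eq_zero {x : F} (hx : Transcendental K x) [FiniteDimensional K⟮x⟯ F]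
    (f : F) (h : ∀ v : Place K F, v.ord f = 0) : ∃ c : K, f = algebraMap K F c :=
  exists_const_of_no_zero hx f fun v hv => by rw [h v] at hv; exact lt_irrefl _ hv

end Abstract

section Modular

variable (L : Type) [Field L] [Algebra ℚ L] [IsAlgClosed L] [CharZero L] (M : ℕ) [NeZero M]

/-- `hconst` for the modular function field `F_L(M)`. -/
theorem hconst_FL (f : HK1.FL L M) (_hf : f ≠ 0)
    (h : ∀ w : Place L (HK1.FL L M), w.ord f = 0) :
    ∃ c : L, f = algebraMap L (HK1.FL L M) c :=
  haveI := HK1.finiteDimensional_FL L M
  exists_const_of_ord_eq_zero (HK1.transcendental_jL L M) f h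

/-- `hnc` for the modular function field `F_L(M)`: `j` is not a constant. -/
theorem hnc_FL : ∃ x : HK1.FL L M, x ∉ Set.range (algebraMap L (HK1.FL L M)) := by
  refine ⟨HK1.jL L M, ?_⟩
  rintro ⟨c, hc⟩
  exact HK1.transcendental_jL L M (hc ▸ isAlgebraic_algebraMap c)

/-- Residue fields of `F_L(M)` are `L`. -/
theorem residue_surjective_FL' (w : Place L (HK1.FL L M)) :
    Function.Surjective (algebraMap L w.ResidueField) :=
  haveI := HK1.finiteDimensional_FL L M
  PD.residue_surjective (HK1.transcendental_jL L M) w

end Modular

end Fermat.Agent.Gateway.BaseChange.ModularConst
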