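import Fermat.Agent.Gateway.BaseChange.Modular

/-!
# P-GATEWAY WP-BC: transfer of the torsion count `ℂ → ℚ̄` without instance arguments (helper86)

`card_torsion_of_complex` : if `#Pic⁰(F_ℂ(N))[n]` is a known POSITIVE number `c`, then
`#J₀(N)(ℚ̄)[n] = c` (finiteness of the complex torsion is derived from `c ≠ 0`).
This is the glue for export E1 of GATEWAY_PLAN.
-/

set_option autoImplicit false

noncomputable section

namespace Fermat.Agent.Gateway.BaseChange.Modular

open ModularCurve AlgebraicCurve Fermat.Agent.Gateway.HK1 Fermat.Agent.S24.Setup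

attribute [local instance] algKbarC

variable (N : ℕ) [NeZero N]

theorem card_torsion_of_complex (n c : ℕ) (hc : c ≠ 0)
    (h : Nat.card (Pic0.torsion ℂ (FL ℂ N) n) = c) :
    Nat.card (Pic0.torsion Kbar (modularFunctionFieldBar N) n) = c := by
  have : Finite (Pic0.torsion ℂ (FL ℂ N) n) :=
    Nat.finite_of_card_ne_zero (by rw [h]; exact hc)
  rw [card_torsion_eq' N n, h]

/-- Export E1 from the complex count. -/
theorem card_torsion_pow_of_complex (g : ℕ)
    (h : ∀ n : ℕ, 0 < n → Nat.card (Pic0.torsion ℂ (FL ℂ N) n) = n ^ (2 * g)) (n : ℕ)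
    (hn : 0 < n) :
    Nat.card (Pic0.torsion Kbar (modularFunctionFieldBar N) n) = n ^ (2 * g) :=
  card_torsion_of_complex N n _ (pow_ne_zero _ hn.ne') (h n hn)

/-- The torsion of `J₀(N)(ℚ̄)` is finite as soon as the complex torsion is. -/
theorem finite_torsion_of_complex (n : ℕ) [Finite (Pic0.torsion ℂ (FL ℂ N) n)] :
    Finite (Pic0.torsion Kbar (modularFunctionFieldBar N) n) :=
  Finite.of_equiv _ (torsionEquiv' N n).symm.toEquiv

end Fermat.Agent.Gateway.BaseChange.Modular
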