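import Fermat.Agent.Gateway.BaseChange.ModularCount
import Fermat.Agent.Gateway.BaseChange.Hecke

/-!
# P-GATEWAY WP-BC: Hecke equivariance of the `ℚ̄ → ℂ` torsion isomorphism (helper86)

Glue of `Modular.bcPic0` / `Modular.torsionEquiv'` with helper64's
`Hecke.bcPic0_heckeOperatorAlong` (WP-BC5), for export E2 of GATEWAY_PLAN.
-/

set_option autoImplicit false

noncomputable section

namespace Fermat.Agent.Gateway.BaseChange.Modular

open ModularCurve AlgebraicCurve Fermat.Agent.Gateway.HK1 Fermat.Agent.S24.Setup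

attribute [local instance] algKbarC

variable (N : ℕ) [NeZero N]

/-- Base change commutes with `T_ℓ`. -/
theorem bcPic0_heckeOperatorAlong (ℓ : ℕ) [NeZero ℓ]
    (x : Pic0 Kbar (modularFunctionFieldBar N)) :
    bcPic0 N (heckeOperatorAlong Kbar N ℓ x) = heckeOperatorAlong ℂ N ℓ (bcPic0 N x) :=
  Hecke.bcPic0_heckeOperatorAlong Kbar ℂ N ℓ (hK N) x

theorem heckeOperatorAlong_mem_torsion (L : Type) [Field L] [Algebra ℚ L] (ℓ : ℕ) [NeZero ℓ]
    {n : ℕ} {x : Pic0 L (FL L N)} (hx : x ∈ Pic0.torsion L (FL L N) n) :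
    heckeOperatorAlong L N ℓ x ∈ Pic0.torsion L (FL L N) n := by
  rw [Pic0.mem_torsion] at hx ⊢
  rw [← map_zsmul, hx, map_zero]

/-- `T_ℓ` on `n`-torsion. -/
def heckeTorsion (L : Type) [Field L] [Algebra ℚ L] (ℓ : ℕ) [NeZero ℓ] (n : ℕ) :
    Pic0.torsion L (FL L N) n →+ Pic0.torsion L (FL L N) n :=
  ((heckeOperatorAlong L N ℓ).domRestrict (Pic0.torsion L (FL L N) n)).codRestrict _
    (fun x => heckeOperatorAlong_mem_torsion N L ℓ x.2)

@[simp]
theorem coe_heckeTorsion (L : Type) [Field L] [Algebra ℚ L] (ℓ : ℕ) [NeZero ℓ] (n : ℕ)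
    (x : Pic0.torsion L (FL L N) n) :
    (heckeTorsion N L ℓ n x : Pic0 L (FL L N)) = heckeOperatorAlong L N ℓ (x : Pic0 L (FL L N)) :=
  rfl

/-- The torsion isomorphism `J₀(N)[n](ℚ̄) ≃ Pic⁰(X₀(N)_ℂ)[n]` is Hecke equivariant. -/
theorem torsionEquiv'_heckeTorsion (ℓ : ℕ) [NeZero ℓ] (n : ℕ)
    [Finite (Pic0.torsion ℂ (FL ℂ N) n)]
    (y : Pic0.torsion Kbar (modularFunctionFieldBar N) n) :
    torsionEquiv' N n (heckeTorsion N Kbar ℓ n y) = heckeTorsion N ℂ ℓ n (torsionEquiv' N n y) := by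
  apply Subtype.ext
  rw [coe_torsionEquiv', coe_heckeTorsion, coe_heckeTorsion, coe_torsionEquiv',
    bcPic0_heckeOperatorAlong]

end Fermat.Agent.Gateway.BaseChange.Modular
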