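import Mathlib
import Fermat.Prelude.Def_AlgebraicCurve_BaseChangeGalois
import Fermat.Agent.S24.AddVal

/-!
# P-GATEWAY WP-BC, blocks BC3 + BC4b (helper86): abstract base change of divisor classes

`ExtData K L F0 F1`: a ring map `ι : F0 → F1` of function fields over `K → L` together with an
extension-of-places map `ext : Place K F0 → Place L F1` with `(ext v).ord (ι f) = v.ord f`, whose
range is `{w | ∃ f, w.ord (ι f) ≠ 0}` and which preserves degrees (this is exactly the output of
helper15's `Setup.extPlace`, note 295).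

* `ExtData.bc : Divisor K F0 →+ Divisor L F1`, `bc_ord`, `degree_bc`, `bcPic0`.
* `smul_ext`, `smul_bc`, `smul_bcPic0` : invariance under semilinear automorphisms fixing `ι F0`.
* `bcPic0_injective` (BC3).
* `mem_range_ext_of_finite_orbit` (BC4b).
-/

set_option autoImplicit false

noncomputable section

namespace Fermat.Agent.Gateway.BaseChange

open AlgebraicCurve Fermat.Agent.S24

/-- Extension-of-places data for a base change `F0/K → F1/L`. -/
structure ExtData (K L F0 F1 : Type*) [Field K] [Field L] [Field F0] [Field F1] [Algebra K L]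
    [Algebra K F0] [Algebra L F1] where
  ι : F0 →+* F1
  ι_const : ∀ a : K, ι (algebraMap K F0 a) = algebraMap L F1 (algebraMap K L a)
  ext : Place K F0 → Place L F1
  ext_ord : ∀ (v : Place K F0) (f : F0), (ext v).ord (ι f) = v.ord f
  mem_range_ext : ∀ w : Place L F1, (∃ f : F0, w.ord (ι f) ≠ 0) → w ∈ Set.range ext
  ext_deg : ∀ v : Place K F0, (ext v).deg = v.deg

section PlaceLemmas

variable {K F : Type*} [Field K] [Field F] [Algebra K F]

theorem place_ext_of_ord {v v' : Place K F} (h : ∀ f, v.ord f = v'.ord f) : v = v' :=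
  place_eq_of_ord_proportional (c := 1) (c' := 1) one_pos one_pos fun f _ => by
    simp [h f]

theorem place_exists_ord_eq_one (v : Place K F) : ∃ f : F, v.ord f = 1 := by
  obtain ⟨π, hπ⟩ := IsDiscreteValuationRing.exists_irreducible v.toValuationSubring
  exact ⟨π, v.ord_coe_irreducible hπ⟩

theorem place_ord_const (v : Place K F) (c : K) : v.ord (algebraMap K F c) = 0 := by
  rcases eq_or_ne c 0 with rfl | hc
  · simp
  · exact (isAddVal_ord v).map_const c hc

theorem place_ord_const_mul (v : Place K F) {c : K} (hc : c ≠ 0) (x : F) :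
    v.ord (algebraMap K F c * x) = v.ord x := by
  rcases eq_or_ne x 0 with rfl | hx
  · simp
  · rw [v.ord_mul (by simpa using hc) hx, place_ord_const, zero_add]

end PlaceLemmas

namespace ExtData

variable {K L F0 F1 : Type*} [Field K] [Field L] [Field F0] [Field F1] [Algebra K L]
  [Algebra K F0] [Algebra L F1] (E : ExtData K L F0 F1)

theorem ι_injective : Function.Injective E.ι := E.ι.injective

theorem ext_injective : Function.Injective E.ext := by
  intro v v' h
  apply place_ext_of_ord
  intro f
  rw [← E.ext_ord v f, ← E.ext_ord v' f, h]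

/-- Base change of divisors. -/
def bc : Divisor K F0 →+ Divisor L F1 := Finsupp.mapDomain.addMonoidHom E.ext

theorem bc_def (D : Divisor K F0) : E.bc D = Finsupp.mapDomain E.ext D := rfl

@[simp]
theorem bc_single (v : Place K F0) (n : ℤ) :
    E.bc (Finsupp.single v n) = Finsupp.single (E.ext v) n := by
  rw [bc_def, Finsupp.mapDomain_single]

@[simp]
theorem bc_apply_ext (D : Divisor K F0) (v : Place K F0) : E.bc D (E.ext v) = D v :=
  Finsupp.mapDomain_apply E.ext_injective D v

theorem bc_apply_of_notMem (D : Divisor K F0) {w : Place L F1} (hw : w ∉ Set.range E.ext) :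
    E.bc D w = 0 :=
  Finsupp.mapDomain_of_notMem_range D w hw

theorem bc_injective : Function.Injective E.bc :=
  Finsupp.mapDomain_injective E.ext_injective

@[simp]
theorem degree_bc (D : Divisor K F0) : Divisor.degree (E.bc D) = Divisor.degree D := by
  induction D using Finsupp.induction with
  | zero => simp
  | single_add v n D _ _ ih =>
      rw [map_add, map_add, map_add, ih, bc_single, Divisor.degree_single, Divisor.degree_single,
        E.ext_deg]

/-- `bc (div f) = div (ι f)`. -/
theorem bc_ord {D : Divisor K F0} {f : F0} (hD : ∀ v, D v = v.ord f) (w : Place L F1) :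
    E.bc D w = w.ord (E.ι f) := by
  by_cases hw : w ∈ Set.range E.ext
  · obtain ⟨v, rfl⟩ := hw
    rw [bc_apply_ext, hD, E.ext_ord]
  · rw [bc_apply_of_notMem E D hw]
    by_contra hne
    exact hw (E.mem_range_ext w ⟨f, fun h => hne h.symm⟩)

theorem bc_mem_principal {D : Divisor K F0} (hD : D ∈ Divisor.principal (K := K) (F := F0)) :
    E.bc D ∈ Divisor.principal (K := L) (F := F1) := by
  obtain ⟨f, hf, hD⟩ := hD
  exact ⟨E.ι f, (map_ne_zero E.ι).mpr hf, fun w => E.bc_ord hD w⟩

theorem bc_mem_degZero {D : Divisor K F0} (hD : D ∈ Divisor.degZero (K := K) (F := F0)) :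
    E.bc D ∈ Divisor.degZero (K := L) (F := F1) := by
  rw [Divisor.mem_degZero] at hD ⊢
  rw [degree_bc, hD]

/-- Base change on degree zero divisors. -/
def bcDegZero : Divisor.degZero (K := K) (F := F0) →+ Divisor.degZero (K := L) (F := F1) :=
  (E.bc.domRestrict (Divisor.degZero (K := K) (F := F0))).codRestrict _
    (fun D => E.bc_mem_degZero D.2)

@[simp]
theorem coe_bcDegZero (D : Divisor.degZero (K := K) (F := F0)) :
    (E.bcDegZero D : Divisor L F1) = E.bc (D : Divisor K F0) := rfl

/-- Base change on `Pic⁰`. -/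
def bcPic0 : Pic0 K F0 →+ Pic0 L F1 :=
  QuotientAddGroup.map _ _ E.bcDegZero (by
    rintro ⟨D, hD0⟩ hD
    simp only [AddSubgroup.mem_addSubgroupOf] at hD ⊢
    exact E.bc_mem_principal hD)

theorem bcPic0_mk (D : Divisor.degZero (K := K) (F := F0)) :
    E.bcPic0 (Pic0.mk D) = Pic0.mk (E.bcDegZero D) := rfl

theorem pic0_mk_eq_zero_iff {K F : Type*} [Field K] [Field F] [Algebra K F]
    (D : Divisor.degZero (K := K) (F := F)) :
    Pic0.mk D = 0 ↔ (D : Divisor K F) ∈ Divisor.principal (K := K) (F := F) := by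
  rw [Pic0.mk, QuotientAddGroup.eq_zero_iff, AddSubgroup.mem_addSubgroupOf]

section Action

/-- A semilinear automorphism fixing `ι F0` fixes every extended place. -/
theorem smul_ext (g : SemilinearAut L F1) (hg : ∀ f : F0, g • E.ι f = E.ι f)
    (v : Place K F0) : g • E.ext v = E.ext v := by
  have hord : ∀ f : F0, (g • E.ext v).ord (E.ι f) = v.ord f := by
    intro f
    have := SemilinearAut.ord_smul g (E.ext v) (E.ι f)
    rw [hg f, E.ext_ord] at this
    exact this
  obtain ⟨π, hπ⟩ := place_exists_ord_eq_one v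
  obtain ⟨v', hv'⟩ := E.mem_range_ext (g • E.ext v) ⟨π, by rw [hord, hπ]; exact one_ne_zero⟩
  have : v' = v := by
    apply place_ext_of_ord
    intro f
    rw [← hord f, ← hv', E.ext_ord]
  rw [← hv', this]

theorem smul_bc (g : SemilinearAut L F1) (hg : ∀ f : F0, g • E.ι f = E.ι f)
    (D : Divisor K F0) : g • E.bc D = E.bc D := by
  induction D using Finsupp.induction with
  | zero => simp
  | single_add v n D _ _ ih =>
      rw [map_add, smul_add, ih, bc_single, SemilinearAut.smul_single, E.smul_ext g hg]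

theorem smul_bcPic0 (g : SemilinearAut L F1) (hg : ∀ f : F0, g • E.ι f = E.ι f)
    (x : Pic0 K F0) : g • E.bcPic0 x = E.bcPic0 x := by
  obtain ⟨D, rfl⟩ := Pic0.mk_surjective x
  rw [bcPic0_mk, SemilinearAut.pic0_smul_mk]
  congr 1
  apply Subtype.ext
  rw [SemilinearAut.coe_degZeroSMulHom, coe_bcDegZero, E.smul_bc g hg]

end Action

section Injective

variable {G : Type*} [Group G] (ρ : G →* SemilinearAut L F1)

/-- **BC3**: `bcPic0` is injective, given
* `hfix`: `G` fixes `ι F0`;
* `lc`: a `G`-equivariant "leading coefficient" `F1 → L`;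
* `hconst`: functions without zeros and poles are constant;
* `hdesc`: `G`-fixed functions come from `F0`. -/
theorem bcPic0_injective (hfix : ∀ (g : G) (f : F0), ρ g • E.ι f = E.ι f)
    (lc : F1 → L) (hlc0 : ∀ x, x ≠ 0 → lc x ≠ 0)
    (hlc_mul : ∀ (c : L) (x : F1), lc (algebraMap L F1 c * x) = c * lc x)
    (hlc_smul : ∀ (g : G) (x : F1), lc (ρ g • x) = SemilinearAut.baseAut (ρ g) (lc x))
    (hconst : ∀ x : F1, x ≠ 0 → (∀ w : Place L F1, w.ord x = 0) → ∃ c : L, x = algebraMap L F1 c)
    (hdesc : ∀ x : F1, (∀ g : G, ρ g • x = x) → ∃ f : F0, E.ι f = x) :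
    Function.Injective E.bcPic0 := by
  rw [injective_iff_map_eq_zero]
  intro x hx
  obtain ⟨D, rfl⟩ := Pic0.mk_surjective x
  rw [bcPic0_mk, pic0_mk_eq_zero_iff, coe_bcDegZero] at hx
  rw [pic0_mk_eq_zero_iff]
  obtain ⟨x, hx0, hxD⟩ := hx
  -- normalise
  set c0 : L := (lc x)⁻¹ with hc0
  have hc0ne : c0 ≠ 0 := inv_ne_zero (hlc0 x hx0)
  set x' : F1 := algebraMap L F1 c0 * x with hx'
  have hx'0 : x' ≠ 0 := mul_ne_zero (by simpa using hc0ne) hx0
  have hx'D : ∀ w : Place L F1, E.bc (D : Divisor K F0) w = w.ord x' := by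
    intro w
    rw [hxD w, hx', place_ord_const_mul w hc0ne]
  have hlc' : lc x' = 1 := by
    rw [hx', hlc_mul, hc0, inv_mul_cancel₀ (hlc0 x hx0)]
  -- `x'` is `G`-fixed
  have hfixed : ∀ g : G, ρ g • x' = x' := by
    intro g
    have hy0 : ρ g • x' ≠ 0 := by
      intro h
      apply hx'0
      have := congrArg (fun z => (ρ g)⁻¹ • z) h
      simpa using this
    have hord : ∀ w : Place L F1, w.ord (ρ g • x') = w.ord x' := by
      intro w
      have h1 := SemilinearAut.ord_smul (ρ g) ((ρ g)⁻¹ • w) x'
      rw [smul_inv_smul] at h1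
      rw [h1, ← hx'D, ← hx'D]
      have h2 := SemilinearAut.divisor_smul_apply (ρ g) (E.bc (D : Divisor K F0)) w
      rw [E.smul_bc (ρ g) (hfix g)] at h2
      exact h2.symm
    obtain ⟨c, hc⟩ := hconst (ρ g • x' / x') (div_ne_zero hy0 hx'0) fun w => by
      rw [(isAddVal_ord w).map_div hy0 hx'0, hord w, sub_self]
    have hy : ρ g • x' = algebraMap L F1 c * x' := by
      rw [← hc]
      field_simp
    have h3 := hlc_smul g x'
    rw [hy, hlc_mul, hlc', mul_one, map_one] at h3
    rw [hy, h3, map_one, one_mul]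
  obtain ⟨f, hf⟩ := hdesc x' hfixed
  have hf0 : f ≠ 0 := by
    rintro rfl
    rw [map_zero] at hf
    exact hx'0 hf.symm
  refine ⟨f, hf0, fun v => ?_⟩
  rw [← E.bc_apply_ext (D : Divisor K F0) v, hx'D, ← hf, E.ext_ord]

end Injective

section FiniteOrbit

variable {G : Type*} [Group G] (ρ : G →* SemilinearAut L F1)

/-- **BC4b**: a place of `F1` with finite `G`-orbit is an extended place, given that residue
fields of `F1` are `L` (`hres`, in order form), that constants outside `K` have infinite
`G`-orbits, and that `F0 ≠ K`. -/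
theorem mem_range_ext_of_finite_orbit (hfix : ∀ (g : G) (f : F0), ρ g • E.ι f = E.ι f)
    (hres : ∀ (w : Place L F1) (u : F1), w.ord u = 0 →
      ∃ a : L, u = algebraMap L F1 a ∨ 0 < w.ord (u - algebraMap L F1 a))
    (horb : ∀ a : L, a ∉ Set.range (algebraMap K L) →
      (Set.range fun g : G => SemilinearAut.baseAut (ρ g) a).Infinite)
    (hnc : ∃ x : F0, x ∉ Set.range (algebraMap K F0))
    (w : Place L F1) (hw : (Set.range fun g : G => ρ g • w).Finite) :
    w ∈ Set.range E.ext := by
  by_contra hnot
  have hzero : ∀ f : F0, w.ord (E.ι f) = 0 := by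
    intro f
    by_contra h
    exact hnot (E.mem_range_ext w ⟨f, h⟩)
  obtain ⟨x, hx⟩ := hnc
  obtain ⟨a, ha⟩ := hres w (E.ι x) (hzero x)
  -- `a ∉ K`
  have haK : a ∉ Set.range (algebraMap K L) := by
    rintro ⟨a0, rfl⟩
    rcases ha with ha | ha
    · rw [← E.ι_const] at ha
      exact hx ⟨a0, (E.ι_injective ha).symm⟩
    · rw [← E.ι_const, ← map_sub, hzero] at ha
      exact lt_irrefl _ ha
  -- `ι x ≠ a`
  have hne : E.ι x - algebraMap L F1 a ≠ 0 := by
    intro h0
    have hfixa : ∀ g : G, SemilinearAut.baseAut (ρ g) a = a := by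
      intro g
      have h1 := hfix g x
      rw [sub_eq_zero.mp h0, SemilinearAut.smul_algebraMap] at h1
      exact (algebraMap L F1).injective h1
    have : (Set.range fun g : G => SemilinearAut.baseAut (ρ g) a) ⊆ {a} := by
      rintro _ ⟨g, rfl⟩
      exact hfixa g
    exact horb a haK ((Set.finite_singleton a).subset this)
  have hpos : 0 < w.ord (E.ι x - algebraMap L F1 a) := by
    rcases ha with ha | ha
    · exact absurd (sub_eq_zero.mpr ha) hne
    · exact ha
  -- pigeonhole
  have hposg : ∀ g : G, 0 < (ρ g • w).ord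
      (E.ι x - algebraMap L F1 (SemilinearAut.baseAut (ρ g) a)) := by
    intro g
    have h1 := SemilinearAut.ord_smul (ρ g) w (E.ι x - algebraMap L F1 a)
    rw [smul_sub, hfix g x, SemilinearAut.smul_algebraMap] at h1
    rw [h1]
    exact hpos
  -- two group elements with the same place but different constants
  obtain ⟨g, g', hgw, hga⟩ : ∃ g g' : G, ρ g • w = ρ g' • w ∧
      SemilinearAut.baseAut (ρ g) a ≠ SemilinearAut.baseAut (ρ g') a := by
    by_contra hcon
    push Not at hcon
    -- then `g • w ↦ g a` is a well-defined surjection from a finite set onto an infinite one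
    apply horb a haK
    have hfin : ((fun p : Place L F1 × L => p.2) ''
        (Set.range fun g : G => (ρ g • w, SemilinearAut.baseAut (ρ g) a))).Finite := by
      apply Set.Finite.image
      -- the graph is the graph of a function on the finite orbit
      have hsub : (Set.range fun g : G => (ρ g • w, SemilinearAut.baseAut (ρ g) a))
          ⊆ (fun w' : Place L F1 => (w', SemilinearAut.baseAut
              (ρ (Classical.epsilon fun g : G => ρ g • w = w')) a)) ''
            (Set.range fun g : G => ρ g • w) := by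
        rintro _ ⟨g, rfl⟩
        refine ⟨ρ g • w, ⟨g, rfl⟩, ?_⟩
        have hsp : ρ (Classical.epsilon fun g' : G => ρ g' • w = ρ g • w) • w = ρ g • w :=
          Classical.epsilon_spec (p := fun g' : G => ρ g' • w = ρ g • w) ⟨g, rfl⟩
        simp only [Prod.mk.injEq, true_and]
        exact hcon _ _ hsp
      exact (hw.image _).subset hsub
    refine hfin.subset ?_
    rintro _ ⟨g, rfl⟩
    exact ⟨(ρ g • w, SemilinearAut.baseAut (ρ g) a), ⟨g, rfl⟩, rfl⟩
  have h1 := hposg g
  have h2 := hposg g'
  rw [← hgw] at h2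
  revert h1 h2 hga
  generalize (ρ g • w) = w'
  generalize SemilinearAut.baseAut (ρ g) a = b
  generalize SemilinearAut.baseAut (ρ g') a = b'
  intro hga h1 h2
  have hbb : b' - b ≠ 0 := sub_ne_zero.mpr (Ne.symm hga)
  have hne1 : E.ι x - algebraMap L F1 b ≠ 0 := by
    intro h0; rw [h0] at h1; simp at h1
  have hne2 : E.ι x - algebraMap L F1 b' ≠ 0 := by
    intro h0; rw [h0] at h2; simp at h2
  have hdiff : (E.ι x - algebraMap L F1 b) - (E.ι x - algebraMap L F1 b')
      = algebraMap L F1 (b' - b) := by
    rw [map_sub]; ring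
  have hne3 : (E.ι x - algebraMap L F1 b) - (E.ι x - algebraMap L F1 b') ≠ 0 := by
    rw [hdiff]
    exact (map_ne_zero (algebraMap L F1)).mpr hbb
  have h3 := (isAddVal_ord w').map_sub hne1 hne2 hne3
  rw [hdiff, place_ord_const] at h3
  have := lt_min h1 h2
  omega

end FiniteOrbit

end ExtData

end Fermat.Agent.Gateway.BaseChange
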